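import Fermat.Agent.S11.Basic

/-!
# Case II descent (Kummer) in a principal cyclotomic ring, assuming Kummer's lemma
-/

open NumberField Polynomial

set_option linter.unusedSectionVars false
set_option linter.unusedVariables false

namespace Fermat.Agent.S11

/-- Kummer's lemma for the field `K` and the prime `p`, as a property. -/
def KummerLemma (p : ℕ) (K : Type*) [Field K] [NumberField K] : Prop :=
  ∀ u : (𝓞 K)ˣ, (∃ n : ℤ, (p : 𝓞 K) ∣ (u : 𝓞 K) - (n : 𝓞 K)) → ∃ v : (𝓞 K)ˣ, u = v ^ p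

variable {p : ℕ} [hp : Fact p.Prime] {K : Type*} [Field K] [NumberField K]
  [IsCyclotomicExtension {p} ℚ K] {ζ : K} (hζ : IsPrimitiveRoot ζ p)

section descent

variable {x y : 𝓞 K}

/-- If `ζ - 1` divides `x ^ p + y ^ p`, it divides every factor `x + η y`. -/
theorem lam_dvd_add_mul (hp2 : p ≠ 2) (h : hζ.toInteger - 1 ∣ x ^ p + y ^ p) {η : 𝓞 K}
    (hη : η ∈ nthRootsFinset p (1 : 𝓞 K)) : hζ.toInteger - 1 ∣ x + η * y := by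
  have hz := hζ.toInteger_isPrimitiveRoot
  have hodd : Odd p := hp.out.odd_of_ne_two hp2
  rw [hz.pow_add_pow_eq_prod_add_mul x y hodd] at h
  obtain ⟨η₀, hη₀, h0⟩ := (hζ.zeta_sub_one_prime'.dvd_finsetProd_iff _).1 h
  have h1 : hζ.toInteger - 1 ∣ η - η₀ := hz.sub_one_dvd_sub hp.out hη hη₀
  have : x + η * y = (x + η₀ * y) + (η - η₀) * y := by ring
  rw [this]
  exact dvd_add h0 (h1.mul_right y)

/-- Differences of distinct `p`-th roots of unity are `ζ - 1` times a unit. -/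
theorem exists_unit_sub_eq {η₁ η₂ : 𝓞 K} (h₁ : η₁ ∈ nthRootsFinset p (1 : 𝓞 K))
    (h₂ : η₂ ∈ nthRootsFinset p (1 : 𝓞 K)) (hne : η₁ ≠ η₂) :
    ∃ u : (𝓞 K)ˣ, η₁ - η₂ = (hζ.toInteger - 1) * u := by
  have hz := hζ.toInteger_isPrimitiveRoot
  obtain ⟨u, hu⟩ := hz.nthRootsFinset_pairwise_associated_sub_one_sub_of_prime hp.out h₁ h₂ hne
  exact ⟨u, hu.symm⟩

variable {t : 𝓞 K → 𝓞 K}

/-- Key relations between two of the quotients `t η = (x + η y) / (ζ - 1)`. -/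
theorem t_sub_t (ht : ∀ η ∈ nthRootsFinset p (1 : 𝓞 K), x + η * y = (hζ.toInteger - 1) * t η)
    {η₁ η₂ : 𝓞 K} (h₁ : η₁ ∈ nthRootsFinset p (1 : 𝓞 K))
    (h₂ : η₂ ∈ nthRootsFinset p (1 : 𝓞 K)) {u : (𝓞 K)ˣ}
    (hu : η₁ - η₂ = (hζ.toInteger - 1) * u) :
    t η₁ - t η₂ = u * y ∧ η₂ * t η₁ - η₁ * t η₂ = - (u * x) := by
  have hl0 : hζ.toInteger - 1 ≠ 0 := hζ.zeta_sub_one_prime'.ne_zero
  constructor
  · apply mul_left_cancel₀ hl0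
    rw [mul_sub, ← ht η₁ h₁, ← ht η₂ h₂, ← mul_assoc, ← hu]
    ring
  · apply mul_left_cancel₀ hl0
    have e1 : (hζ.toInteger - 1) * (η₂ * t η₁ - η₁ * t η₂) =
        η₂ * ((hζ.toInteger - 1) * t η₁) - η₁ * ((hζ.toInteger - 1) * t η₂) := by ring
    rw [e1, ← ht η₁ h₁, ← ht η₂ h₂, mul_neg, ← mul_assoc, ← hu]
    ring

theorem t_isCoprime (hxy : IsCoprime x y)
    (ht : ∀ η ∈ nthRootsFinset p (1 : 𝓞 K), x + η * y = (hζ.toInteger - 1) * t η)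
    {η₁ η₂ : 𝓞 K} (h₁ : η₁ ∈ nthRootsFinset p (1 : 𝓞 K))
    (h₂ : η₂ ∈ nthRootsFinset p (1 : 𝓞 K)) (hne : η₁ ≠ η₂) :
    IsCoprime (t η₁) (t η₂) := by
  obtain ⟨u, hu⟩ := exists_unit_sub_eq hζ h₁ h₂ hne
  obtain ⟨e1, e2⟩ := t_sub_t hζ ht h₁ h₂ hu
  obtain ⟨a, b, hab⟩ := hxy
  refine ⟨(-a * η₂ + b) * (u⁻¹ : (𝓞 K)ˣ), (a * η₁ - b) * (u⁻¹ : (𝓞 K)ˣ), ?_⟩
  have hx : x = - ((u⁻¹ : (𝓞 K)ˣ) : 𝓞 K) * (η₂ * t η₁ - η₁ * t η₂) := by
    rw [e2]; simp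
  have hy : y = ((u⁻¹ : (𝓞 K)ˣ) : 𝓞 K) * (t η₁ - t η₂) := by
    rw [e1]; simp
  calc (-a * η₂ + b) * ((u⁻¹ : (𝓞 K)ˣ) : 𝓞 K) * t η₁ + (a * η₁ - b) * ((u⁻¹ : (𝓞 K)ˣ) : 𝓞 K) * t η₂
      = a * (- ((u⁻¹ : (𝓞 K)ˣ) : 𝓞 K) * (η₂ * t η₁ - η₁ * t η₂))
        + b * (((u⁻¹ : (𝓞 K)ˣ) : 𝓞 K) * (t η₁ - t η₂)) := by ring
    _ = a * x + b * y := by rw [← hx, ← hy]
    _ = 1 := hab

theorem not_lam_dvd_t_of_ne (hy : ¬ hζ.toInteger - 1 ∣ y)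
    (ht : ∀ η ∈ nthRootsFinset p (1 : 𝓞 K), x + η * y = (hζ.toInteger - 1) * t η)
    {η₁ η₂ : 𝓞 K} (h₁ : η₁ ∈ nthRootsFinset p (1 : 𝓞 K))
    (h₂ : η₂ ∈ nthRootsFinset p (1 : 𝓞 K)) (hne : η₁ ≠ η₂)
    (hdvd : hζ.toInteger - 1 ∣ t η₁ - t η₂) : False := by
  obtain ⟨u, hu⟩ := exists_unit_sub_eq hζ h₁ h₂ hne
  obtain ⟨e1, -⟩ := t_sub_t hζ ht h₁ h₂ hu
  rw [e1] at hdvd
  exact hy ((Units.dvd_mul_left).1 hdvd) 

/-- Pigeonhole: some `t η₀` is divisible by `ζ - 1`. -/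
theorem exists_lam_dvd_t (hp2 : p ≠ 2) (hy : ¬ hζ.toInteger - 1 ∣ y)
    (ht : ∀ η ∈ nthRootsFinset p (1 : 𝓞 K), x + η * y = (hζ.toInteger - 1) * t η) :
    ∃ η₀ ∈ nthRootsFinset p (1 : 𝓞 K), hζ.toInteger - 1 ∣ t η₀ := by
  have hz := hζ.toInteger_isPrimitiveRoot
  let I : Ideal (𝓞 K) := Ideal.span {hζ.toInteger - 1}
  have hfin : Finite (𝓞 K ⧸ I) := hζ.finite_quotient_span_sub_one'
  have hcardI : Nat.card (𝓞 K ⧸ I) = p := by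
    have := hζ.card_quotient_toInteger_sub_one
    rw [hζ.norm_toInteger_sub_one_of_prime_ne_two' hp2] at this
    simpa using this
  let f : {η // η ∈ nthRootsFinset p (1 : 𝓞 K)} → 𝓞 K ⧸ I := fun η ↦ Ideal.Quotient.mk I (t η.1)
  have hinj : Function.Injective f := by
    intro η₁ η₂ h
    by_contra hne
    have hne' : η₁.1 ≠ η₂.1 := fun h' ↦ hne (Subtype.ext h')
    have h' : hζ.toInteger - 1 ∣ t η₁.1 - t η₂.1 := by
      rw [← Ideal.mem_span_singleton, ← Ideal.Quotient.eq]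
      exact h
    exact not_lam_dvd_t_of_ne hζ hy ht η₁.2 η₂.2 hne' h'
  have hcard : Nat.card {η // η ∈ nthRootsFinset p (1 : 𝓞 K)} = p := by
    rw [Nat.card_eq_fintype_card, Fintype.card_coe, hz.card_nthRootsFinset]
  have hbij : Function.Bijective f :=
    hinj.bijective_of_nat_card_le (by rw [hcard, hcardI])
  obtain ⟨η₀, hη₀⟩ := hbij.2 0
  refine ⟨η₀.1, η₀.2, ?_⟩
  rw [← Ideal.mem_span_singleton]
  exact Ideal.Quotient.eq_zero_iff_mem.1 hη₀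

/-- The algebraic heart of the descent: from three of the factors being `p`-th powers up to units
we get a new solution, using Kummer's lemma. -/
theorem descent_core (hK : KummerLemma p K) {x y : 𝓞 K} {t : 𝓞 K → 𝓞 K}
    (ht : ∀ η ∈ nthRootsFinset p (1 : 𝓞 K), x + η * y = (hζ.toInteger - 1) * t η)
    {η₀ η₁ η₂ : 𝓞 K} (h₀ : η₀ ∈ nthRootsFinset p (1 : 𝓞 K))
    (h₁ : η₁ ∈ nthRootsFinset p (1 : 𝓞 K)) (h₂ : η₂ ∈ nthRootsFinset p (1 : 𝓞 K))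
    (h01 : η₀ ≠ η₁) (h12 : η₁ ≠ η₂) (h20 : η₂ ≠ η₀)
    {ρ₀ ρ₁ ρ₂ : 𝓞 K} {v₀ v₁ v₂ : (𝓞 K)ˣ} {m' : ℕ} (hm' : 1 ≤ m')
    (e₀ : t η₀ = ((hζ.toInteger - 1) ^ m' * ρ₀) ^ p * v₀)
    (e₁ : t η₁ = ρ₁ ^ p * v₁) (e₂ : t η₂ = ρ₂ ^ p * v₂)
    (hρ₂ : ¬ hζ.toInteger - 1 ∣ ρ₂) :
    ∃ (η ε'' : (𝓞 K)ˣ),
      ρ₁ ^ p + ((η : 𝓞 K) * ρ₂) ^ p = ε'' * ((hζ.toInteger - 1) ^ m' * ρ₀) ^ p := by
  have hl0 : hζ.toInteger - 1 ≠ 0 := hζ.zeta_sub_one_prime'.ne_zero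
  obtain ⟨u₂₀, hu₂₀⟩ := exists_unit_sub_eq hζ h₂ h₀ h20
  obtain ⟨u₀₁, hu₀₁⟩ := exists_unit_sub_eq hζ h₀ h₁ h01
  obtain ⟨u₁₂, hu₁₂⟩ := exists_unit_sub_eq hζ h₁ h₂ h12
  have key : t η₁ * u₂₀ + t η₂ * u₀₁ + t η₀ * u₁₂ = 0 := by
    apply mul_left_cancel₀ (pow_ne_zero 2 hl0)
    have e : (hζ.toInteger - 1) ^ 2 * (t η₁ * u₂₀ + t η₂ * u₀₁ + t η₀ * u₁₂) =
        ((hζ.toInteger - 1) * t η₁) * ((hζ.toInteger - 1) * u₂₀)
        + ((hζ.toInteger - 1) * t η₂) * ((hζ.toInteger - 1) * u₀₁)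
        + ((hζ.toInteger - 1) * t η₀) * ((hζ.toInteger - 1) * u₁₂) := by ring
    rw [e, ← ht η₁ h₁, ← ht η₂ h₂, ← ht η₀ h₀, ← hu₂₀, ← hu₀₁, ← hu₁₂]
    ring
  set w₁ : (𝓞 K)ˣ := v₁ * u₂₀ with hw₁
  set w₂ : (𝓞 K)ˣ := v₂ * u₀₁ with hw₂
  set w₀ : (𝓞 K)ˣ := v₀ * u₁₂ with hw₀
  set Z : 𝓞 K := (hζ.toInteger - 1) ^ m' * ρ₀ with hZ
  have key2 : ρ₁ ^ p * w₁ + ρ₂ ^ p * w₂ + Z ^ p * w₀ = 0 := by
    rw [e₀, e₁, e₂] at key
    rw [hw₁, hw₂, hw₀]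
    push_cast
    linear_combination key
  set ε' : (𝓞 K)ˣ := w₂ * w₁⁻¹ with hε'
  set ε'' : (𝓞 K)ˣ := -(w₀ * w₁⁻¹) with hε''
  have hw : (w₁ : 𝓞 K) * ((w₁⁻¹ : (𝓞 K)ˣ) : 𝓞 K) = 1 := by simp
  have key3 : ρ₁ ^ p + (ε' : 𝓞 K) * ρ₂ ^ p = ε'' * Z ^ p := by
    rw [hε', hε'']
    push_cast
    linear_combination ((w₁⁻¹ : (𝓞 K)ˣ) : 𝓞 K) * key2 - (ρ₁ ^ p) * hw
  -- Kummer's lemma applies to `ε'`
  obtain ⟨a, ha⟩ := exists_int_pow_sub_dvd (p := p) ρ₁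
  obtain ⟨b, hb⟩ := exists_int_pow_sub_dvd (p := p) ρ₂
  have hpl : (p : 𝓞 K) ∣ Z ^ p := by
    rw [hZ, mul_pow, ← pow_mul, mul_comm m' p, pow_mul]
    exact ((prime_dvd_zeta_sub_one_pow hζ).trans
      (dvd_pow_self _ (by omega))).mul_right _
  have h1 : (p : 𝓞 K) ∣ (a : 𝓞 K) + ε' * b := by
    have : (a : 𝓞 K) + ε' * b = ε'' * Z ^ p - (ρ₁ ^ p - a) - ε' * (ρ₂ ^ p - b) := by
      rw [← key3]; ring
    rw [this]
    exact dvd_sub (dvd_sub (hpl.mul_left _) ha) (hb.mul_left _)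
  have hb' : ¬ (p : ℤ) ∣ b := by
    intro hpb
    have h1 : hζ.toInteger - 1 ∣ (b : 𝓞 K) :=
      (IsCyclotomicExtension.Rat.zeta_sub_one_dvd_intCast_iff' p hζ).2 hpb
    have h2 : hζ.toInteger - 1 ∣ ρ₂ ^ p - b := hζ.toInteger_sub_one_dvd_prime'.trans hb
    have h3 : hζ.toInteger - 1 ∣ ρ₂ ^ p := by simpa using dvd_add h2 h1
    exact hρ₂ (hζ.zeta_sub_one_prime'.dvd_of_dvd_pow h3)
  obtain ⟨b', hbb'⟩ : ∃ b' : ℤ, (p : ℤ) ∣ b * b' - 1 := by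
    have hcop : IsCoprime (p : ℤ) b :=
      (Nat.prime_iff_prime_int.1 hp.out).coprime_iff_not_dvd.2 hb'
    obtain ⟨u, v, huv⟩ := hcop
    exact ⟨v, ⟨-u, by linear_combination huv⟩⟩
  have hK1 : ∃ n : ℤ, (p : 𝓞 K) ∣ (ε' : 𝓞 K) - (n : 𝓞 K) := by
    refine ⟨-(a * b'), ?_⟩
    have hbb'' : (p : 𝓞 K) ∣ (b : 𝓞 K) * b' - 1 := by
      obtain ⟨c, hc⟩ := hbb'
      refine ⟨c, ?_⟩
      have := congrArg (Int.cast : ℤ → 𝓞 K) hc
      push_cast at this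
      exact this
    have : (ε' : 𝓞 K) - ((-(a * b') : ℤ) : 𝓞 K) =
        ((a : 𝓞 K) + ε' * b) * b' - ε' * ((b : 𝓞 K) * b' - 1) := by
      push_cast; ring
    rw [this]
    exact dvd_sub (h1.mul_right _) (hbb''.mul_left _)
  obtain ⟨η, hη⟩ := hK ε' hK1
  refine ⟨η, ε'', ?_⟩
  rw [mul_pow, ← key3, hη]
  push_cast
  rfl

/-- One step of Kummer's descent. -/
theorem descent_step [IsPrincipalIdealRing (𝓞 K)] (hp2 : p ≠ 2) (hK : KummerLemma p K)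
    {m : ℕ} (hm : 1 ≤ m) {x y z₀ : 𝓞 K} {ε : (𝓞 K)ˣ} (hxy : IsCoprime x y)
    (hz₀ : ¬ hζ.toInteger - 1 ∣ z₀)
    (H : x ^ p + y ^ p = ε * ((hζ.toInteger - 1) ^ m * z₀) ^ p) :
    ∃ m', m = m' + 1 ∧ 1 ≤ m' ∧ ∃ (x' y' z₀' : 𝓞 K) (ε' : (𝓞 K)ˣ), IsCoprime x' y' ∧
      ¬ hζ.toInteger - 1 ∣ z₀' ∧
      x' ^ p + y' ^ p = ε' * ((hζ.toInteger - 1) ^ m' * z₀') ^ p := by
  classical
  have hz := hζ.toInteger_isPrimitiveRoot
  have hl := hζ.zeta_sub_one_prime'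
  have hl0 : hζ.toInteger - 1 ≠ 0 := hl.ne_zero
  have hodd : Odd p := hp.out.odd_of_ne_two hp2
  have hp0 : p ≠ 0 := hp.out.ne_zero
  have hp3 : 3 ≤ p := by
    have := hp.out.two_le
    omega
  have hdvd : hζ.toInteger - 1 ∣ x ^ p + y ^ p := by
    rw [H, mul_pow, ← pow_mul]
    exact Dvd.dvd.mul_left (Dvd.dvd.mul_right (dvd_pow_self _ (by positivity)) _) _
  have hy : ¬ hζ.toInteger - 1 ∣ y := by
    intro h
    have hx : hζ.toInteger - 1 ∣ x := by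
      have : hζ.toInteger - 1 ∣ x ^ p := by
        simpa using dvd_sub hdvd (dvd_pow h hp0)
      exact hl.dvd_of_dvd_pow this
    exact hl.not_isUnit (hxy.isUnit_of_dvd' hx h)
  have hdiv : ∀ η ∈ nthRootsFinset p (1 : 𝓞 K), hζ.toInteger - 1 ∣ x + η * y :=
    fun η hη ↦ lam_dvd_add_mul hζ hp2 hdvd hη
  choose! t ht using hdiv
  obtain ⟨η₀, h₀, hη₀⟩ := exists_lam_dvd_t hζ hp2 hy ht
  have hnd : ∀ η ∈ nthRootsFinset p (1 : 𝓞 K), η ≠ η₀ → ¬ hζ.toInteger - 1 ∣ t η := by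
    intro η hη hne h
    exact not_lam_dvd_t_of_ne hζ hy ht hη h₀ hne (dvd_sub h hη₀)
  obtain ⟨k, rfl⟩ : ∃ k, m = k + 1 := ⟨m - 1, by omega⟩
  have hprod : ∏ η ∈ nthRootsFinset p (1 : 𝓞 K), t η =
      ε * ((hζ.toInteger - 1) ^ k * z₀) ^ p := by
    apply mul_left_cancel₀ (pow_ne_zero p hl0)
    have : (hζ.toInteger - 1) ^ p * ∏ η ∈ nthRootsFinset p (1 : 𝓞 K), t η =
        ∏ η ∈ nthRootsFinset p (1 : 𝓞 K), ((hζ.toInteger - 1) * t η) := by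
      rw [Finset.prod_mul_distrib, Finset.prod_const, hz.card_nthRootsFinset]
    rw [this, ← Finset.prod_congr rfl ht, ← hz.pow_add_pow_eq_prod_add_mul x y hodd, H]
    generalize hζ.toInteger - 1 = l
    ring
  have hsplit : t η₀ * ∏ η ∈ (nthRootsFinset p (1 : 𝓞 K)).erase η₀, t η =
      ε * ((hζ.toInteger - 1) ^ k * z₀) ^ p := by
    rw [Finset.mul_prod_erase _ _ h₀, hprod]
  set P₀ : 𝓞 K := ∏ η ∈ (nthRootsFinset p (1 : 𝓞 K)).erase η₀, t η with hP₀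
  have hP₀nd : ¬ hζ.toInteger - 1 ∣ P₀ := by
    apply hl.not_dvd_finsetProd
    intro η hη
    exact hnd η (Finset.mem_of_mem_erase hη) (Finset.ne_of_mem_erase hη)
  have hk : 1 ≤ k := by
    by_contra hk0
    have hk0' : k = 0 := by omega
    subst hk0'
    rw [pow_zero, one_mul] at hsplit
    have h1 : hζ.toInteger - 1 ∣ (ε : 𝓞 K) * z₀ ^ p := by
      rw [← hsplit]
      exact hη₀.mul_right _
    have h2 : hζ.toInteger - 1 ∣ z₀ ^ p := (Units.dvd_mul_left).1 (by rwa [mul_comm] at h1)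
    exact hz₀ (hl.dvd_of_dvd_pow h2)
  refine ⟨k, rfl, hk, ?_⟩
  -- `(ζ - 1) ^ (p * k)` divides `t η₀`
  have hpow : (hζ.toInteger - 1) ^ (k * p) ∣ t η₀ := by
    apply hl.pow_dvd_of_dvd_mul_right _ hP₀nd
    rw [hsplit, mul_pow, ← pow_mul]
    exact Dvd.dvd.mul_left (Dvd.dvd.mul_right dvd_rfl _) _
  obtain ⟨s₀, hs₀⟩ := hpow
  have hs₀P₀ : s₀ * P₀ = ε * z₀ ^ p := by
    apply mul_left_cancel₀ (pow_ne_zero (k * p) hl0)
    rw [← mul_assoc, ← hs₀, hsplit]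
    generalize hζ.toInteger - 1 = l
    ring
  have hs₀nd : ¬ hζ.toInteger - 1 ∣ s₀ := by
    intro h
    have h1 : hζ.toInteger - 1 ∣ (ε : 𝓞 K) * z₀ ^ p := by
      rw [← hs₀P₀]
      exact h.mul_right _
    have h2 : hζ.toInteger - 1 ∣ z₀ ^ p := (Units.dvd_mul_left).1 (by rwa [mul_comm] at h1)
    exact hz₀ (hl.dvd_of_dvd_pow h2)
  -- choose two more roots
  have hcard : 1 < ((nthRootsFinset p (1 : 𝓞 K)).erase η₀).card := by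
    rw [Finset.card_erase_of_mem h₀, hz.card_nthRootsFinset]
    omega
  obtain ⟨η₁, hη₁, η₂, hη₂, h12⟩ := Finset.one_lt_card.1 hcard
  have h₁ := Finset.mem_of_mem_erase hη₁
  have h₂ := Finset.mem_of_mem_erase hη₂
  have h10 := Finset.ne_of_mem_erase hη₁
  have h20 := Finset.ne_of_mem_erase hη₂
  -- coprimality facts
  have hcop_s₀ : ∀ η ∈ nthRootsFinset p (1 : 𝓞 K), η ≠ η₀ → IsCoprime (t η) s₀ := by
    intro η hη hne
    exact (t_isCoprime hζ hxy ht hη h₀ hne).of_isCoprime_of_dvd_right ⟨_, by rw [hs₀, mul_comm]⟩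
  -- `t η` is a `p`-th power up to a unit for `η ≠ η₀`
  have hpowη : ∀ η ∈ (nthRootsFinset p (1 : 𝓞 K)).erase η₀,
      ∃ ρ : 𝓞 K, Associated (ρ ^ p) (t η) := by
    intro η hη
    have hηR := Finset.mem_of_mem_erase hη
    have hηne := Finset.ne_of_mem_erase hη
    have e1 : t η * (s₀ * ∏ η' ∈ ((nthRootsFinset p (1 : 𝓞 K)).erase η₀).erase η, t η') =
        ε * z₀ ^ p := by
      rw [← hs₀P₀, hP₀, ← Finset.mul_prod_erase _ _ hη]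
      ring
    have hcop : IsCoprime (t η)
        (s₀ * ∏ η' ∈ ((nthRootsFinset p (1 : 𝓞 K)).erase η₀).erase η, t η') := by
      refine (hcop_s₀ η hηR hηne).mul_right (IsCoprime.prod_right fun η' hη' ↦ ?_)
      exact t_isCoprime hζ hxy ht hηR (Finset.mem_of_mem_erase (Finset.mem_of_mem_erase hη'))
        (Finset.ne_of_mem_erase hη').symm
    refine exists_associated_pow_of_associated_pow_mul hcop (c := z₀) ?_
    rw [e1]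
    exact ⟨ε, by ring⟩
  obtain ⟨ρ₁, v₁, hv₁⟩ := hpowη η₁ hη₁
  obtain ⟨ρ₂, v₂, hv₂⟩ := hpowη η₂ hη₂
  obtain ⟨ρ₀, v₀, hv₀⟩ : ∃ ρ : 𝓞 K, Associated (ρ ^ p) s₀ := by
    have hcop : IsCoprime s₀ P₀ := by
      refine IsCoprime.prod_right fun η hη ↦ ?_
      exact (hcop_s₀ η (Finset.mem_of_mem_erase hη) (Finset.ne_of_mem_erase hη)).symm
    refine exists_associated_pow_of_associated_pow_mul hcop (c := z₀) ?_
    rw [hs₀P₀]
    exact ⟨ε, by ring⟩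
  have hρ₂ : ¬ hζ.toInteger - 1 ∣ ρ₂ := by
    intro h
    apply hnd η₂ h₂ h20
    rw [← hv₂]
    exact (dvd_pow h hp0).mul_right _
  have hρ₀ : ¬ hζ.toInteger - 1 ∣ ρ₀ := by
    intro h
    apply hs₀nd
    rw [← hv₀]
    exact (dvd_pow h hp0).mul_right _
  have e₀ : t η₀ = ((hζ.toInteger - 1) ^ k * ρ₀) ^ p * v₀ := by
    rw [hs₀, ← hv₀]
    generalize hζ.toInteger - 1 = l
    ring
  obtain ⟨η, ε'', hsol⟩ := descent_core hζ hK ht h₀ h₁ h₂ h10.symm h12 h20 hk e₀ hv₁.symm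
    hv₂.symm hρ₂
  refine ⟨ρ₁, η * ρ₂, ρ₀, ε'', ?_, hρ₀, hsol⟩
  have hc12 : IsCoprime (t η₁) (t η₂) := t_isCoprime hζ hxy ht h₁ h₂ h12
  rw [← hv₁, ← hv₂] at hc12
  have hc12' : IsCoprime (ρ₁ ^ p) (ρ₂ ^ p) :=
    (isCoprime_mul_unit_right_left v₁.isUnit _ _).1
      ((isCoprime_mul_unit_right_right v₂.isUnit _ _).1 hc12)
  have hc : IsCoprime ρ₁ ρ₂ := (IsCoprime.pow_iff hp.out.pos hp.out.pos).1 hc12'
  exact (isCoprime_mul_unit_left_right η.isUnit _ _).2 hc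

/-- **Case II, general form**: the generalised Fermat equation has no solution in `𝓞 K`. -/
theorem caseII_gen [IsPrincipalIdealRing (𝓞 K)] (hp2 : p ≠ 2) (hK : KummerLemma p K)
    (m : ℕ) (hm : 1 ≤ m) (x y z₀ : 𝓞 K) (ε : (𝓞 K)ˣ) (hxy : IsCoprime x y)
    (hz₀ : ¬ hζ.toInteger - 1 ∣ z₀) :
    x ^ p + y ^ p ≠ ε * ((hζ.toInteger - 1) ^ m * z₀) ^ p := by
  induction m generalizing x y z₀ ε with
  | zero => omega
  | succ k ih =>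
    intro H
    obtain ⟨m', hm', hm'1, x', y', z₀', ε', hxy', hz₀', H'⟩ :=
      descent_step hζ hp2 hK hm hxy hz₀ H
    have hkm : k = m' := by omega
    subst hkm
    exact ih hm'1 x' y' z₀' ε' hxy' hz₀' H'

end descent

section integers

/-- Case II for rational integers, normalised so that `p ∣ z`. -/
theorem caseII_int_aux [IsPrincipalIdealRing (𝓞 K)] (hp2 : p ≠ 2) (hK : KummerLemma p K)
    (x y z : ℤ) (hxy : IsCoprime x y) (hz : z ≠ 0) (hpz : (p : ℤ) ∣ z) :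
    x ^ p + y ^ p ≠ z ^ p := by
  intro H
  have hζ := IsCyclotomicExtension.zeta_spec p ℚ K
  have hl := hζ.zeta_sub_one_prime'
  have hzO : (z : 𝓞 K) ≠ 0 := by exact_mod_cast hz
  have hlz : hζ.toInteger - 1 ∣ (z : 𝓞 K) :=
    (IsCyclotomicExtension.Rat.zeta_sub_one_dvd_intCast_iff' p hζ).2 hpz
  have hfin : FiniteMultiplicity (hζ.toInteger - 1) (z : 𝓞 K) :=
    FiniteMultiplicity.of_prime_left hl hzO
  obtain ⟨z₀, hz₀, hnd⟩ := hfin.exists_eq_pow_mul_and_not_dvd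
  have hm : 1 ≤ multiplicity (hζ.toInteger - 1) (z : 𝓞 K) := by
    by_contra h
    have h0 : multiplicity (hζ.toInteger - 1) (z : 𝓞 K) = 0 := by omega
    rw [h0, pow_zero, one_mul] at hz₀
    exact hnd (hz₀ ▸ hlz)
  refine caseII_gen hζ hp2 hK _ hm (x : 𝓞 K) (y : 𝓞 K) z₀ 1 hxy.intCast hnd ?_
  rw [← hz₀, Units.val_one, one_mul]
  exact_mod_cast H

/-- If `a ^ p + b ^ p = c ^ p` with `a`, `b` coprime then `a`, `c` are coprime. -/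
theorem isCoprime_of_flt_left {a b c : ℤ} (hp0 : p ≠ 0) (hab : IsCoprime a b)
    (H : a ^ p + b ^ p = c ^ p) : IsCoprime a c := by
  have hp' : 0 < p := Nat.pos_of_ne_zero hp0
  rw [← IsCoprime.pow_iff hp' hp', ← H]
  have h1 : IsCoprime (a ^ p) (b ^ p) := (IsCoprime.pow_iff hp' hp').2 hab
  simpa [add_comm] using h1.add_mul_left_right 1

/-- **Case II** of Fermat's Last Theorem for the prime `p`, assuming `𝓞 K` is principal and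
Kummer's lemma holds. -/
theorem caseII [IsPrincipalIdealRing (𝓞 K)] (hp2 : p ≠ 2) (hK : KummerLemma p K)
    (a b c : ℤ) (habc : a * b * c ≠ 0) (hab : IsCoprime a b) (hdvd : (p : ℤ) ∣ a * b * c) :
    a ^ p + b ^ p ≠ c ^ p := by
  intro H
  have hodd : Odd p := hp.out.odd_of_ne_two hp2
  have hp0 : p ≠ 0 := hp.out.ne_zero
  have ha0 : a ≠ 0 := fun h ↦ habc (by simp [h])
  have hb0 : b ≠ 0 := fun h ↦ habc (by simp [h])
  have hc0 : c ≠ 0 := fun h ↦ habc (by simp [h])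
  have hac : IsCoprime a c := isCoprime_of_flt_left hp0 hab H
  have hbc : IsCoprime b c := isCoprime_of_flt_left hp0 hab.symm (by rw [add_comm]; exact H)
  have hpp : Prime (p : ℤ) := Nat.prime_iff_prime_int.1 hp.out
  rcases hpp.dvd_or_dvd hdvd with h | h
  · rcases hpp.dvd_or_dvd h with h | h
    · -- `p ∣ a`: `c ^ p + (-b) ^ p = a ^ p`
      refine caseII_int_aux (K := K) hp2 hK c (-b) a hbc.symm.neg_right ha0 h ?_
      rw [hodd.neg_pow, ← H]; ring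
    · -- `p ∣ b`: `c ^ p + (-a) ^ p = b ^ p`
      refine caseII_int_aux (K := K) hp2 hK c (-a) b hac.symm.neg_right hb0 h ?_
      rw [hodd.neg_pow, ← H]; ring
  · exact caseII_int_aux (K := K) hp2 hK a b c hab hc0 h H

end integers

end Fermat.Agent.S11
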