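import Mathlib

set_option autoImplicit false

namespace Fermat.Agent.S11.helper94

open NumberField NumberField.Units Polynomial

variable {p : ℕ} [hp : Fact p.Prime] (K : Type*) [Field K] [NumberField K]
  [IsCyclotomicExtension {p} ℚ K]

/-- In the ring of integers of the `p`-th cyclotomic field, every `p`-th power is congruent
to a rational integer modulo `p`. -/
theorem exists_int_dvd_pow_sub (x : 𝓞 K) : ∃ n : ℤ, (p : 𝓞 K) ∣ x ^ p - n := by
  have : NeZero p := ⟨hp.out.ne_zero⟩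
  have hζ := IsCyclotomicExtension.zeta_spec p ℚ K
  obtain ⟨f, rfl⟩ := (hζ.integralPowerBasis).exists_eq_aeval' x
  rw [IsPrimitiveRoot.integralPowerBasis_gen]
  have hζp : (hζ.toInteger) ^ p = 1 := hζ.toInteger_isPrimitiveRoot.pow_eq_one
  induction f using Polynomial.induction_on' with
  | add f g hf hg =>
    obtain ⟨a, ha⟩ := hf
    obtain ⟨b, hb⟩ := hg
    obtain ⟨r, hr⟩ := exists_add_pow_prime_eq hp.out (aeval hζ.toInteger f) (aeval hζ.toInteger g)
    refine ⟨a + b, ?_⟩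
    rw [map_add, hr]
    have : (aeval hζ.toInteger f) ^ p + (aeval hζ.toInteger g) ^ p +
        (p : 𝓞 K) * (aeval hζ.toInteger f) * (aeval hζ.toInteger g) * r - ((a + b : ℤ) : 𝓞 K) =
        ((aeval hζ.toInteger f) ^ p - a) + ((aeval hζ.toInteger g) ^ p - b) +
        (p : 𝓞 K) * ((aeval hζ.toInteger f) * (aeval hζ.toInteger g) * r) := by
      push_cast; ring
    rw [this]
    exact dvd_add (dvd_add ha hb) (dvd_mul_right _ _)
  | monomial n a =>
    refine ⟨a ^ p, ?_⟩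
    rw [aeval_monomial, mul_pow, ← pow_mul, mul_comm n p, pow_mul, hζp, one_pow, mul_one]
    simp


/-- The unit rank of the `p`-th cyclotomic field (`p` an odd prime) is `(p - 1) / 2 - 1`. -/
theorem rank_add_one_eq (hodd : p ≠ 2) : rank K + 1 = (p - 1) / 2 := by
  have : NeZero p := ⟨hp.out.ne_zero⟩
  have h2 : 2 < p := lt_of_le_of_ne hp.out.two_le (Ne.symm hodd)
  have h1 := IsCyclotomicExtension.Rat.nrRealPlaces_eq_zero (n := p) K h2
  have h3 := IsCyclotomicExtension.Rat.nrComplexPlaces_eq_totient_div_two p K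
  have h4 := InfinitePlace.card_eq_nrRealPlaces_add_nrComplexPlaces K
  rw [Nat.totient_prime hp.out] at h3
  have h5 : 5 ≤ p ∨ p = 3 ∨ p = 4 := by omega
  unfold rank
  rw [h4, h1, h3]
  have : 1 ≤ (p - 1) / 2 := by omega
  omega

/-- The quotient of the unit group by `p`-th powers. -/
abbrev UnitsModPow (p : ℕ) (K : Type*) [Field K] : Type _ :=
  (𝓞 K)ˣ ⧸ (powMonoidHom p : (𝓞 K)ˣ →* (𝓞 K)ˣ).range

/-- The map `(ZMod p)^m → E / E^p` attached to a family of units. -/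
noncomputable def famMap {m : ℕ} (w : Fin m → (𝓞 K)ˣ) (e : Fin m → ZMod p) : UnitsModPow p K :=
  QuotientGroup.mk (∏ i, w i ^ (e i).val)


omit [NumberField K] [IsCyclotomicExtension {p} ℚ K] in
theorem mk_zpow_eq (a : (𝓞 K)ˣ) (n : ℤ) :
    (QuotientGroup.mk (a ^ n) : UnitsModPow p K) = QuotientGroup.mk (a ^ ((n : ZMod p)).val) := by
  rw [QuotientGroup.eq]
  refine ⟨a ^ (-(n / p)), ?_⟩
  have h1 : (((n : ZMod p)).val : ℤ) = n % p := ZMod.val_intCast n
  have h2 : n = n % p + p * (n / p) := (Int.emod_add_mul_ediv n p).symm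
  simp only [powMonoidHom_apply]
  rw [← zpow_natCast (a ^ (-(n / p))), ← zpow_mul, ← zpow_natCast a, h1, ← zpow_neg, ← zpow_add]
  congr 1
  nth_rewrite 2 [h2]
  ring

omit [NumberField K] [IsCyclotomicExtension {p} ℚ K] in
theorem mk_prod_zpow_eq {m : ℕ} (w : Fin m → (𝓞 K)ˣ) (n : Fin m → ℤ) :
    (QuotientGroup.mk (∏ i, w i ^ n i) : UnitsModPow p K) =
      famMap K w (fun i => ((n i : ℤ) : ZMod p)) := by
  unfold famMap
  rw [QuotientGroup.mk_prod, QuotientGroup.mk_prod]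
  exact Finset.prod_congr rfl (fun i _ => mk_zpow_eq K (w i) (n i))

omit [IsCyclotomicExtension {p} ℚ K] in
/-- The family consisting of a generator of the torsion and a fundamental system of units
generates the units modulo `p`-th powers. -/
theorem exists_surjective_famMap :
    ∃ w : Fin (rank K + 1) → (𝓞 K)ˣ, Function.Surjective (famMap (p := p) K w) := by
  obtain ⟨t, ht⟩ := IsCyclic.exists_generator (α := torsion K)
  refine ⟨Fin.cons (t : (𝓞 K)ˣ) (fundSystem K), ?_⟩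
  intro x
  induction x using QuotientGroup.induction_on with
  | H x =>
    obtain ⟨⟨τ, n⟩, hx, -⟩ := exist_unique_eq_mul_prod K x
    obtain ⟨k, hk⟩ := Subgroup.mem_zpowers_iff.mp (ht τ)
    refine ⟨fun i => ((Fin.cons k n : Fin (rank K + 1) → ℤ) i : ZMod p), ?_⟩
    rw [← mk_prod_zpow_eq, Fin.prod_univ_succ]
    simp only [Fin.cons_zero, Fin.cons_succ]
    rw [hx]
    simp only [← hk]
    simp


/-- Independence modulo "integers mod `p`" implies injectivity of `famMap`. -/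
theorem famMap_injective_of_indep {m : ℕ} (v : Fin m → (𝓞 K)ˣ)
    (hindep : ∀ e : Fin m → ℤ,
      (∃ n : ℤ, (p : 𝓞 K) ∣ ((∏ i, v i ^ e i : (𝓞 K)ˣ) : 𝓞 K) - n) → ∀ i, (p : ℤ) ∣ e i) :
    Function.Injective (famMap (p := p) K v) := by
  have : NeZero p := ⟨hp.out.ne_zero⟩
  intro e e' h
  unfold famMap at h
  rw [QuotientGroup.eq] at h
  obtain ⟨w, hw⟩ := h
  simp only [powMonoidHom_apply] at hw
  have key : (∏ i, v i ^ (((e' i).val : ℤ) - ((e i).val : ℤ)) : (𝓞 K)ˣ) = w ^ p := by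
    rw [hw, ← Finset.prod_inv_distrib, ← Finset.prod_mul_distrib]
    refine Finset.prod_congr rfl (fun i _ => ?_)
    rw [zpow_sub, zpow_natCast, zpow_natCast, mul_comm]
  have h2 := hindep (fun i => ((e' i).val : ℤ) - ((e i).val : ℤ)) (by
    obtain ⟨n, hn⟩ := exists_int_dvd_pow_sub (p := p) K (w : 𝓞 K)
    refine ⟨n, ?_⟩
    rw [key]
    simpa using hn)
  funext i
  have h3 := h2 i
  have h4 : (((e' i).val : ℤ) : ZMod p) = (((e i).val : ℤ) : ZMod p) := by
    rw [← sub_eq_zero, ← Int.cast_sub]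
    exact (ZMod.intCast_zmod_eq_zero_iff_dvd _ p).mpr h3
  simpa using h4.symm

/-- **Kummer's lemma from independent units.** If `v` is a family of `(p - 1) / 2` units of the
`p`-th cyclotomic field which is independent modulo "units congruent to an integer mod `p`",
then every unit congruent to an integer modulo `p` is a `p`-th power. -/
theorem kummerLemma_of_indep (hodd : p ≠ 2)
    (v : Fin ((p - 1) / 2) → (𝓞 K)ˣ)
    (hindep : ∀ e : Fin ((p - 1) / 2) → ℤ,
      (∃ n : ℤ, (p : 𝓞 K) ∣ ((∏ i, v i ^ e i : (𝓞 K)ˣ) : 𝓞 K) - n) → ∀ i, (p : ℤ) ∣ e i) :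
    ∀ u : (𝓞 K)ˣ, (∃ n : ℤ, (p : 𝓞 K) ∣ (u : 𝓞 K) - n) → ∃ v' : (𝓞 K)ˣ, u = v' ^ p := by
  have : NeZero p := ⟨hp.out.ne_zero⟩
  have hinj := famMap_injective_of_indep K v hindep
  obtain ⟨g, hg⟩ := exists_surjective_famMap (p := p) K
  have hfin : Finite (UnitsModPow p K) := Finite.of_surjective _ hg
  have hcard : Nat.card (UnitsModPow p K) ≤ Nat.card (Fin ((p - 1) / 2) → ZMod p) := by
    have h1 := Nat.card_le_card_of_surjective _ hg
    have h2 : Nat.card (Fin (rank K + 1) → ZMod p) = Nat.card (Fin ((p - 1) / 2) → ZMod p) := by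
      rw [rank_add_one_eq K hodd]
    omega
  have hsurj := (hinj.bijective_of_nat_card_le hcard).2
  intro u ⟨n, hn⟩
  obtain ⟨e, he⟩ := hsurj (QuotientGroup.mk u)
  unfold famMap at he
  rw [QuotientGroup.eq] at he
  obtain ⟨w, hw⟩ := he
  simp only [powMonoidHom_apply] at hw
  -- `∏ v i ^ e i = u * (w⁻¹) ^ p`
  have key : (∏ i, v i ^ (((e i).val : ℤ)) : (𝓞 K)ˣ) = u * (w⁻¹) ^ p := by
    simp only [zpow_natCast]
    rw [inv_pow, hw, mul_inv_rev, inv_inv, mul_inv_cancel_left]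
  obtain ⟨n', hn'⟩ := exists_int_dvd_pow_sub (p := p) K ((w⁻¹ : (𝓞 K)ˣ) : 𝓞 K)
  have h2 := hindep (fun i => ((e i).val : ℤ)) (by
    refine ⟨n * n', ?_⟩
    rw [key]
    have : ((u * w⁻¹ ^ p : (𝓞 K)ˣ) : 𝓞 K) - ((n * n' : ℤ) : 𝓞 K) =
        ((u : 𝓞 K) - n) * ((w⁻¹ : (𝓞 K)ˣ) : 𝓞 K) ^ p + n * (((w⁻¹ : (𝓞 K)ˣ) : 𝓞 K) ^ p - n') := by
      push_cast; ring
    rw [this]
    exact dvd_add (dvd_mul_of_dvd_left hn _) (dvd_mul_of_dvd_right hn' _))
  have h3 : ∀ i, e i = 0 := by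
    intro i
    have h4 := h2 i
    have h5 : (((e i).val : ℤ) : ZMod p) = 0 := (ZMod.intCast_zmod_eq_zero_iff_dvd _ p).mpr h4
    simpa using h5
  refine ⟨w, ?_⟩
  rw [hw]
  simp [h3]

end Fermat.Agent.S11.helper94
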