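import Fermat.Agent.S11.CaseII
import Fermat.Agent.S11.helper94_KummerGeneric
import Fermat.Agent.S10.helper58_CaseI
import Fermat.Prelude.Def_FLTPrelim_FreyPackage

/-!
# Assembly: no Frey package for a prime `p ∈ {5, 7, 11, 13}` once `𝓞 ℚ(ζ_p)` is principal and
an independent family of units is known.
-/

open NumberField

namespace Fermat.Agent.S11

/-- Fermat's Last Theorem for `p ∈ {5, 7, 11, 13}` from the two explicit inputs
(class number one and an independent family of units). -/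
theorem flt_of_pid_of_units (p : ℕ) [hp : Fact p.Prime] (hp' : p = 5 ∨ p = 7 ∨ p = 11 ∨ p = 13)
    (K : Type*) [Field K] [NumberField K] [IsCyclotomicExtension {p} ℚ K]
    (hPID : IsPrincipalIdealRing (𝓞 K))
    (v : Fin ((p - 1) / 2) → (𝓞 K)ˣ)
    (hindep : ∀ e : Fin ((p - 1) / 2) → ℤ,
      (∃ n : ℤ, (p : 𝓞 K) ∣ ((∏ i, v i ^ e i : (𝓞 K)ˣ) : 𝓞 K) - n) → ∀ i, (p : ℤ) ∣ e i)
    (a b c : ℤ) (habc : a * b * c ≠ 0) (hab : IsCoprime a b) :
    a ^ p + b ^ p ≠ c ^ p := by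
  have hp2 : p ≠ 2 := by rcases hp' with h | h | h | h <;> omega
  have hK : KummerLemma p K := helper94.kummerLemma_of_indep K hp2 v hindep
  by_cases hdvd : (p : ℤ) ∣ a * b * c
  · exact caseII (K := K) hp2 hK a b c habc hab hdvd
  · exact Fermat.Agent.S10.helper58.caseI hp' a b c hab hdvd

/-- No Frey package for `p ∈ {5, 7, 11, 13}`, given the two explicit inputs. -/
theorem no_freyPackage_of_pid_of_units (p : ℕ) [hp : Fact p.Prime]
    (hp' : p = 5 ∨ p = 7 ∨ p = 11 ∨ p = 13)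
    (K : Type*) [Field K] [NumberField K] [IsCyclotomicExtension {p} ℚ K]
    (hPID : IsPrincipalIdealRing (𝓞 K))
    (v : Fin ((p - 1) / 2) → (𝓞 K)ˣ)
    (hindep : ∀ e : Fin ((p - 1) / 2) → ℤ,
      (∃ n : ℤ, (p : 𝓞 K) ∣ ((∏ i, v i ^ e i : (𝓞 K)ˣ) : 𝓞 K) - n) → ∀ i, (p : ℤ) ∣ e i)
    (P : FreyPackage) (hP : P.p = p) : False := by
  have habc : P.a * P.b * P.c ≠ 0 := P.habc0
  have hab : IsCoprime P.a P.b := by
    rw [Int.isCoprime_iff_gcd_eq_one]
    have h := P.hgcdab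
    rw [← Int.coe_gcd] at h
    exact_mod_cast h
  have H := P.hFLT
  rw [hP] at H
  exact flt_of_pid_of_units p hp' K hPID v hindep P.a P.b P.c habc hab H

end Fermat.Agent.S11
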