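import Fermat.Agent.S11.Triangular

/-!
# An independent family of units of `ℤ[ζ₁₁]`

`v₀ = ζ`, `v₁ = g₄ g₅²`, `v₂ = g₃² g₄ g₅`, `v₃ = g₂² g₃⁴ g₅³`, `v₄ = ζ⁵ g₂³ g₃⁴ g₄ g₅⁵`
where `g_a = 1 + ζ + ⋯ + ζ^(a-1)`; their `λ`-adic levels are `1, 2, 4, 6, 8`.
-/

open NumberField Polynomial Finset

set_option linter.unusedSectionVars false
set_option linter.unusedVariables false
set_option linter.style.longLine false

namespace Fermat.Agent.S11

theorem unit_identity_1 {R : Type*} [CommRing R] (l : R) :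
    (1 + (1 + l) + (1 + l) ^ 2 + (1 + l) ^ 3) * (1 + (1 + l) + (1 + l) ^ 2 + (1 + l) ^ 3 + (1 + l) ^ 4) ^ 2 - 1 * (1 + 4 * l ^ 2) =
      11 * (9 + 50 * l + 136 * l ^ 2) +
      l ^ 3 * (2625 + 3240 * l + 2940 * l ^ 2 + 1990 * l ^ 3 + 1000 * l ^ 4 + 364 * l ^ 5 + 91 * l ^ 6 + 14 * l ^ 7 + 1 * l ^ 8) := by
  ring

theorem unit_identity_2 {R : Type*} [CommRing R] (l : R) :
    (1 + (1 + l) + (1 + l) ^ 2) ^ 2 * (1 + (1 + l) + (1 + l) ^ 2 + (1 + l) ^ 3) * (1 + (1 + l) + (1 + l) ^ 2 + (1 + l) ^ 3 + (1 + l) ^ 4) - 4 * (1 + 8 * l ^ 4) =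
      11 * (16 + 90 * l + 240 * l ^ 2 + 405 * l ^ 3 + 474 * l ^ 4) +
      l ^ 5 * (4501 + 2859 * l + 1340 * l ^ 2 + 453 * l ^ 3 + 105 * l ^ 4 + 15 * l ^ 5 + 1 * l ^ 6) := by
  ring

theorem unit_identity_3 {R : Type*} [CommRing R] (l : R) :
    (1 + (1 + l)) ^ 2 * (1 + (1 + l) + (1 + l) ^ 2) ^ 4 * (1 + (1 + l) + (1 + l) ^ 2 + (1 + l) ^ 3 + (1 + l) ^ 4) ^ 3 - 9 * (1 + 6 * l ^ 6) =
      11 * (3681 + 40500 * l + 219375 * l ^ 2 + 776250 * l ^ 3 + 2008800 * l ^ 4 + 4035825 * l ^ 5 + 6525336 * l ^ 6) +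
      l ^ 7 * (95584800 + 106450685 * l + 100144745 * l ^ 2 + 80075465 * l ^ 3 + 54587155 * l ^ 4 + 31736404 * l ^ 5 + 15701380 * l ^ 6 + 6577963 * l ^ 7 + 2314867 * l ^ 8 + 676162 * l ^ 9 + 161123 * l ^ 10 + 30542 * l ^ 11 + 4433 * l ^ 12 + 463 * l ^ 13 + 31 * l ^ 14 + 1 * l ^ 15) := by
  ring

theorem unit_identity_4 {R : Type*} [CommRing R] (l : R) :
    (1 + l) ^ 5 * (1 + (1 + l)) ^ 3 * (1 + (1 + l) + (1 + l) ^ 2) ^ 4 * (1 + (1 + l) + (1 + l) ^ 2 + (1 + l) ^ 3) * (1 + (1 + l) + (1 + l) ^ 2 + (1 + l) ^ 3 + (1 + l) ^ 4) ^ 5 - 7 * (1 + 10 * l ^ 8) =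
      11 * (736363 + 16200000 * l + 175500000 * l ^ 2 + 1247400000 * l ^ 3 + 6538893750 * l ^ 4 + 26941275000 * l ^ 5 + 90794765625 * l ^ 6 + 257170284375 * l ^ 7 + 624276134880 * l ^ 8) +
      l ^ 9 * (14496195448125 + 26910639937500 * l + 44317223128125 * l ^ 2 + 65192306958000 * l ^ 3 + 86134234555500 * l ^ 4 + 102659625841750 * l ^ 5 + 110752550568750 * l ^ 6 + 108438686432800 * l ^ 7 + 96548106999450 * l ^ 8 + 78275108037050 * l ^ 9 + 57833112144200 * l ^ 10 + 38952038989692 * l ^ 11 + 23910812810804 * l ^ 12 + 13367828779495 * l ^ 13 + 6798251729293 * l ^ 14 + 3139299113374 * l ^ 15 + 1313216293799 * l ^ 16 + 496117443726 * l ^ 17 + 168622735427 * l ^ 18 + 51317910948 * l ^ 19 + 13902469412 * l ^ 20 + 3328288403 * l ^ 21 + 697749773 * l ^ 22 + 126623310 * l ^ 23 + 19596517 * l ^ 24 + 2535559 * l ^ 25 + 266856 * l ^ 26 + 21946 * l ^ 27 + 1323 * l ^ 28 + 52 * l ^ 29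 + 1 * l ^ 30) := by
  ring

theorem dvd_of_eq_add_mul {R : Type*} [CommRing R] {a x q₁ q₂ c : R}
    (key : x = c * q₁ + a * q₂) (h : a ∣ c) : a ∣ x := by
  rw [key]
  exact dvd_add (h.mul_right _) (dvd_mul_right _ _)

section eleven

theorem factPrimeEleven : Fact (Nat.Prime 11) := ⟨by norm_num⟩

attribute [local instance] factPrimeEleven

variable {K : Type*} [Field K] [NumberField K] [IsCyclotomicExtension {11} ℚ K]
  {ζ : K} (hζ : IsPrimitiveRoot ζ 11)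

/-- `ζ` as a unit. -/
noncomputable def zU : (𝓞 K)ˣ :=
  (hζ.toInteger_isPrimitiveRoot.isUnit (by norm_num)).unit

/-- The cyclotomic unit `1 + ζ + ⋯ + ζ ^ (a - 1)`. -/
noncomputable def gU (a : ℕ) (ha : a.Coprime 11) : (𝓞 K)ˣ :=
  (hζ.toInteger_isPrimitiveRoot.geom_sum_isUnit (by norm_num) ha).unit

theorem zU_val : ((zU hζ : (𝓞 K)ˣ) : 𝓞 K) = hζ.toInteger := rfl

theorem gU_val (a : ℕ) (ha : a.Coprime 11) :
    ((gU hζ a ha : (𝓞 K)ˣ) : 𝓞 K) = ∑ i ∈ range a, hζ.toInteger ^ i := rfl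

theorem lam_pow_dvd_eleven {j : ℕ} (hj : j ≤ 10) : (hζ.toInteger - 1) ^ j ∣ (11 : 𝓞 K) := by
  have h := (IsCyclotomicExtension.Rat.associated_zeta_sub_one_pow_prime 11 hζ).dvd
  have h' : (hζ.toInteger - 1) ^ 10 ∣ (11 : 𝓞 K) := by simpa using h
  exact (pow_dvd_pow _ hj).trans h'

/-- The family of units (before raising to the `10`-th power). -/
noncomputable def unitFam : Fin 5 → (𝓞 K)ˣ :=
  ![zU hζ,
    gU hζ 4 (by norm_num) * gU hζ 5 (by norm_num) ^ 2,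
    gU hζ 3 (by norm_num) ^ 2 * gU hζ 4 (by norm_num) * gU hζ 5 (by norm_num),
    gU hζ 2 (by norm_num) ^ 2 * gU hζ 3 (by norm_num) ^ 4 * gU hζ 5 (by norm_num) ^ 3,
    zU hζ ^ 5 * gU hζ 2 (by norm_num) ^ 3 * gU hζ 3 (by norm_num) ^ 4 * gU hζ 4 (by norm_num) *
      gU hζ 5 (by norm_num) ^ 5]

theorem unitFam_lev0 : IsLevC hζ 1 ((unitFam hζ 0 : (𝓞 K)ˣ) : 𝓞 K) 1 1 := by
  unfold IsLevC
  simp [unitFam, zU_val]

theorem unitFam_lev1 : IsLevC hζ 2 ((unitFam hζ 1 : (𝓞 K)ˣ) : 𝓞 K) 1 4 := by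
  unfold IsLevC
  have h11 := lam_pow_dvd_eleven hζ (j := 2 + 1) (by norm_num)
  simp only [unitFam, Matrix.cons_val, Units.val_mul, Units.val_pow_eq_pow_val, zU_val, gU_val,
    Finset.sum_range_succ, Finset.sum_range_zero, zero_add, pow_zero, pow_one]
  generalize hζ.toInteger = z at h11 ⊢
  obtain ⟨l, rfl⟩ : ∃ l, z = 1 + l := ⟨z - 1, by ring⟩
  simp only [add_sub_cancel_left] at h11 ⊢
  have hdvd := dvd_of_eq_add_mul (unit_identity_1 l) h11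
  convert hdvd using 1
  push_cast
  ring

theorem unitFam_lev2 : IsLevC hζ 4 ((unitFam hζ 2 : (𝓞 K)ˣ) : 𝓞 K) 4 8 := by
  unfold IsLevC
  have h11 := lam_pow_dvd_eleven hζ (j := 4 + 1) (by norm_num)
  simp only [unitFam, Matrix.cons_val, Units.val_mul, Units.val_pow_eq_pow_val, zU_val, gU_val,
    Finset.sum_range_succ, Finset.sum_range_zero, zero_add, pow_zero, pow_one]
  generalize hζ.toInteger = z at h11 ⊢
  obtain ⟨l, rfl⟩ : ∃ l, z = 1 + l := ⟨z - 1, by ring⟩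
  simp only [add_sub_cancel_left] at h11 ⊢
  have hdvd := dvd_of_eq_add_mul (unit_identity_2 l) h11
  convert hdvd using 1
  push_cast
  ring

theorem unitFam_lev3 : IsLevC hζ 6 ((unitFam hζ 3 : (𝓞 K)ˣ) : 𝓞 K) 9 6 := by
  unfold IsLevC
  have h11 := lam_pow_dvd_eleven hζ (j := 6 + 1) (by norm_num)
  simp only [unitFam, Matrix.cons_val, Units.val_mul, Units.val_pow_eq_pow_val, zU_val, gU_val,
    Finset.sum_range_succ, Finset.sum_range_zero, zero_add, pow_zero, pow_one]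
  generalize hζ.toInteger = z at h11 ⊢
  obtain ⟨l, rfl⟩ : ∃ l, z = 1 + l := ⟨z - 1, by ring⟩
  simp only [add_sub_cancel_left] at h11 ⊢
  have hdvd := dvd_of_eq_add_mul (unit_identity_3 l) h11
  convert hdvd using 1
  push_cast
  ring

theorem unitFam_lev4 : IsLevC hζ 8 ((unitFam hζ 4 : (𝓞 K)ˣ) : 𝓞 K) 7 10 := by
  unfold IsLevC
  have h11 := lam_pow_dvd_eleven hζ (j := 8 + 1) (by norm_num)
  simp only [unitFam, Matrix.cons_val, Units.val_mul, Units.val_pow_eq_pow_val, zU_val, gU_val,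
    Finset.sum_range_succ, Finset.sum_range_zero, zero_add, pow_zero, pow_one]
  generalize hζ.toInteger = z at h11 ⊢
  obtain ⟨l, rfl⟩ : ∃ l, z = 1 + l := ⟨z - 1, by ring⟩
  simp only [add_sub_cancel_left] at h11 ⊢
  have hdvd := dvd_of_eq_add_mul (unit_identity_4 l) h11
  convert hdvd using 1
  push_cast
  ring


/-- **An independent family of units of `ℤ[ζ₁₁]`.** -/
theorem exists_indep_units_eleven (K : Type*) [Field K] [NumberField K]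
    [IsCyclotomicExtension {11} ℚ K] :
    ∃ v : Fin ((11 - 1) / 2) → (𝓞 K)ˣ, ∀ e : Fin ((11 - 1) / 2) → ℤ,
      (∃ n : ℤ, ((11 : ℕ) : 𝓞 K) ∣ ((∏ i, v i ^ e i : (𝓞 K)ˣ) : 𝓞 K) - n) →
        ∀ i, ((11 : ℕ) : ℤ) ∣ e i := by
  have hζ := IsCyclotomicExtension.zeta_spec 11 ℚ K
  refine ⟨fun i ↦ unitFam hζ i ^ (11 - 1), fun e hn ↦ ?_⟩
  refine hindep_of_triangular_const (p := 11) hζ (unitFam hζ) ![1, 2, 4, 6, 8]
    ![1, 1, 4, 9, 7] ![1, 4, 8, 6, 10] ?_ ?_ ?_ ?_ ?_ ?_ e hn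
  · intro i; fin_cases i <;> simp
  · intro i; fin_cases i <;> simp
  · intro i j h; fin_cases i <;> fin_cases j <;> simp_all
  · intro i; fin_cases i <;> norm_num
  · intro i; fin_cases i <;> norm_num
  · intro i
    fin_cases i
    · exact unitFam_lev0 hζ
    · exact unitFam_lev1 hζ
    · exact unitFam_lev2 hζ
    · exact unitFam_lev3 hζ
    · exact unitFam_lev4 hζ

end eleven

end Fermat.Agent.S11
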