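import Mathlib

/-!
# Basic facts on the ring of integers of the `p`-th cyclotomic field (`p` an odd prime)

Helper lemmas for the Kummer-style proof of Fermat's Last Theorem for small regular primes.
-/

open NumberField Polynomial

set_option linter.unusedSectionVars false

namespace Fermat.Agent.S11

variable {p : ℕ} [hp : Fact p.Prime] {K : Type*} [Field K] [NumberField K]
  [IsCyclotomicExtension {p} ℚ K] {ζ : K} (hζ : IsPrimitiveRoot ζ p)

/-- Every element of `𝓞 K` is congruent to a rational integer modulo `ζ - 1`. -/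
theorem exists_int_sub_dvd (x : 𝓞 K) : ∃ n : ℤ, hζ.toInteger - 1 ∣ x - (n : 𝓞 K) := by
  obtain ⟨f, -, hf⟩ := hζ.integralPowerBasis.exists_eq_aeval x
  rw [hζ.integralPowerBasis_gen] at hf
  refine ⟨f.eval 1, ?_⟩
  have h1 : (aeval hζ.toInteger) f = eval hζ.toInteger (f.map (algebraMap ℤ (𝓞 K))) := by
    rw [aeval_def, eval₂_eq_eval_map]
  have h2 : ((f.eval 1 : ℤ) : 𝓞 K) = eval 1 (f.map (algebraMap ℤ (𝓞 K))) := by
    rw [eval_map, eval₂_at_one]
    rfl
  rw [hf, h1, h2]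
  exact sub_dvd_eval_sub _ _ _

/-- `p` divides `(ζ - 1) ^ p`. -/
theorem prime_dvd_zeta_sub_one_pow : (p : 𝓞 K) ∣ (hζ.toInteger - 1) ^ p := by
  have h := (IsCyclotomicExtension.Rat.associated_zeta_sub_one_pow_prime p hζ).symm.dvd
  exact h.trans (pow_dvd_pow _ (Nat.sub_le p 1))

/-- The `p`-th power of an element congruent to `n` mod `ζ - 1` is congruent
to `n ^ p` mod `(ζ - 1) ^ p`. -/
theorem zeta_sub_one_pow_dvd_pow_sub_pow {x : 𝓞 K} {n : 𝓞 K} (h : hζ.toInteger - 1 ∣ x - n) :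
    (hζ.toInteger - 1) ^ p ∣ x ^ p - n ^ p := by
  have hz := hζ.toInteger_isPrimitiveRoot
  rw [hz.pow_sub_pow_eq_prod_sub_mul x n hp.out.pos]
  have hcard : (nthRootsFinset p (1 : 𝓞 K)).card = p := hz.card_nthRootsFinset
  have hpow : (hζ.toInteger - 1) ^ p = ∏ _η ∈ nthRootsFinset p (1 : 𝓞 K), (hζ.toInteger - 1) := by
    rw [Finset.prod_const, hcard]
  rw [hpow]
  refine Finset.prod_dvd_prod_of_dvd _ _ fun η hη ↦ ?_
  have h1 : hζ.toInteger - 1 ∣ η - 1 :=
    hz.sub_one_dvd_sub hp.out hη (one_mem_nthRootsFinset hp.out.pos)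
  have : x - η * n = (x - n) - (η - 1) * n := by ring
  rw [this]
  exact dvd_sub h (h1.mul_right n)

/-- The `p`-th power of any element is congruent to a rational integer mod `p`. -/
theorem exists_int_pow_sub_dvd (x : 𝓞 K) : ∃ n : ℤ, (p : 𝓞 K) ∣ x ^ p - (n : 𝓞 K) := by
  have hζ := IsCyclotomicExtension.zeta_spec p ℚ K
  obtain ⟨n, hn⟩ := exists_int_sub_dvd hζ x
  refine ⟨n ^ p, ?_⟩
  push_cast
  exact (prime_dvd_zeta_sub_one_pow hζ).trans (zeta_sub_one_pow_dvd_pow_sub_pow hζ hn)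

/-- `1 + ζ` is a unit (for `p` odd). -/
theorem isUnit_one_add_zeta (hp2 : p ≠ 2) : IsUnit (1 + hζ.toInteger) := by
  have hz := hζ.toInteger_isPrimitiveRoot
  have h2 : Nat.Coprime 2 p :=
    (Nat.coprime_primes Nat.prime_two hp.out).2 (Ne.symm hp2)
  have := hz.geom_sum_isUnit hp.out.two_le h2
  simpa [Finset.sum_range_succ] using this

end Fermat.Agent.S11
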