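import Fermat.Agent.S11.Basic

/-!
# Independence of units from triangular `λ`-adic congruences

`λ = ζ - 1`.  A unit `u` "has level `k` with constant `n` and slope `m`" if
`u ≡ n * (1 + m λ ^ k) mod λ ^ (k + 1)`.  A family of units with pairwise distinct levels
`1 ≤ k i ≤ p - 2` and slopes prime to `p` is independent modulo units congruent to a rational
integer mod `p` (after raising to the power `p - 1`, to normalise the constants to `1`).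
-/

open NumberField Polynomial

set_option linter.unusedSectionVars false
set_option linter.unusedVariables false

namespace Fermat.Agent.S11

variable {p : ℕ} [hp : Fact p.Prime] {K : Type*} [Field K] [NumberField K]
  [IsCyclotomicExtension {p} ℚ K] {ζ : K} (hζ : IsPrimitiveRoot ζ p)

/-- `u ≡ n * (1 + m λ ^ k) mod λ ^ (k + 1)`. -/
def IsLevC (k : ℕ) (u : 𝓞 K) (n m : ℤ) : Prop :=
  (hζ.toInteger - 1) ^ (k + 1) ∣ u - (n : 𝓞 K) * (1 + (m : 𝓞 K) * (hζ.toInteger - 1) ^ k)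

theorem IsLevC.mul {k : ℕ} (hk : 1 ≤ k) {u u' : 𝓞 K} {n n' m m' : ℤ}
    (h : IsLevC hζ k u n m) (h' : IsLevC hζ k u' n' m') :
    IsLevC hζ k (u * u') (n * n') (m + m') := by
  unfold IsLevC at *
  have h2 : (hζ.toInteger - 1) ^ (k + 1) ∣ (hζ.toInteger - 1) ^ (2 * k) :=
    pow_dvd_pow _ (by omega)
  have e : u * u' - ((n * n' : ℤ) : 𝓞 K) * (1 + ((m + m' : ℤ) : 𝓞 K) * (hζ.toInteger - 1) ^ k) =
      (u - (n : 𝓞 K) * (1 + (m : 𝓞 K) * (hζ.toInteger - 1) ^ k)) * u' +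
      (n : 𝓞 K) * (1 + (m : 𝓞 K) * (hζ.toInteger - 1) ^ k) *
        (u' - (n' : 𝓞 K) * (1 + (m' : 𝓞 K) * (hζ.toInteger - 1) ^ k)) +
      (hζ.toInteger - 1) ^ (2 * k) * ((n : 𝓞 K) * n' * m * m') := by
    push_cast
    generalize hζ.toInteger - 1 = l
    ring
  rw [e]
  exact dvd_add (dvd_add (h.mul_right _) (h'.mul_left _)) (h2.mul_right _)

theorem IsLevC.one (k : ℕ) : IsLevC hζ k 1 1 0 := by
  unfold IsLevC
  simp

theorem IsLevC.pow {k : ℕ} (hk : 1 ≤ k) {u : 𝓞 K} {n m : ℤ}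
    (h : IsLevC hζ k u n m) (e : ℕ) : IsLevC hζ k (u ^ e) (n ^ e) (e * m) := by
  induction e with
  | zero => simpa using IsLevC.one hζ k
  | succ e ih =>
    have := ih.mul hζ hk h
    rw [pow_succ, pow_succ]
    convert this using 1
    push_cast
    ring

/-- Change the slope modulo `p` and the constant modulo `p`. -/
theorem IsLevC.congr {k : ℕ} (hkp : k + 1 ≤ p - 1) {u : 𝓞 K} {n m n' m' : ℤ}
    (h : IsLevC hζ k u n m) (hn : (p : ℤ) ∣ n - n') (hm : (p : ℤ) ∣ m - m') :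
    IsLevC hζ k u n' m' := by
  unfold IsLevC at *
  have hpl : (hζ.toInteger - 1) ^ (k + 1) ∣ (p : 𝓞 K) :=
    (pow_dvd_pow _ hkp).trans
      (IsCyclotomicExtension.Rat.associated_zeta_sub_one_pow_prime p hζ).dvd
  obtain ⟨a, ha⟩ := hn
  obtain ⟨b, hb⟩ := hm
  have ha' : (n : 𝓞 K) = n' + p * a := by
    have := congrArg (Int.cast : ℤ → 𝓞 K) (eq_add_of_sub_eq' ha)
    push_cast at this
    exact this
  have hb' : (m : 𝓞 K) = m' + p * b := by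
    have := congrArg (Int.cast : ℤ → 𝓞 K) (eq_add_of_sub_eq' hb)
    push_cast at this
    exact this
  have e : u - (n' : 𝓞 K) * (1 + (m' : 𝓞 K) * (hζ.toInteger - 1) ^ k) =
      (u - (n : 𝓞 K) * (1 + (m : 𝓞 K) * (hζ.toInteger - 1) ^ k)) +
      (p : 𝓞 K) * ((a : 𝓞 K) * (1 + (m : 𝓞 K) * (hζ.toInteger - 1) ^ k) +
        n' * b * (hζ.toInteger - 1) ^ k) := by
    rw [ha', hb']
    generalize hζ.toInteger - 1 = l
    ring
  rw [e]
  exact dvd_add h (hpl.mul_right _)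

/-- Normalisation: the `(p - 1)`-st power has constant `1`. -/
theorem IsLevC.pow_pred {k : ℕ} (hk : 1 ≤ k) (hkp : k + 1 ≤ p - 1) {u : 𝓞 K} {n m : ℤ}
    (hn : ¬ (p : ℤ) ∣ n) (h : IsLevC hζ k u n m) :
    IsLevC hζ k (u ^ (p - 1)) 1 (-m) := by
  have h1 := h.pow hζ hk (p - 1)
  refine h1.congr hζ hkp ?_ ?_
  · -- Fermat's little theorem
    have hcop : IsCoprime n (p : ℤ) :=
      ((Nat.prime_iff_prime_int.1 hp.out).coprime_iff_not_dvd.2 hn).symm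
    have := Int.ModEq.pow_card_sub_one_eq_one hp.out hcop
    exact (Int.modEq_iff_dvd.1 this.symm)
  · refine ⟨m, ?_⟩
    have h1 : 1 ≤ p := hp.out.one_le
    push_cast [Nat.cast_sub h1]
    ring

/-- The slope-`1` case: principal units of level `k`. -/
theorem IsLevC.inv {k : ℕ} (hk : 1 ≤ k) {u : (𝓞 K)ˣ} {m : ℤ}
    (h : IsLevC hζ k (u : 𝓞 K) 1 m) : IsLevC hζ k ((u⁻¹ : (𝓞 K)ˣ) : 𝓞 K) 1 (-m) := by
  unfold IsLevC at *
  have h2 : (hζ.toInteger - 1) ^ (k + 1) ∣ (hζ.toInteger - 1) ^ (2 * k) :=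
    pow_dvd_pow _ (by omega)
  have huu : ((u⁻¹ : (𝓞 K)ˣ) : 𝓞 K) * (u : 𝓞 K) = 1 := by simp
  have e : ((u⁻¹ : (𝓞 K)ˣ) : 𝓞 K) -
        ((1 : ℤ) : 𝓞 K) * (1 + ((-m : ℤ) : 𝓞 K) * (hζ.toInteger - 1) ^ k) =
      -((u⁻¹ : (𝓞 K)ˣ) : 𝓞 K) * (1 - (m : 𝓞 K) * (hζ.toInteger - 1) ^ k) *
        ((u : 𝓞 K) - ((1 : ℤ) : 𝓞 K) * (1 + (m : 𝓞 K) * (hζ.toInteger - 1) ^ k)) +
      (hζ.toInteger - 1) ^ (2 * k) * (((u⁻¹ : (𝓞 K)ˣ) : 𝓞 K) * m * m) := by
    push_cast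
    generalize hζ.toInteger - 1 = l
    linear_combination (1 - (m : 𝓞 K) * l ^ k) * huu
  rw [e]
  exact dvd_add (h.mul_left _) (h2.mul_right _)

theorem IsLevC.zpow {k : ℕ} (hk : 1 ≤ k) {u : (𝓞 K)ˣ} {m : ℤ}
    (h : IsLevC hζ k (u : 𝓞 K) 1 m) (e : ℤ) :
    IsLevC hζ k ((u ^ e : (𝓞 K)ˣ) : 𝓞 K) 1 (e * m) := by
  obtain ⟨a, rfl | rfl⟩ := e.eq_nat_or_neg
  · have := h.pow hζ hk a
    rw [one_pow] at this
    simpa using this
  · have h' := (h.inv hζ hk).pow hζ hk a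
    rw [one_pow] at h'
    have e1 : ((u ^ (-(a : ℤ)) : (𝓞 K)ˣ) : 𝓞 K) = ((u⁻¹ : (𝓞 K)ˣ) : 𝓞 K) ^ a := by
      rw [zpow_neg, zpow_natCast, ← inv_pow, Units.val_pow_eq_pow_val]
    rw [e1]
    convert h' using 1
    ring

/-- A unit of higher level has slope `0` at level `k`. -/
theorem IsLevC.of_lt {k k' : ℕ} (hkk' : k < k') {u : 𝓞 K} {m : ℤ}
    (h : IsLevC hζ k' u 1 m) : IsLevC hζ k u 1 0 := by
  unfold IsLevC at *
  have h1 : (hζ.toInteger - 1) ^ (k + 1) ∣ (hζ.toInteger - 1) ^ (k' + 1) :=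
    pow_dvd_pow _ (by omega)
  have h2 : (hζ.toInteger - 1) ^ (k + 1) ∣ (hζ.toInteger - 1) ^ k' :=
    pow_dvd_pow _ (by omega)
  have e : u - ((1 : ℤ) : 𝓞 K) * (1 + ((0 : ℤ) : 𝓞 K) * (hζ.toInteger - 1) ^ k) =
      (u - ((1 : ℤ) : 𝓞 K) * (1 + (m : 𝓞 K) * (hζ.toInteger - 1) ^ k')) +
      (hζ.toInteger - 1) ^ k' * m := by
    push_cast
    ring
  rw [e]
  exact dvd_add (h1.trans h) (h2.mul_right _)

/-- Principal units are congruent to `1` mod `λ`. -/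
theorem IsLevC.dvd_sub_one {k : ℕ} (hk : 1 ≤ k) {u : 𝓞 K} {m : ℤ}
    (h : IsLevC hζ k u 1 m) : hζ.toInteger - 1 ∣ u - 1 := by
  unfold IsLevC at h
  have h1 : hζ.toInteger - 1 ∣ (hζ.toInteger - 1) ^ (k + 1) := dvd_pow_self _ (by omega)
  have h2 : hζ.toInteger - 1 ∣ (hζ.toInteger - 1) ^ k := dvd_pow_self _ (by omega)
  have e : u - 1 = (u - ((1 : ℤ) : 𝓞 K) * (1 + (m : 𝓞 K) * (hζ.toInteger - 1) ^ k)) +
      (hζ.toInteger - 1) ^ k * m := by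
    push_cast
    ring
  rw [e]
  exact dvd_add (h1.trans h) (h2.mul_right _)

/-- `p`-th powers of principal units have slope `0` at every level `k ≤ p - 1`. -/
theorem IsLevC.pow_prime {k : ℕ} (hkp : k + 1 ≤ p) {u : 𝓞 K}
    (h : hζ.toInteger - 1 ∣ u - 1) : IsLevC hζ k (u ^ p) 1 0 := by
  unfold IsLevC
  have h1 := zeta_sub_one_pow_dvd_pow_sub_pow hζ (n := 1) h
  rw [one_pow] at h1
  have e : u ^ p - ((1 : ℤ) : 𝓞 K) * (1 + ((0 : ℤ) : 𝓞 K) * (hζ.toInteger - 1) ^ k) =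
      u ^ p - 1 := by
    push_cast
    ring
  rw [e]
  exact (pow_dvd_pow _ hkp).trans h1

theorem IsLevC.prod {k : ℕ} (hk : 1 ≤ k) {ι : Type*} (s : Finset ι) (f : ι → 𝓞 K)
    (μ : ι → ℤ) (h : ∀ i ∈ s, IsLevC hζ k (f i) 1 (μ i)) :
    IsLevC hζ k (∏ i ∈ s, f i) 1 (∑ i ∈ s, μ i) := by
  classical
  induction s using Finset.induction_on with
  | empty => simpa using IsLevC.one hζ k
  | insert a s ha ih =>
    rw [Finset.prod_insert ha, Finset.sum_insert ha]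
    have h1 := h a (Finset.mem_insert_self a s)
    have h2 := ih (fun i hi ↦ h i (Finset.mem_insert_of_mem hi))
    simpa using h1.mul hζ hk h2

/-- If a principal unit of level `k` and slope `μ` is congruent to an integer mod `p`, then
`p ∣ μ`. -/
theorem IsLevC.dvd_slope {k : ℕ} (hk : 1 ≤ k) (hkp : k + 1 ≤ p - 1) {u : 𝓞 K} {μ : ℤ}
    (h : IsLevC hζ k u 1 μ) (hn : ∃ n : ℤ, (p : 𝓞 K) ∣ u - (n : 𝓞 K)) : (p : ℤ) ∣ μ := by
  obtain ⟨n, hn⟩ := hn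
  have hl := hζ.zeta_sub_one_prime'
  have hl0 : hζ.toInteger - 1 ≠ 0 := hl.ne_zero
  have hpl : (hζ.toInteger - 1) ^ (k + 1) ∣ (p : 𝓞 K) :=
    (pow_dvd_pow _ hkp).trans
      (IsCyclotomicExtension.Rat.associated_zeta_sub_one_pow_prime p hζ).dvd
  have hlp : hζ.toInteger - 1 ∣ (p : 𝓞 K) := hζ.toInteger_sub_one_dvd_prime'
  -- `λ ∣ n - 1`
  have h1 : hζ.toInteger - 1 ∣ ((n - 1 : ℤ) : 𝓞 K) := by
    have e : ((n - 1 : ℤ) : 𝓞 K) = (u - 1) - (u - (n : 𝓞 K)) := by push_cast; ring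
    rw [e]
    exact dvd_sub (h.dvd_sub_one hζ hk) (hlp.trans hn)
  have h2 : (p : ℤ) ∣ n - 1 := (IsCyclotomicExtension.Rat.zeta_sub_one_dvd_intCast_iff' p hζ).1 h1
  have h3 : (hζ.toInteger - 1) ^ (k + 1) ∣ ((n - 1 : ℤ) : 𝓞 K) := by
    obtain ⟨c, hc⟩ := h2
    rw [hc]
    push_cast
    exact hpl.mul_right _
  have h4 : (hζ.toInteger - 1) ^ (k + 1) ∣ (μ : 𝓞 K) * (hζ.toInteger - 1) ^ k := by
    unfold IsLevC at h
    have e : (μ : 𝓞 K) * (hζ.toInteger - 1) ^ k =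
        (u - (n : 𝓞 K)) - (u - ((1 : ℤ) : 𝓞 K) * (1 + (μ : 𝓞 K) * (hζ.toInteger - 1) ^ k)) +
        ((n - 1 : ℤ) : 𝓞 K) := by
      push_cast
      ring
    rw [e]
    exact dvd_add (dvd_sub (hpl.trans hn) h) h3
  have h5 : hζ.toInteger - 1 ∣ (μ : 𝓞 K) := by
    rw [pow_succ, mul_comm (μ : 𝓞 K)] at h4
    exact (mul_dvd_mul_iff_left (pow_ne_zero k hl0)).1 h4
  exact (IsCyclotomicExtension.Rat.zeta_sub_one_dvd_intCast_iff' p hζ).1 h5

/-- **Independence from triangular congruences** (principal units). -/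
theorem hindep_of_triangular {r : ℕ} (v : Fin r → (𝓞 K)ˣ) (k : Fin r → ℕ) (m : Fin r → ℤ)
    (hk1 : ∀ i, 1 ≤ k i) (hkp : ∀ i, k i + 1 ≤ p - 1) (hkinj : Function.Injective k)
    (hm : ∀ i, ¬ (p : ℤ) ∣ m i) (hv : ∀ i, IsLevC hζ (k i) (v i : 𝓞 K) 1 (m i))
    (e : Fin r → ℤ)
    (hn : ∃ n : ℤ, (p : 𝓞 K) ∣ ((∏ i, v i ^ e i : (𝓞 K)ˣ) : 𝓞 K) - (n : 𝓞 K)) :
    ∀ i, (p : ℤ) ∣ e i := by
  have hpp : Prime (p : ℤ) := Nat.prime_iff_prime_int.1 hp.out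
  suffices H : ∀ N i, k i = N → (p : ℤ) ∣ e i from fun i ↦ H (k i) i rfl
  intro N
  induction N using Nat.strong_induction_on with
  | _ N ih =>
    intro i hi
    subst hi
    have hfac : ∀ j ∈ Finset.univ, IsLevC hζ (k i) (((v j ^ e j : (𝓞 K)ˣ)) : 𝓞 K) 1
        (if j = i then e i * m i else 0) := by
      intro j _
      by_cases hji : j = i
      · subst hji
        simpa using (hv j).zpow hζ (hk1 j) (e j)
      · rw [if_neg hji]
        rcases lt_or_gt_of_ne (fun h ↦ hji (hkinj h)) with hlt | hgt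
        · -- lower level: `p ∣ e j`, so this is a `p`-th power
          obtain ⟨f, hf⟩ := ih (k j) hlt j rfl
          have h1 := ((hv j).zpow hζ (hk1 j) f).dvd_sub_one hζ (hk1 j)
          have h2 := IsLevC.pow_prime hζ (k := k i) (by have := hkp i; omega) h1
          have e1 : ((v j ^ e j : (𝓞 K)ˣ) : 𝓞 K) = ((v j ^ f : (𝓞 K)ˣ) : 𝓞 K) ^ p := by
            rw [hf, mul_comm, zpow_mul, zpow_natCast, Units.val_pow_eq_pow_val]
          rw [e1]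
          exact h2
        · exact ((hv j).zpow hζ (hk1 j) (e j)).of_lt hζ hgt
    have hprod := IsLevC.prod hζ (hk1 i) Finset.univ _ _ hfac
    rw [Finset.sum_ite_eq' Finset.univ i, if_pos (Finset.mem_univ i)] at hprod
    have hcoe : ((∏ j, v j ^ e j : (𝓞 K)ˣ) : 𝓞 K) = ∏ j, ((v j ^ e j : (𝓞 K)ˣ) : 𝓞 K) := by
      simp [Units.coe_prod]
    rw [hcoe] at hn
    have := hprod.dvd_slope hζ (hk1 i) (hkp i) hn
    exact (hpp.dvd_or_dvd this).resolve_right (hm i)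

/-- **Independence from triangular congruences with constants**: the `(p - 1)`-st powers of a
family of units with pairwise distinct levels and slopes prime to `p` are independent. -/
theorem hindep_of_triangular_const {r : ℕ} (v : Fin r → (𝓞 K)ˣ) (k : Fin r → ℕ)
    (n m : Fin r → ℤ)
    (hk1 : ∀ i, 1 ≤ k i) (hkp : ∀ i, k i + 1 ≤ p - 1) (hkinj : Function.Injective k)
    (hn0 : ∀ i, ¬ (p : ℤ) ∣ n i)
    (hm : ∀ i, ¬ (p : ℤ) ∣ m i) (hv : ∀ i, IsLevC hζ (k i) (v i : 𝓞 K) (n i) (m i))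
    (e : Fin r → ℤ)
    (hn : ∃ n : ℤ, (p : 𝓞 K) ∣ ((∏ i, (v i ^ (p - 1)) ^ e i : (𝓞 K)ˣ) : 𝓞 K) - (n : 𝓞 K)) :
    ∀ i, (p : ℤ) ∣ e i := by
  refine hindep_of_triangular hζ (fun i ↦ v i ^ (p - 1)) k (fun i ↦ -m i) hk1 hkp hkinj
    (fun i ↦ by simpa using hm i) (fun i ↦ ?_) e hn
  have := (hv i).pow_pred hζ (hk1 i) (hkp i) (hn0 i)
  simpa using this

end Fermat.Agent.S11
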