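import Mathlib

set_option autoImplicit false

/-!
# Principal primes of degree one in cyclotomic rings of integers (helper47, Kummer route)

`exists_isPrincipal_mem_primesOver_of_cofactors`: in `𝓞 K`, `K = ℚ(ζₙ)`, the kernel of the ring
homomorphism `𝓞 K → ZMod q`, `ζ ↦ r` is a prime over `q`; it is principal as soon as explicit
cofactors are given.
-/

namespace Fermat.Agent.S11.helper47

open NumberField Ideal Polynomial

variable {K : Type*} [Field K] [NumberField K]

theorem exists_isPrincipal_mem_primesOver_of_cofactors {n : ℕ} [NeZero n]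
    [IsCyclotomicExtension {n} ℚ K] {ζ : K} (hζ : IsPrimitiveRoot ζ n)
    (q : ℕ) [hq : Fact q.Prime] (r : ℤ)
    (hr : (q : ℤ) ∣ (cyclotomic n ℤ).eval r)
    (α β γ u : 𝓞 K) (v : ℤ)
    (h1 : α * β = (q : 𝓞 K)) (h2 : α * γ = hζ.toInteger - (r : 𝓞 K))
    (h3 : α = (hζ.toInteger - (r : 𝓞 K)) * u + (q : 𝓞 K) * (v : 𝓞 K)) :
    ∃ P ∈ primesOver (span {(q : ℤ)}) (𝓞 K), Submodule.IsPrincipal P := by
  classical
  have hgen : hζ.integralPowerBasis.gen = hζ.toInteger := hζ.integralPowerBasis_gen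
  have hmin : minpoly ℤ hζ.integralPowerBasis.gen = cyclotomic n ℤ := by
    rw [hgen, ← RingOfIntegers.minpoly_coe]
    exact (cyclotomic_eq_minpoly hζ (NeZero.pos n)).symm
  have hy : aeval ((r : ℤ) : ZMod q) (minpoly ℤ hζ.integralPowerBasis.gen) = 0 := by
    rw [hmin]
    have : aeval ((r : ℤ) : ZMod q) (cyclotomic n ℤ)
        = (((cyclotomic n ℤ).eval r : ℤ) : ZMod q) := by
      rw [← eq_intCast (algebraMap ℤ (ZMod q)) r, aeval_algebraMap_apply, eq_intCast]
      simp
    rw [this]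
    exact (ZMod.intCast_zmod_eq_zero_iff_dvd _ q).mpr hr
  let φ : 𝓞 K →ₐ[ℤ] ZMod q := hζ.integralPowerBasis.lift (r : ZMod q) hy
  have hφζ : φ hζ.toInteger = (r : ZMod q) := by
    have := hζ.integralPowerBasis.lift_gen (r : ZMod q) hy
    rwa [hgen] at this
  have hφint : ∀ m : ℤ, φ (m : 𝓞 K) = (m : ZMod q) := fun m => by
    simp
  have hφq : φ (q : 𝓞 K) = 0 := by
    have := hφint (q : ℤ)
    simp
  refine ⟨RingHom.ker φ.toRingHom, ⟨RingHom.ker_isPrime _, ?_⟩, ?_⟩
  · -- lies over
    rw [liesOver_iff, under_def]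
    have : (φ.toRingHom).comp (algebraMap ℤ (𝓞 K)) = Int.castRingHom (ZMod q) :=
      RingHom.ext_int _ _
    rw [RingHom.comap_ker, this, ZMod.ker_intCastRingHom]
  · -- principal
    refine ⟨α, ?_⟩
    apply le_antisymm
    · intro x hx
      rw [RingHom.mem_ker] at hx
      obtain ⟨f, hf⟩ := hζ.integralPowerBasis.exists_eq_aeval' x
      rw [hgen] at hf
      have hx' : φ x = ((f.eval r : ℤ) : ZMod q) := by
        rw [hf]
        change φ (aeval hζ.toInteger f) = _
        rw [← aeval_algHom_apply, hφζ, ← eq_intCast (algebraMap ℤ (ZMod q)) r,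
          aeval_algebraMap_apply, eq_intCast]
        simp
      have hdvd : (q : ℤ) ∣ f.eval r := by
        rw [← ZMod.intCast_zmod_eq_zero_iff_dvd, ← hx']
        exact hx
      obtain ⟨c, hc⟩ := hdvd
      have hsub : hζ.toInteger - (r : 𝓞 K) ∣ x - ((f.eval r : ℤ) : 𝓞 K) := by
        have h := sub_dvd_eval_sub hζ.toInteger (r : 𝓞 K) (f.map (algebraMap ℤ (𝓞 K)))
        have e1 : eval hζ.toInteger (f.map (algebraMap ℤ (𝓞 K))) = x := by
          rw [hf, aeval_def, eval₂_eq_eval_map]
        have e2 : eval (r : 𝓞 K) (f.map (algebraMap ℤ (𝓞 K))) = ((f.eval r : ℤ) : 𝓞 K) := by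
          rw [← eq_intCast (algebraMap ℤ (𝓞 K)) r, eval_map_algebraMap, aeval_algebraMap_apply,
            eq_intCast]
          simp
        rwa [e1, e2] at h
      have hα1 : α ∣ hζ.toInteger - (r : 𝓞 K) := ⟨γ, h2.symm⟩
      have hα2 : α ∣ ((f.eval r : ℤ) : 𝓞 K) := by
        rw [hc]
        push_cast
        exact Dvd.dvd.mul_right ⟨β, h1.symm⟩ _
      have : α ∣ x := by
        have := dvd_add (hα1.trans hsub) hα2
        simpa using this
      exact Submodule.mem_span_singleton.mpr (by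
        obtain ⟨d, hd⟩ := this
        exact ⟨d, by rw [hd, smul_eq_mul, mul_comm]⟩)
    · rw [Submodule.span_singleton_le_iff_mem]
      change α ∈ RingHom.ker φ.toRingHom
      rw [RingHom.mem_ker]
      change φ α = 0
      rw [h3, map_add, map_mul, map_mul, map_sub, hφζ, hφint r, hφq]
      simp

end Fermat.Agent.S11.helper47
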