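import Mathlib
import Fermat.Agent.S11.helper47_PrincipalPrime

set_option autoImplicit false

/-!
# `ℤ[ζ₁₁]` is a principal ideal domain (helper47, Kummer route for S10/S11)
-/

namespace Fermat.Agent.S11.helper47

open NumberField Ideal Polynomial Nat Real Module InfinitePlace

variable (K : Type*) [Field K] [NumberField K]

theorem minkowski_floor_le_11 [IsCyclotomicExtension {11} ℚ K] :
    ⌊(4 / π) ^ nrComplexPlaces K *
      ((finrank ℚ K)! / (finrank ℚ K) ^ (finrank ℚ K) * √|discr K|)⌋₊ ≤ 66 := by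
  have : Fact (Nat.Prime 11) := ⟨by norm_num⟩
  rw [IsCyclotomicExtension.Rat.nrComplexPlaces_eq_totient_div_two 11 K,
    IsCyclotomicExtension.Rat.finrank (k := 11) K,
    IsCyclotomicExtension.Rat.discr_prime 11 K, Nat.totient_prime (by norm_num : Nat.Prime 11)]
  have e1 : (11 - 1) / 2 = 5 := rfl
  have e2 : (11 - 1 : ℕ) = 10 := rfl
  have e3 : (11 - 2 : ℕ) = 9 := rfl
  have h10 : (10 : ℕ)! = 3628800 := by decide
  rw [e1, e2, e3, h10]
  have hd : |((((-1 : ℤ) ^ 5 * ((11 : ℕ) : ℤ) ^ 9 : ℤ)) : ℝ)| = 2357947691 := by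
    norm_num
  rw [hd]
  have hsq : √(2357947691 : ℝ) ≤ 48559 := by
    rw [Real.sqrt_le_left (by norm_num)]
    norm_num
  have hpi : (4 / π) ^ 5 ≤ (4 / 3.14) ^ 5 := by
    have := Real.pi_gt_d2
    gcongr
  apply Nat.le_of_lt_succ
  rw [Nat.floor_lt (by positivity)]
  refine lt_of_le_of_lt (b := (4 / 3.14) ^ 5 * ((3628800 : ℝ) / 10 ^ 10 * 48559)) ?_ ?_
  · push_cast
    gcongr
  · push_cast
    norm_num

/-- lower bound for `q ^ orderOf x` from non-triviality of small powers. -/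
theorem lt_pow_orderOf_of_forall_ne {m : ℕ} (x : ZMod m) (q k B e : ℕ) (hq : 1 ≤ q) (he : 0 < e)
    (h1 : x ^ e = 1) (hk : ∀ j < k, 0 < j → x ^ j ≠ 1) (hB : B < q ^ k) :
    B < q ^ orderOf x := by
  have hpos : 0 < orderOf x := orderOf_pos_iff.mpr (isOfFinOrder_iff_pow_eq_one.mpr ⟨e, he, h1⟩)
  have hle : k ≤ orderOf x := by
    by_contra h
    rw [not_le] at h
    exact hk _ h hpos (pow_orderOf_eq_one x)
  exact lt_of_lt_of_le hB (Nat.pow_le_pow_right hq hle)

theorem pid11 [IsCyclotomicExtension {11} ℚ K] : IsPrincipalIdealRing (𝓞 K) := by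
  have hp11 : Fact (Nat.Prime 11) := ⟨by norm_num⟩
  have hgal : IsGalois ℚ K := IsCyclotomicExtension.isGalois {11} ℚ K
  have hM := minkowski_floor_le_11 K
  have hζ := IsCyclotomicExtension.zeta_spec 11 ℚ K
  apply RingOfIntegers.isPrincipalIdealRing_of_isPrincipal_of_lt_or_isPrincipal_of_mem_primesOver_of_mem_Icc
  intro q hq hqp
  have hq66 : q ≤ 66 := (Finset.mem_Icc.mp hq).2.trans hM
  have hqF : Fact q.Prime := ⟨hqp⟩
  by_cases h11 : q = 11
  · subst h11
    exact ⟨span {hζ.toInteger - 1},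
      ⟨IsCyclotomicExtension.Rat.isPrime_span_zeta_sub_one' 11 hζ,
        IsCyclotomicExtension.Rat.liesOver_span_zeta_sub_one 11 0 (K := K) (by simp [hζ])⟩,
      Or.inr ⟨_, rfl⟩⟩
  by_cases h23 : q = 23
  · subst h23
    have hΦ : (∑ i ∈ Finset.range 11, hζ.toInteger ^ i) = 0 := by
      have h := hζ.toInteger_isPrimitiveRoot
      have := h.geom_sum_eq_zero (by norm_num)
      simpa using this
    simp only [Finset.sum_range_succ, Finset.sum_range_zero] at hΦ
    set ζ := hζ.toInteger with hζdef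
    obtain ⟨P, hP, hprin⟩ := exists_isPrincipal_mem_primesOver_of_cofactors hζ 23 4
      (by rw [cyclotomic_prime]; simp [Finset.sum_range_succ])
      (1 + ζ + ζ ^ 3)
      (-2 - 14 * ζ - 17 * ζ ^ 2 - 12 * ζ ^ 3 - 5 * ζ ^ 4 - 9 * ζ ^ 5 - 10 * ζ ^ 6 - 16 * ζ ^ 7
        - 6 * ζ ^ 8 - 15 * ζ ^ 9)
      (1 + 3 * ζ + 3 * ζ ^ 2 + 2 * ζ ^ 3 + ζ ^ 4 + 2 * ζ ^ 5 + 2 * ζ ^ 6 + 3 * ζ ^ 7 + ζ ^ 8
        + 3 * ζ ^ 9)
      (17 + 4 * ζ + ζ ^ 2) 3
      (by push_cast; linear_combination (-25 + 9 * ζ - 15 * ζ ^ 2) * hΦ)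
      (by push_cast; linear_combination (5 - 2 * ζ + 3 * ζ ^ 2) * hΦ)
      (by push_cast; ring)
    exact ⟨P, hP, Or.inr hprin⟩
  · obtain ⟨P, hP1, hP2⟩ := (Ideal.nonempty_primesOver (S := 𝓞 K) (span {(q : ℤ)})).some
    have hndvd : ¬ q ∣ 11 := by
      intro h
      exact h11 ((Nat.prime_dvd_prime_iff_eq hqp (by norm_num)).mp h)
    refine ⟨P, ⟨hP1, hP2⟩, Or.inl ?_⟩
    rw [IsCyclotomicExtension.Rat.inertiaDeg_eq_of_not_dvd q K P hndvd]
    refine lt_of_le_of_lt hM ?_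
    interval_cases q <;> first
      | (exfalso; revert hqp; decide)
      | (exfalso; exact h11 rfl)
      | (exfalso; exact h23 rfl)
      | (refine lt_pow_orderOf_of_forall_ne _ _ 7 66 10 (by norm_num) (by norm_num) (by decide)
          (by decide) (by norm_num))
      | (refine lt_pow_orderOf_of_forall_ne _ _ 4 66 10 (by norm_num) (by norm_num) (by decide)
          (by decide) (by norm_num))
      | (refine lt_pow_orderOf_of_forall_ne _ _ 3 66 10 (by norm_num) (by norm_num) (by decide)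
          (by decide) (by norm_num))
      | (refine lt_pow_orderOf_of_forall_ne _ _ 2 66 10 (by norm_num) (by norm_num) (by decide)
          (by decide) (by norm_num))

end Fermat.Agent.S11.helper47
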