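import Mathlib

set_option autoImplicit false

namespace Fermat.Agent.S11.helper62

open Polynomial Finset

section Abstract

variable {R : Type*} [CommRing R] [IsDomain R]
  {p : ℕ} {ζ : R}

/-- every `p`-th root of unity is a unit -/
lemma h62_isUnit_of_mem (hp : p.Prime) {η : R} (hη : η ∈ nthRootsFinset p (1 : R)) : IsUnit η := by
  rw [mem_nthRootsFinset hp.pos] at hη
  exact IsUnit.of_pow_eq_one hη hp.ne_zero

lemma h62_one_mem (hp : p.Prime) : (1 : R) ∈ nthRootsFinset p (1 : R) := by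
  rw [mem_nthRootsFinset hp.pos]; exact one_pow _

lemma h62_zeta_mem (hp : p.Prime) (hζ : IsPrimitiveRoot ζ p) : ζ ∈ nthRootsFinset p (1 : R) := by
  rw [mem_nthRootsFinset hp.pos]; exact hζ.pow_eq_one

lemma h62_zeta_pow_mem (hp : p.Prime) (hζ : IsPrimitiveRoot ζ p) (k : ℕ) :
    ζ ^ k ∈ nthRootsFinset p (1 : R) := by
  rw [mem_nthRootsFinset hp.pos, ← pow_mul, mul_comm, pow_mul, hζ.pow_eq_one, one_pow]

/-- `ζ - 1 ∣ η₁ - η₂` for `p`-th roots of unity -/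
lemma h62_dvd_sub (hp : p.Prime) (hζ : IsPrimitiveRoot ζ p) {η₁ η₂ : R}
    (h₁ : η₁ ∈ nthRootsFinset p (1 : R)) (h₂ : η₂ ∈ nthRootsFinset p (1 : R)) :
    ζ - 1 ∣ η₁ - η₂ :=
  hζ.sub_one_dvd_sub hp h₁ h₂

/-- Step 1: if `π` divides the product, it divides each factor. -/
lemma h62_dvd_all (hp : p.Prime) (hζ : IsPrimitiveRoot ζ p) (hπ : Prime (ζ - 1))
    {x y : R} (h : ζ - 1 ∣ ∏ η ∈ nthRootsFinset p (1 : R), (x + η * y)) :
    ∀ η ∈ nthRootsFinset p (1 : R), ζ - 1 ∣ x + η * y := by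
  obtain ⟨η₀, hη₀, h₀⟩ := (Prime.dvd_finsetProd_iff hπ _).1 h
  intro η hη
  have : x + η * y = (x + η₀ * y) + (η - η₀) * y := by ring
  rw [this]
  exact dvd_add h₀ ((h62_dvd_sub hp hζ hη hη₀).mul_right _)

/-- two distinct factors cannot both be divisible by `π ^ 2` -/
lemma h62_not_both (hp : p.Prime) (hζ : IsPrimitiveRoot ζ p) (hπ : Prime (ζ - 1))
    {x y : R} (hy : ¬ ζ - 1 ∣ y) {η₁ η₂ : R}
    (h₁ : η₁ ∈ nthRootsFinset p (1 : R)) (h₂ : η₂ ∈ nthRootsFinset p (1 : R)) (hne : η₁ ≠ η₂)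
    (hd₁ : (ζ - 1) ^ 2 ∣ x + η₁ * y) (hd₂ : (ζ - 1) ^ 2 ∣ x + η₂ * y) : False := by
  have hsub : (ζ - 1) ^ 2 ∣ (η₁ - η₂) * y := by
    have : (η₁ - η₂) * y = (x + η₁ * y) - (x + η₂ * y) := by ring
    rw [this]; exact dvd_sub hd₁ hd₂
  obtain ⟨u, hu⟩ := hζ.nthRootsFinset_pairwise_associated_sub_one_sub_of_prime hp h₁ h₂ hne
  rw [← hu, pow_two, mul_assoc] at hsub
  have h3 : ζ - 1 ∣ (u : R) * y := (mul_dvd_mul_iff_left hπ.ne_zero).1 hsub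
  rcases hπ.dvd_or_dvd h3 with h | h
  · exact hπ.not_isUnit (isUnit_of_dvd_unit h u.isUnit)
  · exact hy h

/-- Step 2 (pigeonhole): some factor is divisible by `π ^ 2`. -/
lemma h62_exists_sq_dvd (hp : p.Prime) (hζ : IsPrimitiveRoot ζ p) (hπ : Prime (ζ - 1))
    (h1 : ∀ x : R, ∃ n : ℤ, ζ - 1 ∣ x - n)
    {x y : R} (hy : ¬ ζ - 1 ∣ y)
    (hall : ∀ η ∈ nthRootsFinset p (1 : R), ζ - 1 ∣ x + η * y) :
    ∃ η ∈ nthRootsFinset p (1 : R), (ζ - 1) ^ 2 ∣ x + η * y := by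
  classical
  have : Fact p.Prime := ⟨hp⟩
  have hπp : ζ - 1 ∣ (p : R) := hζ.sub_one_dvd_natCast hp.one_lt
  -- residues
  have hres : ∀ η ∈ nthRootsFinset p (1 : R), ∃ n : ℤ, (ζ - 1) ^ 2 ∣ x + η * y - (ζ - 1) * n := by
    intro η hη
    obtain ⟨t, ht⟩ := hall η hη
    obtain ⟨n, s, hs⟩ := h1 t
    refine ⟨n, s, ?_⟩
    rw [ht, ← mul_sub, hs]; ring
  choose! n hn using hres
  have hinj : Set.InjOn (fun η => ((n η : ℤ) : ZMod p)) (nthRootsFinset p (1 : R) : Set R) := by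
    intro η₁ h₁ η₂ h₂ heq
    by_contra hne
    simp only at heq
    have hdvd : (p : ℤ) ∣ n η₁ - n η₂ := by
      rw [← ZMod.intCast_zmod_eq_zero_iff_dvd]; push_cast; rw [heq, sub_self]
    have hdvd' : ζ - 1 ∣ ((n η₁ - n η₂ : ℤ) : R) := by
      obtain ⟨c, hc⟩ := hdvd
      rw [hc]; push_cast
      exact Dvd.dvd.mul_right hπp _
    have key : (ζ - 1) ^ 2 ∣ (η₁ - η₂) * y := by
      have e : (η₁ - η₂) * y = (x + η₁ * y - (ζ - 1) * n η₁) - (x + η₂ * y - (ζ - 1) * n η₂)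
          + (ζ - 1) * ((n η₁ - n η₂ : ℤ) : R) := by push_cast; ring
      rw [e]
      refine dvd_add (dvd_sub (hn η₁ h₁) (hn η₂ h₂)) ?_
      rw [pow_two]; exact mul_dvd_mul_left _ hdvd'
    obtain ⟨u, hu⟩ := hζ.nthRootsFinset_pairwise_associated_sub_one_sub_of_prime hp h₁ h₂ hne
    rw [← hu, pow_two, mul_assoc] at key
    have h3 : ζ - 1 ∣ (u : R) * y := (mul_dvd_mul_iff_left hπ.ne_zero).1 key
    rcases hπ.dvd_or_dvd h3 with h | h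
    · exact hπ.not_isUnit (isUnit_of_dvd_unit h u.isUnit)
    · exact hy h
  have hcard : ((nthRootsFinset p (1 : R)).image (fun η => ((n η : ℤ) : ZMod p))).card = p := by
    rw [Finset.card_image_of_injOn hinj, hζ.card_nthRootsFinset]
  have huniv : (nthRootsFinset p (1 : R)).image (fun η => ((n η : ℤ) : ZMod p)) = Finset.univ := by
    apply Finset.eq_univ_of_card
    rw [hcard, ZMod.card]
  have h0 : (0 : ZMod p) ∈ (nthRootsFinset p (1 : R)).image (fun η => ((n η : ℤ) : ZMod p)) := by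
    rw [huniv]; exact Finset.mem_univ _
  obtain ⟨η, hη, hη0⟩ := Finset.mem_image.1 h0
  refine ⟨η, hη, ?_⟩
  have hpn : (p : ℤ) ∣ n η := (ZMod.intCast_zmod_eq_zero_iff_dvd _ _).1 hη0
  have hπn : ζ - 1 ∣ ((n η : ℤ) : R) := by
    obtain ⟨c, hc⟩ := hpn
    rw [hc]; push_cast
    exact Dvd.dvd.mul_right hπp _
  have e : x + η * y = (x + η * y - (ζ - 1) * n η) + (ζ - 1) * (n η : R) := by ring
  rw [e]
  refine dvd_add (hn η hη) ?_
  rw [pow_two]; exact mul_dvd_mul_left _ hπn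

/-- first half of the descent: factorisation data, normalised so that `π ^ 2 ∣ x + y` -/
lemma h62_descent_data [DecidableEq R] (hp : p.Prime) (hp2 : p ≠ 2)
    (hζ : IsPrimitiveRoot ζ p) (hπ : Prime (ζ - 1))
    {m : ℕ} (hm : 1 ≤ m) {x y z : R} {ε : Rˣ} (hy : ¬ ζ - 1 ∣ y) (hz : ¬ ζ - 1 ∣ z)
    (H : x ^ p + y ^ p = ε * ((ζ - 1) ^ m * z) ^ p)
    (hsq : (ζ - 1) ^ 2 ∣ x + y) :
    2 ≤ m ∧ ∃ s : R → R, (∀ η ∈ nthRootsFinset p (1 : R), ¬ ζ - 1 ∣ s η) ∧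
      (∀ η ∈ (nthRootsFinset p (1 : R)).erase 1, x + η * y = (ζ - 1) * s η) ∧
      x + y = (ζ - 1) ^ (p * (m - 1) + 1) * s 1 ∧
      ∏ η ∈ nthRootsFinset p (1 : R), s η = ε * z ^ p := by
  have hodd : Odd p := hp.odd_of_ne_two hp2
  have hprod : ∏ η ∈ nthRootsFinset p (1 : R), (x + η * y) = ε * ((ζ - 1) ^ m * z) ^ p := by
    rw [← H]; exact (hζ.pow_add_pow_eq_prod_add_mul x y hodd).symm
  have hmp : m * p ≠ 0 := Nat.mul_ne_zero (by omega) hp.ne_zero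
  have hπprod : ζ - 1 ∣ ∏ η ∈ nthRootsFinset p (1 : R), (x + η * y) := by
    rw [hprod, mul_pow, ← pow_mul]
    exact Dvd.dvd.mul_left (Dvd.dvd.mul_right (dvd_pow_self _ hmp) _) _
  have hall := h62_dvd_all hp hζ hπ hπprod
  have h1mem : (1 : R) ∈ nthRootsFinset p (1 : R) := h62_one_mem hp
  have hns : ∀ η ∈ (nthRootsFinset p (1 : R)).erase 1,
      ∃ s : R, x + η * y = (ζ - 1) * s ∧ ¬ ζ - 1 ∣ s := by
    intro η hη
    obtain ⟨hne, hημ⟩ := Finset.mem_erase.1 hη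
    obtain ⟨s, hs⟩ := hall η hημ
    refine ⟨s, hs, fun hdvd => ?_⟩
    apply h62_not_both hp hζ hπ hy hημ h1mem hne
    · rw [hs, pow_two]; exact mul_dvd_mul_left _ hdvd
    · simpa using hsq
  choose! s hs hsnd using hns
  have hS'nd : ¬ ζ - 1 ∣ ∏ η ∈ (nthRootsFinset p (1 : R)).erase 1, s η := by
    intro h
    obtain ⟨η, hη, hd⟩ := (Prime.dvd_finsetProd_iff hπ _).1 h
    exact hsnd η hη hd
  have hT : ∏ η ∈ (nthRootsFinset p (1 : R)).erase 1, (x + η * y) =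
      (ζ - 1) ^ (p - 1) * ∏ η ∈ (nthRootsFinset p (1 : R)).erase 1, s η := by
    rw [Finset.prod_congr rfl (fun η hη => hs η hη), Finset.prod_mul_distrib, Finset.prod_const,
      Finset.card_erase_of_mem h1mem, hζ.card_nthRootsFinset]
  have hfull : (x + y) * ((ζ - 1) ^ (p - 1) * ∏ η ∈ (nthRootsFinset p (1 : R)).erase 1, s η) =
      ε * ((ζ - 1) ^ m * z) ^ p := by
    rw [← hT, ← hprod, ← Finset.mul_prod_erase _ _ h1mem, one_mul]
  have hexp : m * p = (p - 1) + (p * (m - 1) + 1) := by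
    obtain ⟨m', rfl⟩ : ∃ m', m = m' + 1 := ⟨m - 1, by omega⟩
    have h1p := hp.one_lt
    obtain ⟨p', rfl⟩ : ∃ p', p = p' + 1 := ⟨p - 1, by omega⟩
    simp only [Nat.add_sub_cancel]
    ring
  have hcancel : (x + y) * ∏ η ∈ (nthRootsFinset p (1 : R)).erase 1, s η =
      ε * (ζ - 1) ^ (p * (m - 1) + 1) * z ^ p := by
    have hπne : (ζ - 1) ^ (p - 1) ≠ 0 := pow_ne_zero _ hπ.ne_zero
    apply mul_left_cancel₀ hπne
    calc (ζ - 1) ^ (p - 1) * ((x + y) * ∏ η ∈ (nthRootsFinset p (1 : R)).erase 1, s η)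
        = (x + y) * ((ζ - 1) ^ (p - 1) * ∏ η ∈ (nthRootsFinset p (1 : R)).erase 1, s η) := by
          ring
      _ = ε * ((ζ - 1) ^ m * z) ^ p := hfull
      _ = (ζ - 1) ^ (p - 1) * (ε * (ζ - 1) ^ (p * (m - 1) + 1) * z ^ p) := by
          rw [mul_pow, ← pow_mul, hexp, pow_add]; ring
  have hk : (ζ - 1) ^ (p * (m - 1) + 1) ∣ x + y := by
    apply hπ.pow_dvd_of_dvd_mul_right _ hS'nd
    rw [hcancel]; exact Dvd.dvd.mul_right (Dvd.dvd.mul_left (dvd_refl _) _) _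
  obtain ⟨s0, hs0⟩ := hk
  have hs0S : s0 * ∏ η ∈ (nthRootsFinset p (1 : R)).erase 1, s η = ε * z ^ p := by
    have hπne : (ζ - 1) ^ (p * (m - 1) + 1) ≠ 0 := pow_ne_zero _ hπ.ne_zero
    apply mul_left_cancel₀ hπne
    rw [← mul_assoc, ← hs0, hcancel]; ring
  have hεz : ¬ ζ - 1 ∣ (ε : R) * z ^ p := by
    intro h
    rcases hπ.dvd_or_dvd h with h | h
    · exact hπ.not_isUnit (isUnit_of_dvd_unit h ε.isUnit)
    · exact hz (hπ.dvd_of_dvd_pow h)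
  have hs0nd : ¬ ζ - 1 ∣ s0 := fun h => hεz (hs0S ▸ h.mul_right _)
  have hm2 : 2 ≤ m := by
    by_contra hlt
    have hm1 : m = 1 := by omega
    subst hm1
    simp only [Nat.sub_self, mul_zero, zero_add, pow_one] at hs0
    obtain ⟨c, hc⟩ := hsq
    apply hs0nd
    refine ⟨c, ?_⟩
    apply mul_left_cancel₀ hπ.ne_zero
    rw [← hs0, hc]; ring
  refine ⟨hm2, fun η => if η = 1 then s0 else s η, ?_, ?_, ?_, ?_⟩
  · intro η hη
    by_cases h : η = 1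
    · simpa [h] using hs0nd
    · simpa [h] using hsnd η (Finset.mem_erase.2 ⟨h, hη⟩)
  · intro η hη
    have hne := (Finset.mem_erase.1 hη).1
    simpa [hne] using hs η hη
  · simpa using hs0
  · rw [← Finset.mul_prod_erase _ _ h1mem, if_pos rfl, ← hs0S]
    congr 1
    apply Finset.prod_congr rfl
    intro η hη
    rw [if_neg (Finset.mem_erase.1 hη).1]

/-- pairwise coprimality of the cofactors -/
lemma h62_coprime [IsPrincipalIdealRing R] (hp : p.Prime) (hζ : IsPrimitiveRoot ζ p)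
    (hπ : Prime (ζ - 1)) {x y : R} (hxy : IsCoprime x y) {η₁ η₂ : R}
    (h₁ : η₁ ∈ nthRootsFinset p (1 : R)) (h₂ : η₂ ∈ nthRootsFinset p (1 : R)) (hne : η₁ ≠ η₂)
    {a b : R} (ha : a ∣ x + η₁ * y) (hb : b ∣ x + η₂ * y) (hna : ¬ ζ - 1 ∣ a) :
    IsCoprime a b := by
  apply isCoprime_of_prime_dvd
  · rintro ⟨rfl, -⟩; exact hna (dvd_zero _)
  · intro q hq hqa hqb
    have hq1 : q ∣ x + η₁ * y := hqa.trans ha
    have hq2 : q ∣ x + η₂ * y := hqb.trans hb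
    obtain ⟨u, hu⟩ := hζ.nthRootsFinset_pairwise_associated_sub_one_sub_of_prime hp h₁ h₂ hne
    have hqy : q ∣ (ζ - 1) * (u * y) := by
      have : (ζ - 1) * (u * y) = (x + η₁ * y) - (x + η₂ * y) := by
        rw [← mul_assoc, hu]; ring
      rw [this]; exact dvd_sub hq1 hq2
    have hqx : q ∣ (ζ - 1) * (u * x) := by
      have : (ζ - 1) * (u * x) = η₁ * (x + η₂ * y) - η₂ * (x + η₁ * y) := by
        rw [← mul_assoc, hu]; ring
      rw [this]; exact dvd_sub (hq2.mul_left _) (hq1.mul_left _)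
    have hqπ : ¬ q ∣ ζ - 1 := by
      intro h
      have hass : Associated q (ζ - 1) := hq.associated_of_dvd hπ h
      exact hna (hass.symm.dvd.trans hqa)
    have hqy' : q ∣ y := by
      rcases hq.dvd_or_dvd hqy with h | h
      · exact absurd h hqπ
      · rcases hq.dvd_or_dvd h with h | h
        · exact absurd (isUnit_of_dvd_unit h u.isUnit) hq.not_isUnit
        · exact h
    have hqx' : q ∣ x := by
      rcases hq.dvd_or_dvd hqx with h | h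
      · exact absurd h hqπ
      · rcases hq.dvd_or_dvd h with h | h
        · exact absurd (isUnit_of_dvd_unit h u.isUnit) hq.not_isUnit
        · exact h
    exact hq.not_isUnit (hxy.isUnit_of_dvd' hqx' hqy')

/-- `p`-th power extraction -/
lemma h62_exists_pow [DecidableEq R] [IsPrincipalIdealRing R] {μ : Finset R} {s : R → R}
    {ε : Rˣ} {z : R}
    (hcop : ∀ η₁ ∈ μ, ∀ η₂ ∈ μ, η₁ ≠ η₂ → IsCoprime (s η₁) (s η₂))
    (hprod : ∏ η ∈ μ, s η = ε * z ^ p) {η : R} (hη : η ∈ μ) :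
    ∃ (u : Rˣ) (d : R), s η = u * d ^ p := by
  have h1 : IsCoprime (s η) (∏ η' ∈ μ.erase η, s η') := by
    apply IsCoprime.prod_right
    intro η' hη'
    obtain ⟨hne, hmem⟩ := Finset.mem_erase.1 hη'
    exact hcop η hη η' hmem (Ne.symm hne)
  have h2 : Associated (z ^ p) (s η * ∏ η' ∈ μ.erase η, s η') := by
    rw [Finset.mul_prod_erase _ _ hη, hprod]
    exact ⟨ε, mul_comm _ _⟩
  obtain ⟨d, u, hu⟩ := exists_associated_pow_of_associated_pow_mul h1 h2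
  exact ⟨u, d, by rw [← hu, mul_comm]⟩

/-- the descent step, normalised so that `π ^ 2 ∣ x + y` -/
lemma h62_descent_aux [DecidableEq R] [IsPrincipalIdealRing R] (hp : p.Prime) (hp2 : p ≠ 2)
    (hζ : IsPrimitiveRoot ζ p) (hπ : Prime (ζ - 1))
    (h2 : ∀ x : R, ∃ n : ℤ, (p : R) ∣ x ^ p - n)
    (h3 : (p : R) ∣ (ζ - 1) ^ (p - 1))
    (hK : ∀ u : Rˣ, (∃ n : ℤ, (p : R) ∣ (u : R) - n) → ∃ v : Rˣ, u = v ^ p)
    {m : ℕ} (hm : 1 ≤ m) {x y z : R} {ε : Rˣ} (hy : ¬ ζ - 1 ∣ y) (hz : ¬ ζ - 1 ∣ z)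
    (hxy : IsCoprime x y) (H : x ^ p + y ^ p = ε * ((ζ - 1) ^ m * z) ^ p)
    (hsq : (ζ - 1) ^ 2 ∣ x + y) :
    2 ≤ m ∧ ∃ (x' y' z' : R) (ε' : Rˣ), ¬ ζ - 1 ∣ y' ∧ ¬ ζ - 1 ∣ z' ∧ IsCoprime x' y' ∧
      x' ^ p + y' ^ p = ε' * ((ζ - 1) ^ (m - 1) * z') ^ p := by
  obtain ⟨hm2, s, hsnd, hs, hs1, hprod⟩ := h62_descent_data hp hp2 hζ hπ hm hy hz H hsq
  refine ⟨hm2, ?_⟩
  have hμ1 := h62_one_mem (R := R) hp
  have hμζ := h62_zeta_mem hp hζ
  have hμζ' := h62_zeta_pow_mem hp hζ (p - 1)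
  have hp3 : 3 ≤ p := by
    have := hp.two_le; omega
  have hζ1 : ζ ≠ 1 := hζ.ne_one hp.one_lt
  have hζ'1 : ζ ^ (p - 1) ≠ 1 := hζ.pow_ne_one_of_pos_of_lt (by omega) (by omega)
  have hζζ' : ζ * ζ ^ (p - 1) = 1 := by
    rw [← pow_succ', Nat.sub_add_cancel hp.one_le]; exact hζ.pow_eq_one
  have hζneζ' : ζ ≠ ζ ^ (p - 1) := by
    intro h
    have h2 : ζ ^ 2 = 1 := by
      rw [pow_two]; nth_rewrite 2 [h]; exact hζζ'
    exact hζ.pow_ne_one_of_pos_of_lt (by norm_num) (by omega) h2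
  have hsdvd : ∀ η ∈ nthRootsFinset p (1 : R), s η ∣ x + η * y := by
    intro η hη
    by_cases h : η = 1
    · subst h; rw [one_mul, hs1]; exact dvd_mul_left _ _
    · rw [hs η (Finset.mem_erase.2 ⟨h, hη⟩)]; exact dvd_mul_left _ _
  have hcop : ∀ η₁ ∈ nthRootsFinset p (1 : R), ∀ η₂ ∈ nthRootsFinset p (1 : R), η₁ ≠ η₂ →
      IsCoprime (s η₁) (s η₂) :=
    fun η₁ h₁ η₂ h₂ hne =>
      h62_coprime hp hζ hπ hxy h₁ h₂ hne (hsdvd η₁ h₁) (hsdvd η₂ h₂) (hsnd η₁ h₁)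
  obtain ⟨u0, α0, h0⟩ := h62_exists_pow hcop hprod hμ1
  obtain ⟨u1, α1, h1⟩ := h62_exists_pow hcop hprod hμζ
  obtain ⟨u2, α2, h2'⟩ := h62_exists_pow hcop hprod hμζ'
  have hrel : s ζ + ζ * s (ζ ^ (p - 1)) = (1 + ζ) * (ζ - 1) ^ (p * (m - 1)) * s 1 := by
    apply mul_left_cancel₀ hπ.ne_zero
    have e1 := hs ζ (Finset.mem_erase.2 ⟨hζ1, hμζ⟩)
    have e2 := hs (ζ ^ (p - 1)) (Finset.mem_erase.2 ⟨hζ'1, hμζ'⟩)
    calc (ζ - 1) * (s ζ + ζ * s (ζ ^ (p - 1)))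
        = (x + ζ * y) + ζ * (x + ζ ^ (p - 1) * y) := by rw [e1, e2]; ring
      _ = (1 + ζ) * (x + y) + (ζ * ζ ^ (p - 1) - 1) * y := by ring
      _ = (1 + ζ) * (x + y) := by rw [hζζ']; ring
      _ = (ζ - 1) * ((1 + ζ) * (ζ - 1) ^ (p * (m - 1)) * s 1) := by rw [hs1, pow_succ]; ring
  -- units
  have hζu : IsUnit ζ := h62_isUnit_of_mem hp hμζ
  have h1ζu : IsUnit (1 + ζ) := by
    have hc : Nat.Coprime 2 p := (Nat.coprime_primes Nat.prime_two hp).2 (Ne.symm hp2)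
    have := hζ.geom_sum_isUnit hp.two_le hc
    simpa [Finset.sum_range_succ] using this
  obtain ⟨ζu, hζu'⟩ := hζu
  obtain ⟨ηu, hηu'⟩ := h1ζu
  set w : Rˣ := ζu * u2 * u1⁻¹ with hw
  set ε' : Rˣ := ηu * u0 * u1⁻¹ with hε'
  have hu1 : (u1 : R) * ((u1⁻¹ : Rˣ) : R) = 1 := by simp
  have hrel' : (u1 : R) * α1 ^ p + ζ * (u2 * α2 ^ p) =
      (1 + ζ) * (ζ - 1) ^ (p * (m - 1)) * (u0 * α0 ^ p) := by
    rw [← h0, ← h1, ← h2']; exact hrel
  have hmain : α1 ^ p + (w : R) * α2 ^ p = ε' * ((ζ - 1) ^ (m - 1) * α0) ^ p := by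
    rw [hw, hε']
    push_cast
    rw [hζu', hηu', mul_pow, ← pow_mul, mul_comm (m - 1) p]
    linear_combination ((u1⁻¹ : Rˣ) : R) * hrel' - (α1 ^ p) * hu1
  -- congruence
  have hpπ : (p : R) ∣ (ζ - 1) ^ (p * (m - 1)) := by
    refine h3.trans (pow_dvd_pow _ ?_)
    calc p - 1 ≤ p := Nat.sub_le _ _
      _ ≤ p * (m - 1) := Nat.le_mul_of_pos_right p (by omega)
  have hpdiv : (p : R) ∣ α1 ^ p + (w : R) * α2 ^ p := by
    rw [hmain, mul_pow, ← pow_mul, mul_comm (m - 1) p]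
    exact Dvd.dvd.mul_left (Dvd.dvd.mul_right hpπ _) _
  obtain ⟨n1, hn1⟩ := h2 α1
  obtain ⟨n2, hn2⟩ := h2 α2
  have hπp : ζ - 1 ∣ (p : R) := hζ.sub_one_dvd_natCast hp.one_lt
  have hα2 : ¬ ζ - 1 ∣ α2 := by
    intro h
    apply hsnd _ hμζ'
    rw [h2']
    exact Dvd.dvd.mul_left (dvd_pow h hp.ne_zero) _
  have hα0 : ¬ ζ - 1 ∣ α0 := by
    intro h
    apply hsnd _ hμ1
    rw [h0]
    exact Dvd.dvd.mul_left (dvd_pow h hp.ne_zero) _
  have hn2' : ¬ (p : ℤ) ∣ n2 := by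
    intro hdvd
    apply hα2
    apply hπ.dvd_of_dvd_pow (n := p)
    have e : α2 ^ p = (α2 ^ p - n2) + n2 := by ring
    rw [e]
    refine dvd_add (hπp.trans hn2) ?_
    obtain ⟨c, hc⟩ := hdvd
    rw [hc]; push_cast
    exact hπp.mul_right _
  have hcopZ : IsCoprime (p : ℤ) n2 :=
    (Prime.coprime_iff_not_dvd (Nat.prime_iff_prime_int.1 hp)).2 hn2'
  obtain ⟨a, b, hab⟩ := hcopZ
  have habR : (a : R) * (p : R) + (b : R) * (n2 : R) = 1 := by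
    have := congrArg (Int.cast : ℤ → R) hab
    push_cast at this
    exact this
  have hwcong : ∃ n : ℤ, (p : R) ∣ (w : R) - n := by
    obtain ⟨c0, hc0⟩ := hpdiv
    obtain ⟨c1, hc1⟩ := hn1
    obtain ⟨c2, hc2⟩ := hn2
    refine ⟨-(b * n1), b * c0 - b * c1 - b * w * c2 + w * a, ?_⟩
    push_cast
    linear_combination (b : R) * hc0 - (b : R) * hc1 - (b : R) * (w : R) * hc2 - (w : R) * habR
  obtain ⟨v, hv⟩ := hK w hwcong
  have hvR : (w : R) = (v : R) ^ p := by rw [hv]; push_cast; rfl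
  refine ⟨α1, v * α2, α0, ε', ?_, hα0, ?_, ?_⟩
  · intro h
    rcases hπ.dvd_or_dvd h with h | h
    · exact hπ.not_isUnit (isUnit_of_dvd_unit h v.isUnit)
    · exact hα2 h
  · have hc := hcop ζ hμζ (ζ ^ (p - 1)) hμζ' hζneζ'
    rw [h1, h2'] at hc
    have hc1 : IsCoprime (α1 ^ p) (α2 ^ p) :=
      (isCoprime_mul_unit_left_right u2.isUnit _ _).1
        ((isCoprime_mul_unit_left_left u1.isUnit _ _).1 hc)
    have hc2 : IsCoprime α1 α2 := (IsCoprime.pow_iff hp.pos hp.pos).1 hc1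
    exact (isCoprime_mul_unit_left_right v.isUnit _ _).2 hc2
  · rw [mul_pow, ← hvR]; exact hmain

/-- the descent step -/
lemma h62_descent [DecidableEq R] [IsPrincipalIdealRing R] (hp : p.Prime) (hp2 : p ≠ 2)
    (hζ : IsPrimitiveRoot ζ p) (hπ : Prime (ζ - 1))
    (h1 : ∀ x : R, ∃ n : ℤ, ζ - 1 ∣ x - n)
    (h2 : ∀ x : R, ∃ n : ℤ, (p : R) ∣ x ^ p - n)
    (h3 : (p : R) ∣ (ζ - 1) ^ (p - 1))
    (hK : ∀ u : Rˣ, (∃ n : ℤ, (p : R) ∣ (u : R) - n) → ∃ v : Rˣ, u = v ^ p)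
    {m : ℕ} (hm : 1 ≤ m) {x y z : R} {ε : Rˣ} (hy : ¬ ζ - 1 ∣ y) (hz : ¬ ζ - 1 ∣ z)
    (hxy : IsCoprime x y) (H : x ^ p + y ^ p = ε * ((ζ - 1) ^ m * z) ^ p) :
    2 ≤ m ∧ ∃ (x' y' z' : R) (ε' : Rˣ), ¬ ζ - 1 ∣ y' ∧ ¬ ζ - 1 ∣ z' ∧ IsCoprime x' y' ∧
      x' ^ p + y' ^ p = ε' * ((ζ - 1) ^ (m - 1) * z') ^ p := by
  have hodd : Odd p := hp.odd_of_ne_two hp2
  have hprod : ∏ η ∈ nthRootsFinset p (1 : R), (x + η * y) = ε * ((ζ - 1) ^ m * z) ^ p := by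
    rw [← H]; exact (hζ.pow_add_pow_eq_prod_add_mul x y hodd).symm
  have hmp : m * p ≠ 0 := Nat.mul_ne_zero (by omega) hp.ne_zero
  have hπprod : ζ - 1 ∣ ∏ η ∈ nthRootsFinset p (1 : R), (x + η * y) := by
    rw [hprod, mul_pow, ← pow_mul]
    exact Dvd.dvd.mul_left (Dvd.dvd.mul_right (dvd_pow_self _ hmp) _) _
  have hall := h62_dvd_all hp hζ hπ hπprod
  obtain ⟨η, hη, hηsq⟩ := h62_exists_sq_dvd hp hζ hπ h1 hy hall
  have hηu : IsUnit η := h62_isUnit_of_mem hp hη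
  have hηp : η ^ p = 1 := (mem_nthRootsFinset hp.pos 1).1 hη
  have hy' : ¬ ζ - 1 ∣ η * y := by
    intro h
    rcases hπ.dvd_or_dvd h with h | h
    · exact hπ.not_isUnit (isUnit_of_dvd_unit h hηu)
    · exact hy h
  have hxy' : IsCoprime x (η * y) := (isCoprime_mul_unit_left_right hηu _ _).2 hxy
  have H' : x ^ p + (η * y) ^ p = ε * ((ζ - 1) ^ m * z) ^ p := by
    rw [mul_pow, hηp, one_mul]; exact H
  exact h62_descent_aux hp hp2 hζ hπ h2 h3 hK hm hy' hz hxy' H' hηsq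

/-- no solutions of the generalised equation -/
theorem h62_no_solution [DecidableEq R] [IsPrincipalIdealRing R] (hp : p.Prime) (hp2 : p ≠ 2)
    (hζ : IsPrimitiveRoot ζ p) (hπ : Prime (ζ - 1))
    (h1 : ∀ x : R, ∃ n : ℤ, ζ - 1 ∣ x - n)
    (h2 : ∀ x : R, ∃ n : ℤ, (p : R) ∣ x ^ p - n)
    (h3 : (p : R) ∣ (ζ - 1) ^ (p - 1))
    (hK : ∀ u : Rˣ, (∃ n : ℤ, (p : R) ∣ (u : R) - n) → ∃ v : Rˣ, u = v ^ p) :
    ∀ m : ℕ, 1 ≤ m → ∀ (x y z : R) (ε : Rˣ), ¬ ζ - 1 ∣ y → ¬ ζ - 1 ∣ z → IsCoprime x y →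
      x ^ p + y ^ p ≠ ε * ((ζ - 1) ^ m * z) ^ p := by
  intro m
  induction m with
  | zero => intro h; omega
  | succ m ih =>
    intro _ x y z ε hy hz hxy H
    obtain ⟨hm2, x', y', z', ε', hy', hz', hxy', H'⟩ :=
      h62_descent hp hp2 hζ hπ h1 h2 h3 hK (Nat.succ_le_succ (Nat.zero_le m)) hy hz hxy H
    exact ih (by omega) x' y' z' ε' hy' hz' hxy' (by simpa using H')

end Abstract

end Fermat.Agent.S11.helper62
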