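import Mathlib
import Fermat.Agent.S11.helper62_Descent

set_option autoImplicit false

namespace Fermat.Agent.S11.helper62

open NumberField Polynomial Finset

section Concrete

variable {p : ℕ} [hp : Fact p.Prime] {K : Type*} [Field K] [NumberField K]
  [IsCyclotomicExtension {p} ℚ K] {ζ : K} (hζ : IsPrimitiveRoot ζ p)

include hζ in
lemma h62_adjoin_top : Algebra.adjoin ℤ {hζ.toInteger} = ⊤ := by
  rw [← hζ.integralPowerBasis_gen]; exact PowerBasis.adjoin_gen_eq_top _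

/-- every element of `𝓞 K` is congruent to an integer modulo `ζ - 1` -/
lemma h62_L1 (x : 𝓞 K) : ∃ n : ℤ, hζ.toInteger - 1 ∣ x - n := by
  have hx : x ∈ Algebra.adjoin ℤ {hζ.toInteger} := (h62_adjoin_top hζ) ▸ Algebra.mem_top
  induction hx using Algebra.adjoin_induction with
  | mem y hy =>
    rw [Set.mem_singleton_iff] at hy; subst hy; exact ⟨1, by simp⟩
  | algebraMap r => exact ⟨r, by simp⟩
  | add a b _ _ ha hb =>
    obtain ⟨n, hn⟩ := ha; obtain ⟨m, hm⟩ := hb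
    refine ⟨n + m, ?_⟩
    have e : a + b - ((n + m : ℤ) : 𝓞 K) = (a - n) + (b - m) := by push_cast; ring
    rw [e]; exact dvd_add hn hm
  | mul a b _ _ ha hb =>
    obtain ⟨n, hn⟩ := ha; obtain ⟨m, hm⟩ := hb
    refine ⟨n * m, ?_⟩
    have e : a * b - ((n * m : ℤ) : 𝓞 K) = (a - n) * b + n * (b - m) := by push_cast; ring
    rw [e]; exact dvd_add (hn.mul_right _) (hm.mul_left _)

include hζ in
/-- every `p`-th power in `𝓞 K` is congruent to an integer modulo `p` -/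
lemma h62_L2 (x : 𝓞 K) : ∃ n : ℤ, (p : 𝓞 K) ∣ x ^ p - n := by
  have hx : x ∈ Algebra.adjoin ℤ {hζ.toInteger} := (h62_adjoin_top hζ) ▸ Algebra.mem_top
  induction hx using Algebra.adjoin_induction with
  | mem y hy =>
    rw [Set.mem_singleton_iff] at hy; subst hy
    refine ⟨1, ?_⟩
    rw [hζ.toInteger_isPrimitiveRoot.pow_eq_one]; simp
  | algebraMap r => exact ⟨r ^ p, by simp⟩
  | add a b _ _ ha hb =>
    obtain ⟨n, s, hs⟩ := ha; obtain ⟨m, t, ht⟩ := hb
    obtain ⟨r, hr⟩ := exists_add_pow_prime_eq hp.out a b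
    refine ⟨n + m, s + t + a * b * r, ?_⟩
    push_cast
    linear_combination hr + hs + ht
  | mul a b _ _ ha hb =>
    obtain ⟨n, s, hs⟩ := ha; obtain ⟨m, t, ht⟩ := hb
    refine ⟨n * m, s * b ^ p + n * t, ?_⟩
    push_cast
    rw [mul_pow]
    linear_combination b ^ p * hs + (n : 𝓞 K) * ht

omit [NumberField K] [IsCyclotomicExtension {p} ℚ K] in
lemma h62_L3 : (p : 𝓞 K) ∣ (hζ.toInteger - 1) ^ (p - 1) :=
  (IsCyclotomicExtension.Rat.associated_zeta_sub_one_pow_prime p hζ).symm.dvd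

end Concrete

section Main

variable {p : ℕ} [hp : Fact p.Prime] (K : Type*) [Field K] [NumberField K]
  [IsCyclotomicExtension {p} ℚ K]

/-- Case II of Fermat's Last Theorem for exponent `p` when `p ∣ c`, assuming that `𝓞 K` is a PID
and Kummer's lemma holds, `K = ℚ(ζ_p)`. -/
theorem h62_caseII_dvd_c (hp2 : p ≠ 2) [IsPrincipalIdealRing (𝓞 K)]
    (hK : ∀ u : (𝓞 K)ˣ, (∃ n : ℤ, (p : 𝓞 K) ∣ (u : 𝓞 K) - n) → ∃ v : (𝓞 K)ˣ, u = v ^ p)
    (a b c : ℤ) (hc : c ≠ 0) (hab : IsCoprime a b) (hpc : (p : ℤ) ∣ c) :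
    a ^ p + b ^ p ≠ c ^ p := by
  classical
  intro H
  have hζ := IsCyclotomicExtension.zeta_spec p ℚ K
  have hπ : Prime (hζ.toInteger - 1) := hζ.zeta_sub_one_prime'
  have hcR : (c : 𝓞 K) ≠ 0 := Int.cast_ne_zero.2 hc
  obtain ⟨m, z, hz, hcz⟩ := WfDvdMonoid.max_power_factor hcR hπ.irreducible
  have hπc : hζ.toInteger - 1 ∣ (c : 𝓞 K) :=
    (IsCyclotomicExtension.Rat.zeta_sub_one_dvd_intCast_iff' p hζ).2 hpc
  have hm : 1 ≤ m := by
    by_contra h
    have h0 : m = 0 := by omega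
    subst h0
    rw [pow_zero, one_mul] at hcz
    exact hz (hcz ▸ hπc)
  have hpr : Prime (p : ℤ) := Nat.prime_iff_prime_int.1 hp.out
  have hpb : ¬ (p : ℤ) ∣ b := by
    intro hpb
    have hpa : (p : ℤ) ∣ a := by
      apply hpr.dvd_of_dvd_pow (n := p)
      have e : a ^ p = c ^ p - b ^ p := by rw [← H]; ring
      rw [e]
      exact dvd_sub (dvd_pow hpc hp.out.ne_zero) (dvd_pow hpb hp.out.ne_zero)
    exact hpr.not_isUnit (hab.isUnit_of_dvd' hpa hpb)
  have hy : ¬ hζ.toInteger - 1 ∣ (b : 𝓞 K) := fun h =>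
    hpb ((IsCyclotomicExtension.Rat.zeta_sub_one_dvd_intCast_iff' p hζ).1 h)
  have hxy : IsCoprime (a : 𝓞 K) (b : 𝓞 K) := hab.intCast
  have HR : (a : 𝓞 K) ^ p + (b : 𝓞 K) ^ p =
      ((1 : (𝓞 K)ˣ) : 𝓞 K) * ((hζ.toInteger - 1) ^ m * z) ^ p := by
    rw [Units.val_one, one_mul, ← hcz]; exact_mod_cast H
  exact h62_no_solution hp.out hp2 hζ.toInteger_isPrimitiveRoot hπ (h62_L1 hζ) (h62_L2 hζ)
    (h62_L3 hζ) hK m hm _ _ _ _ hy hz hxy HR

/-- **Case II** of Fermat's Last Theorem for an odd prime exponent `p`, assuming that the ring of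
integers of `K = ℚ(ζ_p)` is a PID and that Kummer's lemma holds for `K`. -/
theorem caseII (hp2 : p ≠ 2) [IsPrincipalIdealRing (𝓞 K)]
    (hK : ∀ u : (𝓞 K)ˣ, (∃ n : ℤ, (p : 𝓞 K) ∣ (u : 𝓞 K) - n) → ∃ v : (𝓞 K)ˣ, u = v ^ p)
    (a b c : ℤ) (habc : a * b * c ≠ 0) (hab : IsCoprime a b) (hdvd : (p : ℤ) ∣ a * b * c) :
    a ^ p + b ^ p ≠ c ^ p := by
  intro H
  have hpr : Prime (p : ℤ) := Nat.prime_iff_prime_int.1 hp.out
  have hodd : Odd p := hp.out.odd_of_ne_two hp2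
  have ha : a ≠ 0 := fun h => habc (by rw [h]; ring)
  have hb : b ≠ 0 := fun h => habc (by rw [h]; ring)
  have hc : c ≠ 0 := fun h => habc (by rw [h]; ring)
  have hp1 : p = (p - 1) + 1 := (Nat.sub_add_cancel hp.out.one_le).symm
  rcases hpr.dvd_or_dvd hdvd with h | h
  · rcases hpr.dvd_or_dvd h with h | h
    · -- `p ∣ a` : `c ^ p + (-b) ^ p = a ^ p`
      refine h62_caseII_dvd_c K hp2 hK c (-b) a ha ?_ h ?_
      · have h1 : IsCoprime (a ^ p) b := hab.pow_left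
        have h2 : IsCoprime (a ^ p + b * b ^ (p - 1)) b := h1.add_mul_left_left _
        have e : a ^ p + b * b ^ (p - 1) = c ^ p := by
          rw [← H, ← pow_succ', ← hp1]
        rw [e] at h2
        exact ((IsCoprime.pow_left_iff hp.out.pos).1 h2).neg_right
      · rw [hodd.neg_pow, ← H]; ring
    · -- `p ∣ b` : `c ^ p + (-a) ^ p = b ^ p`
      refine h62_caseII_dvd_c K hp2 hK c (-a) b hb ?_ h ?_
      · have h1 : IsCoprime (b ^ p) a := hab.symm.pow_left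
        have h2 : IsCoprime (b ^ p + a * a ^ (p - 1)) a := h1.add_mul_left_left _
        have e : b ^ p + a * a ^ (p - 1) = c ^ p := by
          rw [← H, ← pow_succ', ← hp1]; ring
        rw [e] at h2
        exact ((IsCoprime.pow_left_iff hp.out.pos).1 h2).neg_right
      · rw [hodd.neg_pow, ← H]; ring
  · exact h62_caseII_dvd_c K hp2 hK a b c hc hab h H

end Main

end Fermat.Agent.S11.helper62
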