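import Fermat.Agent.S11.helper73_UnitsGeneric

/-!
# Kummer route, piece (D-units) for `p = 11` (helper73)

Explicit units of `ℤ[ζ_11]` that are independent modulo units congruent to a rational
integer mod `11`.  Certificates are script-generated polynomial identities checked by `ring`.
-/

namespace Fermat.Agent.S11.helper73

open NumberField IsCyclotomicExtension.Rat

theorem cert_eleven_2 {R : Type*} [CommRing R] (x : R) :
    (x + 1) ^ 5 * (∑ i ∈ Finset.range 2, (x + 1) ^ i) ^ 1 * (∑ i ∈ Finset.range 3, (x + 1) ^ i) ^ 0 * (∑ i ∈ Finset.range 4, (x + 1) ^ i) ^ 0 * (∑ i ∈ Finset.range 5, (x + 1) ^ i) ^ 0 - (2 + 3 * x ^ 2) =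
      x ^ 3 * ((30) + (20) * x + (7) * x ^ 2 + (1) * x ^ 3) +
      11 * ((1) * x + (2) * x ^ 2) := by
  simp only [Finset.sum_range_succ, Finset.sum_range_zero]
  ring

theorem cert_eleven_4 {R : Type*} [CommRing R] (x : R) :
    (x + 1) ^ 4 * (∑ i ∈ Finset.range 2, (x + 1) ^ i) ^ 1 * (∑ i ∈ Finset.range 3, (x + 1) ^ i) ^ 1 * (∑ i ∈ Finset.range 4, (x + 1) ^ i) ^ 0 * (∑ i ∈ Finset.range 5, (x + 1) ^ i) ^ 0 - (6 + 10 * x ^ 4) =
      x ^ 5 * ((35) + (9) * x + (1) * x ^ 2) +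
      11 * ((3) * x + (7) * x ^ 2 + (9) * x ^ 3 + (6) * x ^ 4) := by
  simp only [Finset.sum_range_succ, Finset.sum_range_zero]
  ring

theorem cert_eleven_6 {R : Type*} [CommRing R] (x : R) :
    (x + 1) ^ 5 * (∑ i ∈ Finset.range 2, (x + 1) ^ i) ^ 7 * (∑ i ∈ Finset.range 3, (x + 1) ^ i) ^ 1 * (∑ i ∈ Finset.range 4, (x + 1) ^ i) ^ 1 * (∑ i ∈ Finset.range 5, (x + 1) ^ i) ^ 0 - (7 + 7 * x ^ 6) =
      x ^ 7 * ((1400576) + (1134390) * x + (736378) * x ^ 2 + (383107) * x ^ 3 + (158816) * x ^ 4 + (51806) * x ^ 5 + (13015) * x ^ 6 + (2431) * x ^ 7 + (318) * x ^ 8 + (26) * x ^ 9 + (1) * x ^ 10) +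
      11 * ((139) + (1536) * x + (7936) * x ^ 2 + (25600) * x ^ 3 + (57792) * x ^ 4 + (96960) * x ^ 5 + (125259) * x ^ 6) := by
  simp only [Finset.sum_range_succ, Finset.sum_range_zero]
  ring

theorem cert_eleven_8 {R : Type*} [CommRing R] (x : R) :
    (x + 1) ^ 1 * (∑ i ∈ Finset.range 2, (x + 1) ^ i) ^ 5 * (∑ i ∈ Finset.range 3, (x + 1) ^ i) ^ 3 * (∑ i ∈ Finset.range 4, (x + 1) ^ i) ^ 9 * (∑ i ∈ Finset.range 5, (x + 1) ^ i) ^ 1 - (2 + 4 * x ^ 8) =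
      x ^ 9 * ((2305165798735872) + (4419610328702976) * x + (7547603243409408) * x ^ 2 + (11563406861694976) * x ^ 3 + (15985424996270080) * x ^ 4 + (20033715896656384) * x ^ 5 + (22848215363665408) * x ^ 6 + (23786669523686656) * x ^ 7 + (22660712150194176) * x ^ 8 + (19792769762423040) * x ^ 9 + (15873041340856320) * x ^ 10 + (11699672682272256) * x ^ 11 + (7930706726341632) * x ^ 12 + (4945073649848256) * x ^ 13 + (2835905510736960) * x ^ 14 + (1495000685524192) * x ^ 15 + (723813924216832) * x ^ 16 + (321423505383392) * x ^ 17 + (130687193525184) * x ^ 18 + (48542639750280) * x ^ 19 + (16426416552000) * x ^ 20 + (5046765261202) * x ^ 21 + (1401957402334) * x ^ 22 + (350365597981) * x ^ 23 + (78290476616) * x ^ 24 + (15524915819) * x ^ 25 + (2706633614) * x ^ 26 + (410018952) * x ^ 27 + (53159592) * x ^ 28 + (5781714) * x ^ 29 + (513127) * x ^ 30 + (35692) * x ^ 31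 + (1825) * x ^ 32 + (61) * x ^ 33 + (1) * x ^ 34) +
      11 * ((102951098) + (2264924160) * x + (24631050240) * x ^ 2 + (176380968960) * x ^ 3 + (934767230976) * x ^ 4 + (3907088547840) * x ^ 5 + (13403248787456) * x ^ 6 + (38777602310144) * x ^ 7 + (96490319925620) * x ^ 8) := by
  simp only [Finset.sum_range_succ, Finset.sum_range_zero]
  ring

theorem dvd_eleven_2 {K : Type*} [Field K] {ζ : K} (hζ : IsPrimitiveRoot ζ 11) :
    (hζ.toInteger - 1) ^ (2 + 1) ∣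
      hζ.toInteger ^ 5 * (∑ i ∈ Finset.range 2, hζ.toInteger ^ i) ^ 1 * (∑ i ∈ Finset.range 3, hζ.toInteger ^ i) ^ 0 * (∑ i ∈ Finset.range 4, hζ.toInteger ^ i) ^ 0 * (∑ i ∈ Finset.range 5, hζ.toInteger ^ i) ^ 0 -
        (2 + 3 * (hζ.toInteger - 1) ^ 2) := by
  have : Fact (Nat.Prime 11) := ⟨by norm_num⟩
  have hp : (hζ.toInteger - 1) ^ (2 + 1) ∣ ((11 : ℕ) : 𝓞 K) := pi_pow_dvd_p hζ (by norm_num)
  have h := cert_eleven_2 (hζ.toInteger - 1)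
  simp only [sub_add_cancel] at h
  rw [h]
  refine dvd_add (dvd_mul_right _ _) (dvd_mul_of_dvd_left ?_ _)
  exact_mod_cast hp

theorem dvd_eleven_4 {K : Type*} [Field K] {ζ : K} (hζ : IsPrimitiveRoot ζ 11) :
    (hζ.toInteger - 1) ^ (4 + 1) ∣
      hζ.toInteger ^ 4 * (∑ i ∈ Finset.range 2, hζ.toInteger ^ i) ^ 1 * (∑ i ∈ Finset.range 3, hζ.toInteger ^ i) ^ 1 * (∑ i ∈ Finset.range 4, hζ.toInteger ^ i) ^ 0 * (∑ i ∈ Finset.range 5, hζ.toInteger ^ i) ^ 0 -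
        (6 + 10 * (hζ.toInteger - 1) ^ 4) := by
  have : Fact (Nat.Prime 11) := ⟨by norm_num⟩
  have hp : (hζ.toInteger - 1) ^ (4 + 1) ∣ ((11 : ℕ) : 𝓞 K) := pi_pow_dvd_p hζ (by norm_num)
  have h := cert_eleven_4 (hζ.toInteger - 1)
  simp only [sub_add_cancel] at h
  rw [h]
  refine dvd_add (dvd_mul_right _ _) (dvd_mul_of_dvd_left ?_ _)
  exact_mod_cast hp

theorem dvd_eleven_6 {K : Type*} [Field K] {ζ : K} (hζ : IsPrimitiveRoot ζ 11) :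
    (hζ.toInteger - 1) ^ (6 + 1) ∣
      hζ.toInteger ^ 5 * (∑ i ∈ Finset.range 2, hζ.toInteger ^ i) ^ 7 * (∑ i ∈ Finset.range 3, hζ.toInteger ^ i) ^ 1 * (∑ i ∈ Finset.range 4, hζ.toInteger ^ i) ^ 1 * (∑ i ∈ Finset.range 5, hζ.toInteger ^ i) ^ 0 -
        (7 + 7 * (hζ.toInteger - 1) ^ 6) := by
  have : Fact (Nat.Prime 11) := ⟨by norm_num⟩
  have hp : (hζ.toInteger - 1) ^ (6 + 1) ∣ ((11 : ℕ) : 𝓞 K) := pi_pow_dvd_p hζ (by norm_num)
  have h := cert_eleven_6 (hζ.toInteger - 1)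
  simp only [sub_add_cancel] at h
  rw [h]
  refine dvd_add (dvd_mul_right _ _) (dvd_mul_of_dvd_left ?_ _)
  exact_mod_cast hp

theorem dvd_eleven_8 {K : Type*} [Field K] {ζ : K} (hζ : IsPrimitiveRoot ζ 11) :
    (hζ.toInteger - 1) ^ (8 + 1) ∣
      hζ.toInteger ^ 1 * (∑ i ∈ Finset.range 2, hζ.toInteger ^ i) ^ 5 * (∑ i ∈ Finset.range 3, hζ.toInteger ^ i) ^ 3 * (∑ i ∈ Finset.range 4, hζ.toInteger ^ i) ^ 9 * (∑ i ∈ Finset.range 5, hζ.toInteger ^ i) ^ 1 -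
        (2 + 4 * (hζ.toInteger - 1) ^ 8) := by
  have : Fact (Nat.Prime 11) := ⟨by norm_num⟩
  have hp : (hζ.toInteger - 1) ^ (8 + 1) ∣ ((11 : ℕ) : 𝓞 K) := pi_pow_dvd_p hζ (by norm_num)
  have h := cert_eleven_8 (hζ.toInteger - 1)
  simp only [sub_add_cancel] at h
  rw [h]
  refine dvd_add (dvd_mul_right _ _) (dvd_mul_of_dvd_left ?_ _)
  exact_mod_cast hp

/-- Explicit independent units for `p = 11`. -/
theorem exists_indep_units_eleven (K : Type*) [Field K] [NumberField K]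
    [IsCyclotomicExtension {11} ℚ K] :
    ∃ v : Fin ((11 - 1) / 2) → (𝓞 K)ˣ, ∀ e : Fin ((11 - 1) / 2) → ℤ,
      (∃ n : ℤ, ((11 : ℕ) : 𝓞 K) ∣ ((∏ i, v i ^ e i : (𝓞 K)ˣ) : 𝓞 K) - n) →
        ∀ i, ((11 : ℕ) : ℤ) ∣ e i := by
  have : Fact (Nat.Prime 11) := ⟨by norm_num⟩
  have hζ := IsCyclotomicExtension.zeta_spec 11 ℚ K
  have hprim := hζ.toInteger_isPrimitiveRoot
  let zu : (𝓞 K)ˣ := (hprim.isUnit (by norm_num)).unit
  let g2 : (𝓞 K)ˣ := (hprim.geom_sum_isUnit (by norm_num) (by norm_num : Nat.Coprime 2 11)).unit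
  let g3 : (𝓞 K)ˣ := (hprim.geom_sum_isUnit (by norm_num) (by norm_num : Nat.Coprime 3 11)).unit
  let g4 : (𝓞 K)ˣ := (hprim.geom_sum_isUnit (by norm_num) (by norm_num : Nat.Coprime 4 11)).unit
  let g5 : (𝓞 K)ˣ := (hprim.geom_sum_isUnit (by norm_num) (by norm_num : Nat.Coprime 5 11)).unit
  have hzu : (zu : 𝓞 K) = hζ.toInteger := rfl
  have hg2 : (g2 : 𝓞 K) = ∑ i ∈ Finset.range 2, hζ.toInteger ^ i := rfl
  have hg3 : (g3 : 𝓞 K) = ∑ i ∈ Finset.range 3, hζ.toInteger ^ i := rfl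
  have hg4 : (g4 : 𝓞 K) = ∑ i ∈ Finset.range 4, hζ.toInteger ^ i := rfl
  have hg5 : (g5 : 𝓞 K) = ∑ i ∈ Finset.range 5, hζ.toInteger ^ i := rfl
  refine ⟨![zu ^ 1 * g2 ^ 0 * g3 ^ 0 * g4 ^ 0 * g5 ^ 0, zu ^ 5 * g2 ^ 1 * g3 ^ 0 * g4 ^ 0 * g5 ^ 0, zu ^ 4 * g2 ^ 1 * g3 ^ 1 * g4 ^ 0 * g5 ^ 0, zu ^ 5 * g2 ^ 7 * g3 ^ 1 * g4 ^ 1 * g5 ^ 0, zu ^ 1 * g2 ^ 5 * g3 ^ 3 * g4 ^ 9 * g5 ^ 1], ?_⟩
  intro e he
  refine hindep_of_triangular hζ _ ![1, 2, 6, 7, 2] ![1, 3, 10, 7, 4] ![1, 2, 4, 6, 8] ?_ ?_ ?_ ?_ ?_ e he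
  · intro i; fin_cases i <;> simp
  · intro i; fin_cases i <;> simp
  · intro i j hij; fin_cases i <;> fin_cases j <;> simp at hij ⊢
  · intro i; fin_cases i <;> norm_num
  · intro i
    fin_cases i
    · simp [hzu]
    · have h := dvd_eleven_2 hζ
      simpa [Units.val_mul, Units.val_pow_eq_pow_val, hzu, hg2, hg3, hg4, hg5] using h
    · have h := dvd_eleven_4 hζ
      simpa [Units.val_mul, Units.val_pow_eq_pow_val, hzu, hg2, hg3, hg4, hg5] using h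
    · have h := dvd_eleven_6 hζ
      simpa [Units.val_mul, Units.val_pow_eq_pow_val, hzu, hg2, hg3, hg4, hg5] using h
    · have h := dvd_eleven_8 hζ
      simpa [Units.val_mul, Units.val_pow_eq_pow_val, hzu, hg2, hg3, hg4, hg5] using h

end Fermat.Agent.S11.helper73
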