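import Fermat.Agent.S11.helper73_UnitsGeneric

/-!
# Kummer route, piece (D-units) for `p = 5` (helper73)

Explicit units of `ℤ[ζ_5]` that are independent modulo units congruent to a rational
integer mod `5`.  Certificates are script-generated polynomial identities checked by `ring`.
-/

namespace Fermat.Agent.S11.helper73

open NumberField IsCyclotomicExtension.Rat

theorem cert_five_2 {R : Type*} [CommRing R] (x : R) :
    (x + 1) ^ 2 * (∑ i ∈ Finset.range 2, (x + 1) ^ i) ^ 1 - (2 + 4 * x ^ 2) =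
      x ^ 3 * ((1)) +
      5 * ((1) * x) := by
  simp only [Finset.sum_range_succ, Finset.sum_range_zero]
  ring

theorem dvd_five_2 {K : Type*} [Field K] {ζ : K} (hζ : IsPrimitiveRoot ζ 5) :
    (hζ.toInteger - 1) ^ (2 + 1) ∣
      hζ.toInteger ^ 2 * (∑ i ∈ Finset.range 2, hζ.toInteger ^ i) ^ 1 -
        (2 + 4 * (hζ.toInteger - 1) ^ 2) := by
  have : Fact (Nat.Prime 5) := ⟨by norm_num⟩
  have hp : (hζ.toInteger - 1) ^ (2 + 1) ∣ ((5 : ℕ) : 𝓞 K) := pi_pow_dvd_p hζ (by norm_num)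
  have h := cert_five_2 (hζ.toInteger - 1)
  simp only [sub_add_cancel] at h
  rw [h]
  refine dvd_add (dvd_mul_right _ _) (dvd_mul_of_dvd_left ?_ _)
  exact_mod_cast hp

/-- Explicit independent units for `p = 5`. -/
theorem exists_indep_units_five (K : Type*) [Field K] [NumberField K]
    [IsCyclotomicExtension {5} ℚ K] :
    ∃ v : Fin ((5 - 1) / 2) → (𝓞 K)ˣ, ∀ e : Fin ((5 - 1) / 2) → ℤ,
      (∃ n : ℤ, ((5 : ℕ) : 𝓞 K) ∣ ((∏ i, v i ^ e i : (𝓞 K)ˣ) : 𝓞 K) - n) →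
        ∀ i, ((5 : ℕ) : ℤ) ∣ e i := by
  have : Fact (Nat.Prime 5) := ⟨by norm_num⟩
  have hζ := IsCyclotomicExtension.zeta_spec 5 ℚ K
  have hprim := hζ.toInteger_isPrimitiveRoot
  let zu : (𝓞 K)ˣ := (hprim.isUnit (by norm_num)).unit
  let g2 : (𝓞 K)ˣ := (hprim.geom_sum_isUnit (by norm_num) (by norm_num : Nat.Coprime 2 5)).unit
  have hzu : (zu : 𝓞 K) = hζ.toInteger := rfl
  have hg2 : (g2 : 𝓞 K) = ∑ i ∈ Finset.range 2, hζ.toInteger ^ i := rfl
  refine ⟨![zu ^ 1 * g2 ^ 0, zu ^ 2 * g2 ^ 1], ?_⟩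
  intro e he
  refine hindep_of_triangular hζ _ ![1, 2] ![1, 4] ![1, 2] ?_ ?_ ?_ ?_ ?_ e he
  · intro i; fin_cases i <;> simp
  · intro i; fin_cases i <;> simp
  · intro i j hij; fin_cases i <;> fin_cases j <;> simp at hij ⊢
  · intro i; fin_cases i <;> norm_num
  · intro i
    fin_cases i
    · simp [hzu]
    · have h := dvd_five_2 hζ
      simpa [Units.val_mul, Units.val_pow_eq_pow_val, hzu, hg2] using h

end Fermat.Agent.S11.helper73
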