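import Mathlib

/-!
# Kummer route, piece (D-units), generic part (helper73)

`K = ℚ(ζ_p)`, `π = ζ - 1`.  If units `v i` satisfy triangular `π`-adic congruences
`v i ≡ a i + b i * π ^ k i  (mod π ^ (k i + 1))` with `a i, b i` rational integers, `p ∤ b i`,
and pairwise distinct `1 ≤ k i ≤ p - 2`, then the `v i` are independent modulo
"units congruent to a rational integer mod `p`":
`∏ v i ^ e i ≡ n (mod p)` implies `p ∣ e i` for all `i`.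
-/

namespace Fermat.Agent.S11.helper73

open NumberField IsCyclotomicExtension.Rat

variable {p : ℕ} [hp : Fact p.Prime] {K : Type*} [Field K] [NumberField K]
  [hK : IsCyclotomicExtension {p} ℚ K] {ζ : K} (hζ : IsPrimitiveRoot ζ p)

omit [NumberField K] hK in
/-- `π ^ N ∣ p` for `N ≤ p - 1`. -/
theorem pi_pow_dvd_p {N : ℕ} (hN : N ≤ p - 1) : (hζ.toInteger - 1) ^ N ∣ (p : 𝓞 K) :=
  (pow_dvd_pow _ hN).trans (associated_zeta_sub_one_pow_prime p hζ).dvd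

include hζ in
/-- `p`-th powers are congruent to rational integers modulo `p`. -/
theorem exists_int_pow_prime_sub_dvd (w : 𝓞 K) : ∃ n : ℤ, (p : 𝓞 K) ∣ w ^ p - n := by
  have htop : Algebra.adjoin ℤ {hζ.toInteger} = ⊤ := by
    have := hζ.integralPowerBasis.adjoin_gen_eq_top
    rwa [hζ.integralPowerBasis_gen] at this
  have hw : w ∈ Algebra.adjoin ℤ {hζ.toInteger} := by rw [htop]; trivial
  induction hw using Algebra.adjoin_induction with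
  | mem x hx =>
    rw [Set.mem_singleton_iff] at hx
    subst hx
    refine ⟨1, ?_⟩
    rw [hζ.toInteger_isPrimitiveRoot.pow_eq_one]
    simp
  | algebraMap r =>
    refine ⟨r ^ p, ?_⟩
    simp
  | add x y _ _ hx hy =>
    obtain ⟨n, hn⟩ := hx
    obtain ⟨m, hm⟩ := hy
    obtain ⟨r, hr⟩ := exists_add_pow_prime_eq hp.out x y
    refine ⟨n + m, ?_⟩
    have : (x + y) ^ p - ((n + m : ℤ) : 𝓞 K) = (x ^ p - n) + (y ^ p - m) + p * (x * y * r) := by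
      rw [hr]; push_cast; ring
    rw [this]
    exact dvd_add (dvd_add hn hm) (dvd_mul_right _ _)
  | mul x y _ _ hx hy =>
    obtain ⟨n, hn⟩ := hx
    obtain ⟨m, hm⟩ := hy
    refine ⟨n * m, ?_⟩
    have : (x * y) ^ p - ((n * m : ℤ) : 𝓞 K) = (x ^ p - n) * y ^ p + n * (y ^ p - m) := by
      push_cast; ring
    rw [this]
    exact dvd_add (dvd_mul_of_dvd_left hn _) (dvd_mul_of_dvd_right hm _)

/-- The subgroup of units congruent to a rational integer modulo `π ^ N` (`1 ≤ N ≤ p - 1`). -/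
def constSubgroup {N : ℕ} (hN1 : 1 ≤ N) (hN : N ≤ p - 1) : Subgroup (𝓞 K)ˣ where
  carrier := {u | ∃ n : ℤ, (hζ.toInteger - 1) ^ N ∣ (u : 𝓞 K) - n}
  one_mem' := ⟨1, by simp⟩
  mul_mem' := by
    rintro u u' ⟨n, hn⟩ ⟨m, hm⟩
    refine ⟨n * m, ?_⟩
    have : ((u * u' : (𝓞 K)ˣ) : 𝓞 K) - ((n * m : ℤ) : 𝓞 K)
        = ((u : 𝓞 K) - n) * u' + n * ((u' : 𝓞 K) - m) := by
      push_cast; ring
    rw [this]
    exact dvd_add (dvd_mul_of_dvd_left hn _) (dvd_mul_of_dvd_right hm _)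
  inv_mem' := by
    rintro u ⟨n, hn⟩
    have hπ : Prime (hζ.toInteger - 1) := hζ.zeta_sub_one_prime'
    have hpn : ¬ (p : ℤ) ∣ n := by
      intro hdiv
      have h1 : (hζ.toInteger - 1) ∣ (n : 𝓞 K) := (zeta_sub_one_dvd_intCast_iff' p hζ).mpr hdiv
      have h2 : (hζ.toInteger - 1) ∣ (u : 𝓞 K) - n := (dvd_pow_self _ (by omega)).trans hn
      have h3 : (hζ.toInteger - 1) ∣ (u : 𝓞 K) := by
        have := dvd_add h2 h1
        simpa using this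
      exact hπ.not_isUnit (isUnit_of_dvd_unit h3 u.isUnit)
    have hcop : IsCoprime n (p : ℤ) :=
      ((Nat.prime_iff_prime_int.mp hp.out).coprime_iff_not_dvd.mpr hpn).symm
    obtain ⟨s, t, hst⟩ := hcop
    refine ⟨s, ?_⟩
    have hst' : (s : 𝓞 K) * n + t * p = 1 := by exact_mod_cast congrArg (Int.cast : ℤ → 𝓞 K) hst
    have : ((u⁻¹ : (𝓞 K)ˣ) : 𝓞 K) - (s : 𝓞 K)
        = ((u⁻¹ : (𝓞 K)ˣ) : 𝓞 K) * (t * p - s * ((u : 𝓞 K) - n)) := by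
      have hu : ((u⁻¹ : (𝓞 K)ˣ) : 𝓞 K) * (u : 𝓞 K) = 1 := by simp
      linear_combination (s : 𝓞 K) * hu - ((u⁻¹ : (𝓞 K)ˣ) : 𝓞 K) * hst'
    rw [this]
    refine dvd_mul_of_dvd_right (dvd_sub ?_ ?_) _
    · exact dvd_mul_of_dvd_right (pi_pow_dvd_p hζ hN) _
    · exact dvd_mul_of_dvd_right hn _

theorem mem_constSubgroup {N : ℕ} (hN1 : 1 ≤ N) (hN : N ≤ p - 1) {u : (𝓞 K)ˣ} :
    u ∈ constSubgroup hζ hN1 hN ↔ ∃ n : ℤ, (hζ.toInteger - 1) ^ N ∣ (u : 𝓞 K) - n :=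
  Iff.rfl

theorem pow_prime_mem_constSubgroup {N : ℕ} (hN1 : 1 ≤ N) (hN : N ≤ p - 1) (w : (𝓞 K)ˣ) :
    w ^ p ∈ constSubgroup hζ hN1 hN := by
  obtain ⟨n, hn⟩ := exists_int_pow_prime_sub_dvd hζ (w : 𝓞 K)
  exact ⟨n, (pi_pow_dvd_p hζ hN).trans (by simpa using hn)⟩

/-- Main generic lemma: triangular congruences imply independence modulo integers mod `p`. -/
theorem hindep_of_triangular {ι : Type*} [Fintype ι]
    (v : ι → (𝓞 K)ˣ) (a b : ι → ℤ) (k : ι → ℕ)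
    (hk1 : ∀ i, 1 ≤ k i) (hk2 : ∀ i, k i + 1 ≤ p - 1) (hkinj : Function.Injective k)
    (hb : ∀ i, ¬ (p : ℤ) ∣ b i)
    (hv : ∀ i, (hζ.toInteger - 1) ^ (k i + 1) ∣
      (v i : 𝓞 K) - ((a i : 𝓞 K) + (b i : 𝓞 K) * (hζ.toInteger - 1) ^ k i))
    (e : ι → ℤ)
    (he : ∃ n : ℤ, (p : 𝓞 K) ∣ ((∏ i, v i ^ e i : (𝓞 K)ˣ) : 𝓞 K) - n) :
    ∀ i, (p : ℤ) ∣ e i := by
  classical
  by_contra hcon
  push Not at hcon
  obtain ⟨i₁, hi₁⟩ := hcon
  set S : Finset ι := Finset.univ.filter (fun i => ¬ (p : ℤ) ∣ e i) with hS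
  have hSne : S.Nonempty := ⟨i₁, by simp [hS, hi₁]⟩
  obtain ⟨i₀, hi₀S, hmin⟩ := S.exists_min_image k hSne
  have hi₀ : ¬ (p : ℤ) ∣ e i₀ := by simpa [hS] using hi₀S
  set N := k i₀ + 1 with hNdef
  have hN1 : 1 ≤ N := by omega
  have hN : N ≤ p - 1 := hk2 i₀
  set C := constSubgroup hζ hN1 hN with hC
  set π := hζ.toInteger - 1 with hπdef
  have hπ : Prime π := hζ.zeta_sub_one_prime'
  -- the total product lies in `C`
  have htot : (∏ i, v i ^ e i) ∈ C := by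
    obtain ⟨n, hn⟩ := he
    exact ⟨n, (pi_pow_dvd_p hζ hN).trans hn⟩
  -- each factor other than `i₀` lies in `C`
  have hother : ∀ i, i ≠ i₀ → v i ^ e i ∈ C := by
    intro i hi
    by_cases hdiv : (p : ℤ) ∣ e i
    · obtain ⟨f, hf⟩ := hdiv
      have : v i ^ e i = (v i ^ f) ^ p := by
        rw [hf, mul_comm, zpow_mul, zpow_natCast]
      rw [this]
      exact pow_prime_mem_constSubgroup hζ hN1 hN _
    · have hiS : i ∈ S := by simp [hS, hdiv]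
      have hle : k i₀ ≤ k i := hmin i hiS
      have hne : k i ≠ k i₀ := fun h => hi (hkinj h)
      have hlt : N ≤ k i := by omega
      apply Subgroup.zpow_mem
      refine ⟨a i, ?_⟩
      have h1 : π ^ N ∣ (v i : 𝓞 K) - ((a i : 𝓞 K) + (b i : 𝓞 K) * π ^ k i) :=
        (pow_dvd_pow _ (by omega)).trans (hv i)
      have h2 : π ^ N ∣ (b i : 𝓞 K) * π ^ k i := dvd_mul_of_dvd_right (pow_dvd_pow _ hlt) _
      have := dvd_add h1 h2
      have heq : (v i : 𝓞 K) - ((a i : 𝓞 K) + (b i : 𝓞 K) * π ^ k i) + (b i : 𝓞 K) * π ^ k i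
          = (v i : 𝓞 K) - (a i : 𝓞 K) := by ring
      rwa [heq] at this
  -- hence `v i₀ ^ e i₀ ∈ C`
  have hi₀C : v i₀ ^ e i₀ ∈ C := by
    have hprod : (∏ i, v i ^ e i) = v i₀ ^ e i₀ * ∏ i ∈ Finset.univ.erase i₀, v i ^ e i :=
      (Finset.mul_prod_erase _ _ (Finset.mem_univ i₀)).symm
    have hrest : (∏ i ∈ Finset.univ.erase i₀, v i ^ e i) ∈ C :=
      Subgroup.prod_mem _ (fun i hi => hother i (Finset.ne_of_mem_erase hi))
    have : v i₀ ^ e i₀ = (∏ i, v i ^ e i) * (∏ i ∈ Finset.univ.erase i₀, v i ^ e i)⁻¹ := by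
      rw [hprod]; group
    rw [this]
    exact Subgroup.mul_mem _ htot (Subgroup.inv_mem _ hrest)
  -- Bezout: `v i₀ ∈ C`
  have hcop : IsCoprime (e i₀) (p : ℤ) :=
    ((Nat.prime_iff_prime_int.mp hp.out).coprime_iff_not_dvd.mpr hi₀).symm
  obtain ⟨s, t, hst⟩ := hcop
  have hv₀C : v i₀ ∈ C := by
    have : v i₀ = (v i₀ ^ e i₀) ^ s * ((v i₀ ^ t) ^ p) := by
      rw [← zpow_natCast (v i₀ ^ t) p, ← zpow_mul, ← zpow_mul, ← zpow_add, mul_comm (e i₀) s, hst,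
        zpow_one]
    rw [this]
    exact Subgroup.mul_mem _ (Subgroup.zpow_mem _ hi₀C s)
      (pow_prime_mem_constSubgroup hζ hN1 hN _)
  -- contradiction
  obtain ⟨n₀, hn₀⟩ := hv₀C
  have h1 : π ^ N ∣ ((a i₀ - n₀ : ℤ) : 𝓞 K) + (b i₀ : 𝓞 K) * π ^ k i₀ := by
    have := dvd_sub hn₀ (hv i₀)
    have heq : (v i₀ : 𝓞 K) - (n₀ : 𝓞 K) -
        ((v i₀ : 𝓞 K) - ((a i₀ : 𝓞 K) + (b i₀ : 𝓞 K) * π ^ k i₀))
        = ((a i₀ - n₀ : ℤ) : 𝓞 K) + (b i₀ : 𝓞 K) * π ^ k i₀ := by push_cast; ring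
    rwa [heq] at this
  have h2 : π ∣ ((a i₀ - n₀ : ℤ) : 𝓞 K) := by
    have h3 : π ∣ ((a i₀ - n₀ : ℤ) : 𝓞 K) + (b i₀ : 𝓞 K) * π ^ k i₀ :=
      (dvd_pow_self _ (by omega)).trans h1
    have h4 : π ∣ (b i₀ : 𝓞 K) * π ^ k i₀ :=
      dvd_mul_of_dvd_right (dvd_pow_self _ (by have := hk1 i₀; omega)) _
    have := dvd_sub h3 h4
    simpa using this
  have h5 : (p : ℤ) ∣ a i₀ - n₀ := (zeta_sub_one_dvd_intCast_iff' p hζ).mp h2
  have h6 : π ^ N ∣ ((a i₀ - n₀ : ℤ) : 𝓞 K) := by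
    obtain ⟨c, hc⟩ := h5
    rw [hc]
    push_cast
    exact dvd_mul_of_dvd_left (pi_pow_dvd_p hζ hN) _
  have h7 : π ^ N ∣ (b i₀ : 𝓞 K) * π ^ k i₀ := by
    have := dvd_sub h1 h6
    simpa using this
  have h8 : π ∣ (b i₀ : 𝓞 K) := by
    rw [hNdef, pow_succ, mul_comm (b i₀ : 𝓞 K)] at h7
    exact (mul_dvd_mul_iff_left (pow_ne_zero _ hπ.ne_zero)).mp h7
  exact hb i₀ ((zeta_sub_one_dvd_intCast_iff' p hζ).mp h8)

end Fermat.Agent.S11.helper73
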