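import Fermat.Agent.S11.helper73_UnitsGeneric

/-!
# Kummer route, piece (D-units) for `p = 7` (helper73)

Explicit units of `ℤ[ζ_7]` that are independent modulo units congruent to a rational
integer mod `7`.  Certificates are script-generated polynomial identities checked by `ring`.
-/

namespace Fermat.Agent.S11.helper73

open NumberField IsCyclotomicExtension.Rat

theorem cert_seven_2 {R : Type*} [CommRing R] (x : R) :
    (x + 1) ^ 3 * (∑ i ∈ Finset.range 2, (x + 1) ^ i) ^ 1 * (∑ i ∈ Finset.range 3, (x + 1) ^ i) ^ 0 - (2 + 2 * x ^ 2) =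
      x ^ 3 * ((5) + (1) * x) +
      7 * ((1) * x + (1) * x ^ 2) := by
  simp only [Finset.sum_range_succ, Finset.sum_range_zero]
  ring

theorem cert_seven_4 {R : Type*} [CommRing R] (x : R) :
    (x + 1) ^ 5 * (∑ i ∈ Finset.range 2, (x + 1) ^ i) ^ 2 * (∑ i ∈ Finset.range 3, (x + 1) ^ i) ^ 1 - (5 + 1 * x ^ 4) =
      x ^ 5 * ((397) + (199) * x + (64) * x ^ 2 + (12) * x ^ 3 + (1) * x ^ 4) +
      7 * ((1) + (12) * x + (37) * x ^ 2 + (66) * x ^ 3 + (75) * x ^ 4) := by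
  simp only [Finset.sum_range_succ, Finset.sum_range_zero]
  ring

theorem dvd_seven_2 {K : Type*} [Field K] {ζ : K} (hζ : IsPrimitiveRoot ζ 7) :
    (hζ.toInteger - 1) ^ (2 + 1) ∣
      hζ.toInteger ^ 3 * (∑ i ∈ Finset.range 2, hζ.toInteger ^ i) ^ 1 * (∑ i ∈ Finset.range 3, hζ.toInteger ^ i) ^ 0 -
        (2 + 2 * (hζ.toInteger - 1) ^ 2) := by
  have : Fact (Nat.Prime 7) := ⟨by norm_num⟩
  have hp : (hζ.toInteger - 1) ^ (2 + 1) ∣ ((7 : ℕ) : 𝓞 K) := pi_pow_dvd_p hζ (by norm_num)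
  have h := cert_seven_2 (hζ.toInteger - 1)
  simp only [sub_add_cancel] at h
  rw [h]
  refine dvd_add (dvd_mul_right _ _) (dvd_mul_of_dvd_left ?_ _)
  exact_mod_cast hp

theorem dvd_seven_4 {K : Type*} [Field K] {ζ : K} (hζ : IsPrimitiveRoot ζ 7) :
    (hζ.toInteger - 1) ^ (4 + 1) ∣
      hζ.toInteger ^ 5 * (∑ i ∈ Finset.range 2, hζ.toInteger ^ i) ^ 2 * (∑ i ∈ Finset.range 3, hζ.toInteger ^ i) ^ 1 -
        (5 + 1 * (hζ.toInteger - 1) ^ 4) := by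
  have : Fact (Nat.Prime 7) := ⟨by norm_num⟩
  have hp : (hζ.toInteger - 1) ^ (4 + 1) ∣ ((7 : ℕ) : 𝓞 K) := pi_pow_dvd_p hζ (by norm_num)
  have h := cert_seven_4 (hζ.toInteger - 1)
  simp only [sub_add_cancel] at h
  rw [h]
  refine dvd_add (dvd_mul_right _ _) (dvd_mul_of_dvd_left ?_ _)
  exact_mod_cast hp

/-- Explicit independent units for `p = 7`. -/
theorem exists_indep_units_seven (K : Type*) [Field K] [NumberField K]
    [IsCyclotomicExtension {7} ℚ K] :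
    ∃ v : Fin ((7 - 1) / 2) → (𝓞 K)ˣ, ∀ e : Fin ((7 - 1) / 2) → ℤ,
      (∃ n : ℤ, ((7 : ℕ) : 𝓞 K) ∣ ((∏ i, v i ^ e i : (𝓞 K)ˣ) : 𝓞 K) - n) →
        ∀ i, ((7 : ℕ) : ℤ) ∣ e i := by
  have : Fact (Nat.Prime 7) := ⟨by norm_num⟩
  have hζ := IsCyclotomicExtension.zeta_spec 7 ℚ K
  have hprim := hζ.toInteger_isPrimitiveRoot
  let zu : (𝓞 K)ˣ := (hprim.isUnit (by norm_num)).unit
  let g2 : (𝓞 K)ˣ := (hprim.geom_sum_isUnit (by norm_num) (by norm_num : Nat.Coprime 2 7)).unit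
  let g3 : (𝓞 K)ˣ := (hprim.geom_sum_isUnit (by norm_num) (by norm_num : Nat.Coprime 3 7)).unit
  have hzu : (zu : 𝓞 K) = hζ.toInteger := rfl
  have hg2 : (g2 : 𝓞 K) = ∑ i ∈ Finset.range 2, hζ.toInteger ^ i := rfl
  have hg3 : (g3 : 𝓞 K) = ∑ i ∈ Finset.range 3, hζ.toInteger ^ i := rfl
  refine ⟨![zu ^ 1 * g2 ^ 0 * g3 ^ 0, zu ^ 3 * g2 ^ 1 * g3 ^ 0, zu ^ 5 * g2 ^ 2 * g3 ^ 1], ?_⟩
  intro e he
  refine hindep_of_triangular hζ _ ![1, 2, 5] ![1, 2, 1] ![1, 2, 4] ?_ ?_ ?_ ?_ ?_ e he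
  · intro i; fin_cases i <;> simp
  · intro i; fin_cases i <;> simp
  · intro i j hij; fin_cases i <;> fin_cases j <;> simp at hij ⊢
  · intro i; fin_cases i <;> norm_num
  · intro i
    fin_cases i
    · simp [hzu]
    · have h := dvd_seven_2 hζ
      simpa [Units.val_mul, Units.val_pow_eq_pow_val, hzu, hg2, hg3] using h
    · have h := dvd_seven_4 hζ
      simpa [Units.val_mul, Units.val_pow_eq_pow_val, hzu, hg2, hg3] using h

end Fermat.Agent.S11.helper73
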