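import Fermat.Agent.S11.helper73_UnitsGeneric

/-!
# Kummer route, piece (D-units) for `p = 13` (helper73)

Explicit units of `ℤ[ζ_13]` that are independent modulo units congruent to a rational
integer mod `13`.  Certificates are script-generated polynomial identities checked by `ring`.
-/

namespace Fermat.Agent.S11.helper73

open NumberField IsCyclotomicExtension.Rat

theorem cert_thirteen_2 {R : Type*} [CommRing R] (x : R) :
    (x + 1) ^ 6 * (∑ i ∈ Finset.range 2, (x + 1) ^ i) ^ 1 * (∑ i ∈ Finset.range 3, (x + 1) ^ i) ^ 0 * (∑ i ∈ Finset.range 4, (x + 1) ^ i) ^ 0 * (∑ i ∈ Finset.range 5, (x + 1) ^ i) ^ 0 * (∑ i ∈ Finset.range 6, (x + 1) ^ i) ^ 0 - (2 + 10 * x ^ 2) =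
      x ^ 3 * ((55) + (50) * x + (27) * x ^ 2 + (8) * x ^ 3 + (1) * x ^ 4) +
      13 * ((1) * x + (2) * x ^ 2) := by
  simp only [Finset.sum_range_succ, Finset.sum_range_zero]
  ring

theorem cert_thirteen_4 {R : Type*} [CommRing R] (x : R) :
    (x + 1) ^ 9 * (∑ i ∈ Finset.range 2, (x + 1) ^ i) ^ 6 * (∑ i ∈ Finset.range 3, (x + 1) ^ i) ^ 1 * (∑ i ∈ Finset.range 4, (x + 1) ^ i) ^ 0 * (∑ i ∈ Finset.range 5, (x + 1) ^ i) ^ 0 * (∑ i ∈ Finset.range 6, (x + 1) ^ i) ^ 0 - (10 + 6 * x ^ 4) =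
      x ^ 5 * ((293788) + (437067) * x + (508218) * x ^ 2 + (467692) * x ^ 3 + (342633) * x ^ 4 + (199866) * x ^ 5 + (92320) * x ^ 6 + (33360) * x ^ 7 + (9234) * x ^ 8 + (1891) * x ^ 9 + (270) * x ^ 10 + (24) * x ^ 11 + (1) * x ^ 12) +
      13 * ((14) + (192) * x + (1168) * x ^ 2 + (4416) * x ^ 3 + (11622) * x ^ 4) := by
  simp only [Finset.sum_range_succ, Finset.sum_range_zero]
  ring

theorem cert_thirteen_6 {R : Type*} [CommRing R] (x : R) :
    (x + 1) ^ 6 * (∑ i ∈ Finset.range 2, (x + 1) ^ i) ^ 7 * (∑ i ∈ Finset.range 3, (x + 1) ^ i) ^ 2 * (∑ i ∈ Finset.range 4, (x + 1) ^ i) ^ 1 * (∑ i ∈ Finset.range 5, (x + 1) ^ i) ^ 0 * (∑ i ∈ Finset.range 6, (x + 1) ^ i) ^ 0 - (6 + 6 * x ^ 6) =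
      x ^ 7 * ((17370816) + (18384610) * x + (15995634) * x ^ 2 + (11505725) * x ^ 3 + (6854992) * x ^ 4 + (3377120) * x ^ 5 + (1368252) * x ^ 6 + (451423) * x ^ 7 + (119406) * x ^ 8 + (24725) * x ^ 9 + (3862) * x ^ 10 + (428) * x ^ 11 + (30) * x ^ 12 + (1) * x ^ 13) +
      13 * ((354) + (4608) * x + (28416) * x ^ 2 + (110592) * x ^ 3 + (304832) * x ^ 4 + (632896) * x ^ 5 + (1027490) * x ^ 6) := by
  simp only [Finset.sum_range_succ, Finset.sum_range_zero]
  ring

theorem cert_thirteen_8 {R : Type*} [CommRing R] (x : R) :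
    (x + 1) ^ 1 * (∑ i ∈ Finset.range 2, (x + 1) ^ i) ^ 12 * (∑ i ∈ Finset.range 3, (x + 1) ^ i) ^ 11 * (∑ i ∈ Finset.range 4, (x + 1) ^ i) ^ 4 * (∑ i ∈ Finset.range 5, (x + 1) ^ i) ^ 1 * (∑ i ∈ Finset.range 6, (x + 1) ^ i) ^ 0 - (2 + 2 * x ^ 8) =
      x ^ 9 * ((8347404726401089536) + (18942510782495195136) * x + (38373620645677473792) * x ^ 2 + (69925855887587718144) * x ^ 3 + (115335574760501121024) * x ^ 4 + (173084311462192584192) * x ^ 5 + (237355452653467470336) * x ^ 6 + (298513141041364994160) * x ^ 7 + (345361898720212224480) * x ^ 8 + (368504843867794268208) * x ^ 9 + (363410755269208792128) * x ^ 10 + (331822757823482615448) * x ^ 11 + (280927591492257057792) * x ^ 12 + (220780338126232840280) * x ^ 13 + (161207287928040836520) * x ^ 14 + (109430469851373488023) * x ^ 15 + (69085735567961362842) * x ^ 16 + (40569724047061739891) * x ^ 17 + (22158881832581570906) * x ^ 18 + (11253713595792826974) * x ^ 19 + (5311484770042955534) * x ^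 20 + (2327951798220100034) * x ^ 21 + (946512257187276813) * x ^ 22 + (356542519937305681) * x ^ 23 + (124233728089432351) * x ^ 24 + (39964904468750620) * x ^ 25 + (11842319522347877) * x ^ 26 + (3223574406440014) * x ^ 27 + (803512104244744) * x ^ 28 + (182708912358908) * x ^ 29 + (37730749767577) * x ^ 30 + (7038572370199) * x ^ 31 + (1178553968353) * x ^ 32 + (175760802492) * x ^ 33 + (23123928551) * x ^ 34 + (2652078380) * x ^ 35 + (261131712) * x ^ 36 + (21633146) * x ^ 37 + (1466615) * x ^ 38 + (78144) * x ^ 39 + (3069) * x ^ 40 + (79) * x ^ 41 + (1) * x ^ 42) +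
      13 * ((71443112566) + (1857520926720) * x + (23838185226240) * x ^ 2 + (201231433728000) * x ^ 3 + (1256391036370944) * x ^ 4 + (6185173181792256) * x ^ 5 + (24995428503257088) * x ^ 6 + (85237747432685568) * x ^ 7 + (250241042525422198) * x ^ 8) := by
  simp only [Finset.sum_range_succ, Finset.sum_range_zero]
  ring

theorem cert_thirteen_10 {R : Type*} [CommRing R] (x : R) :
    (x + 1) ^ 2 * (∑ i ∈ Finset.range 2, (x + 1) ^ i) ^ 3 * (∑ i ∈ Finset.range 3, (x + 1) ^ i) ^ 10 * (∑ i ∈ Finset.range 4, (x + 1) ^ i) ^ 12 * (∑ i ∈ Finset.range 5, (x + 1) ^ i) ^ 9 * (∑ i ∈ Finset.range 6, (x + 1) ^ i) ^ 1 - (5 + 10 * x ^ 10) =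
      x ^ 11 * ((14150216917687683757178880000000) + (58501857226182800250949632000000) * x + (222031619533622363847155712000000) * x ^ 2 + (778012073774733816040863744000000) * x ^ 3 + (2529390074582291520922675200000000) * x ^ 4 + (7662097831814764652519875929600000) * x ^ 5 + (21706580230971734023673477990400000) * x ^ 6 + (57698105063985882844782916723200000) * x ^ 7 + (144314298479589874779651349363200000) * x ^ 8 + (340524000320417796772261234801920000) * x ^ 9 + (759750956292877338508135505418240000) * x ^ 10 + (1606100163989489271558315856766720000) * x ^ 11 + (3222967988374078111047024654400000000) * x ^ 12 + (6149617269276215830431013379435936000) * x ^ 13 + (11173970227696699854553059370400000000) * x ^ 14 + (19361211109430881142889128613574624000) * x ^ 15 + (32030790402633965902271085667100576000) * x ^ 16 + (50653488100611325246752420408272108800) * x ^ 17 + (76649759290515439980712915059437446400) * x ^ 18 + (111092827715991491573534871692373932800)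 * x ^ 19 + (154352460352934881240572551802181433600) * x ^ 20 + (205749841371528772961656338493579876240) * x ^ 21 + (263317842632866756883771014805201963840) * x ^ 22 + (323761330168805715468739615952117080880) * x ^ 23 + (382681442682110288023732118682691342000) * x ^ 24 + (435068832920866682530771278239667617672) * x ^ 25 + (475998150906445048029531514914618274528) * x ^ 26 + (501392052392570709898947882593282071064) * x ^ 27 + (508690355660089484207147647057586675344) * x ^ 28 + (497272393519662284330784328533171158423) * x ^ 29 + (468536868276336279271364625401089871584) * x ^ 30 + (425627099994923912886912368571252334829) * x ^ 31 + (372874611858985579312666802877974578595) * x ^ 32 + (315094954312585888675079861508619918042) * x ^ 33 + (256890396744334551685562302740940281833) * x ^ 34 + (202092819366898439027257403844264997048) * x ^ 35 + (153428416321890723455330198872301270555) * x ^ 36 + (112422897659014783630546219179707231125) * x ^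 37 + (79510967765534585060140463441457894761) * x ^ 38 + (54279910696960538929236754360747088869) * x ^ 39 + (35768026946675632149898040628203019116) * x ^ 40 + (22750244910475765343555802321893470673) * x ^ 41 + (13966622129499576589104353055861904114) * x ^ 42 + (8275178576835601537650410557440605147) * x ^ 43 + (4731489834777344129269582559773662505) * x ^ 44 + (2610322063623617835300846740621566811) * x ^ 45 + (1389293642896054487916863778130329859) * x ^ 46 + (713202156659834971687475944519935055) * x ^ 47 + (353062158109023678384513179946812216) * x ^ 48 + (168498831038162745478336972567147429) * x ^ 49 + (77503727161330255436019171919325002) * x ^ 50 + (34346775770483316574199414694425627) * x ^ 51 + (14659833848858568034080836852535421) * x ^ 52 + (6023894147293334818472453374892069) * x ^ 53 + (2381984971032198396975668551179319) * x ^ 54 + (905949488235786074894569024018721) * x ^ 55 + (331239934638222509234447489131398) * x ^ 56 + (116360320672368685895151893723001)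 * x ^ 57 + (39248069545421740460619085208868) * x ^ 58 + (12702429220964970918146724084615) * x ^ 59 + (3941746550106480509979937711791) * x ^ 60 + (1171857197724430766922935071584) * x ^ 61 + (333476586032016492332055616269) * x ^ 62 + (90750373418971193337498484518) * x ^ 63 + (23592595221642429296853100059) * x ^ 64 + (5852743134407753915538251829) * x ^ 65 + (1383783481533851148286932255) * x ^ 66 + (311402163879854005717709073) * x ^ 67 + (66601733030794085886776922) * x ^ 68 + (13516509874999196028015642) * x ^ 69 + (2598332400604214135674962) * x ^ 70 + (472208593016946164888130) * x ^ 71 + (80956334036120398720956) * x ^ 72 + (13062059347415829514602) * x ^ 73 + (1978169201984652699016) * x ^ 74 + (280358765276258194946) * x ^ 75 + (37060181622000270010) * x ^ 76 + (4551889846385215477) * x ^ 77 + (517224278182363358) * x ^ 78 + (54099474319473823) * x ^ 79 + (5178465651199703) * x ^ 80 + (450526004103040) * x ^ 81 + (35333560198349) * x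 ^ 82 + (2473318584218) * x ^ 83 + (152631080629) * x ^ 84 + (8174777228) * x ^ 85 + (372273671) * x ^ 86 + (14015386) * x ^ 87 + (418805) * x ^ 88 + (9313) * x ^ 89 + (137) * x ^ 90 + (1) * x ^ 91) +
      13 * ((7144311256615384615) + (371504185344000000000) * x + (9628150136832000000000) * x ^ 2 + (165783742709760000000000) * x ^ 3 + (2133142461716889600000000) * x ^ 4 + (21873211873689600000000000) * x ^ 5 + (186147310949852774400000000) * x ^ 6 + (1352058673768995225600000000) * x ^ 7 + (8554464962822582599680000000) * x ^ 8 + (47884802322384004055040000000) * x ^ 9 + (240057353747837362629710769230) * x ^ 10) := by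
  simp only [Finset.sum_range_succ, Finset.sum_range_zero]
  ring

theorem dvd_thirteen_2 {K : Type*} [Field K] {ζ : K} (hζ : IsPrimitiveRoot ζ 13) :
    (hζ.toInteger - 1) ^ (2 + 1) ∣
      hζ.toInteger ^ 6 * (∑ i ∈ Finset.range 2, hζ.toInteger ^ i) ^ 1 * (∑ i ∈ Finset.range 3, hζ.toInteger ^ i) ^ 0 * (∑ i ∈ Finset.range 4, hζ.toInteger ^ i) ^ 0 * (∑ i ∈ Finset.range 5, hζ.toInteger ^ i) ^ 0 * (∑ i ∈ Finset.range 6, hζ.toInteger ^ i) ^ 0 -
        (2 + 10 * (hζ.toInteger - 1) ^ 2) := by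
  have : Fact (Nat.Prime 13) := ⟨by norm_num⟩
  have hp : (hζ.toInteger - 1) ^ (2 + 1) ∣ ((13 : ℕ) : 𝓞 K) := pi_pow_dvd_p hζ (by norm_num)
  have h := cert_thirteen_2 (hζ.toInteger - 1)
  simp only [sub_add_cancel] at h
  rw [h]
  refine dvd_add (dvd_mul_right _ _) (dvd_mul_of_dvd_left ?_ _)
  exact_mod_cast hp

theorem dvd_thirteen_4 {K : Type*} [Field K] {ζ : K} (hζ : IsPrimitiveRoot ζ 13) :
    (hζ.toInteger - 1) ^ (4 + 1) ∣
      hζ.toInteger ^ 9 * (∑ i ∈ Finset.range 2, hζ.toInteger ^ i) ^ 6 * (∑ i ∈ Finset.range 3, hζ.toInteger ^ i) ^ 1 * (∑ i ∈ Finset.range 4, hζ.toInteger ^ i) ^ 0 * (∑ i ∈ Finset.range 5, hζ.toInteger ^ i) ^ 0 * (∑ i ∈ Finset.range 6, hζ.toInteger ^ i) ^ 0 -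
        (10 + 6 * (hζ.toInteger - 1) ^ 4) := by
  have : Fact (Nat.Prime 13) := ⟨by norm_num⟩
  have hp : (hζ.toInteger - 1) ^ (4 + 1) ∣ ((13 : ℕ) : 𝓞 K) := pi_pow_dvd_p hζ (by norm_num)
  have h := cert_thirteen_4 (hζ.toInteger - 1)
  simp only [sub_add_cancel] at h
  rw [h]
  refine dvd_add (dvd_mul_right _ _) (dvd_mul_of_dvd_left ?_ _)
  exact_mod_cast hp

theorem dvd_thirteen_6 {K : Type*} [Field K] {ζ : K} (hζ : IsPrimitiveRoot ζ 13) :
    (hζ.toInteger - 1) ^ (6 + 1) ∣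
      hζ.toInteger ^ 6 * (∑ i ∈ Finset.range 2, hζ.toInteger ^ i) ^ 7 * (∑ i ∈ Finset.range 3, hζ.toInteger ^ i) ^ 2 * (∑ i ∈ Finset.range 4, hζ.toInteger ^ i) ^ 1 * (∑ i ∈ Finset.range 5, hζ.toInteger ^ i) ^ 0 * (∑ i ∈ Finset.range 6, hζ.toInteger ^ i) ^ 0 -
        (6 + 6 * (hζ.toInteger - 1) ^ 6) := by
  have : Fact (Nat.Prime 13) := ⟨by norm_num⟩
  have hp : (hζ.toInteger - 1) ^ (6 + 1) ∣ ((13 : ℕ) : 𝓞 K) := pi_pow_dvd_p hζ (by norm_num)
  have h := cert_thirteen_6 (hζ.toInteger - 1)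
  simp only [sub_add_cancel] at h
  rw [h]
  refine dvd_add (dvd_mul_right _ _) (dvd_mul_of_dvd_left ?_ _)
  exact_mod_cast hp

theorem dvd_thirteen_8 {K : Type*} [Field K] {ζ : K} (hζ : IsPrimitiveRoot ζ 13) :
    (hζ.toInteger - 1) ^ (8 + 1) ∣
      hζ.toInteger ^ 1 * (∑ i ∈ Finset.range 2, hζ.toInteger ^ i) ^ 12 * (∑ i ∈ Finset.range 3, hζ.toInteger ^ i) ^ 11 * (∑ i ∈ Finset.range 4, hζ.toInteger ^ i) ^ 4 * (∑ i ∈ Finset.range 5, hζ.toInteger ^ i) ^ 1 * (∑ i ∈ Finset.range 6, hζ.toInteger ^ i) ^ 0 -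
        (2 + 2 * (hζ.toInteger - 1) ^ 8) := by
  have : Fact (Nat.Prime 13) := ⟨by norm_num⟩
  have hp : (hζ.toInteger - 1) ^ (8 + 1) ∣ ((13 : ℕ) : 𝓞 K) := pi_pow_dvd_p hζ (by norm_num)
  have h := cert_thirteen_8 (hζ.toInteger - 1)
  simp only [sub_add_cancel] at h
  rw [h]
  refine dvd_add (dvd_mul_right _ _) (dvd_mul_of_dvd_left ?_ _)
  exact_mod_cast hp

theorem dvd_thirteen_10 {K : Type*} [Field K] {ζ : K} (hζ : IsPrimitiveRoot ζ 13) :
    (hζ.toInteger - 1) ^ (10 + 1) ∣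
      hζ.toInteger ^ 2 * (∑ i ∈ Finset.range 2, hζ.toInteger ^ i) ^ 3 * (∑ i ∈ Finset.range 3, hζ.toInteger ^ i) ^ 10 * (∑ i ∈ Finset.range 4, hζ.toInteger ^ i) ^ 12 * (∑ i ∈ Finset.range 5, hζ.toInteger ^ i) ^ 9 * (∑ i ∈ Finset.range 6, hζ.toInteger ^ i) ^ 1 -
        (5 + 10 * (hζ.toInteger - 1) ^ 10) := by
  have : Fact (Nat.Prime 13) := ⟨by norm_num⟩
  have hp : (hζ.toInteger - 1) ^ (10 + 1) ∣ ((13 : ℕ) : 𝓞 K) := pi_pow_dvd_p hζ (by norm_num)
  have h := cert_thirteen_10 (hζ.toInteger - 1)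
  simp only [sub_add_cancel] at h
  rw [h]
  refine dvd_add (dvd_mul_right _ _) (dvd_mul_of_dvd_left ?_ _)
  exact_mod_cast hp

/-- Explicit independent units for `p = 13`. -/
theorem exists_indep_units_thirteen (K : Type*) [Field K] [NumberField K]
    [IsCyclotomicExtension {13} ℚ K] :
    ∃ v : Fin ((13 - 1) / 2) → (𝓞 K)ˣ, ∀ e : Fin ((13 - 1) / 2) → ℤ,
      (∃ n : ℤ, ((13 : ℕ) : 𝓞 K) ∣ ((∏ i, v i ^ e i : (𝓞 K)ˣ) : 𝓞 K) - n) →
        ∀ i, ((13 : ℕ) : ℤ) ∣ e i := by
  have : Fact (Nat.Prime 13) := ⟨by norm_num⟩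
  have hζ := IsCyclotomicExtension.zeta_spec 13 ℚ K
  have hprim := hζ.toInteger_isPrimitiveRoot
  let zu : (𝓞 K)ˣ := (hprim.isUnit (by norm_num)).unit
  let g2 : (𝓞 K)ˣ := (hprim.geom_sum_isUnit (by norm_num) (by norm_num : Nat.Coprime 2 13)).unit
  let g3 : (𝓞 K)ˣ := (hprim.geom_sum_isUnit (by norm_num) (by norm_num : Nat.Coprime 3 13)).unit
  let g4 : (𝓞 K)ˣ := (hprim.geom_sum_isUnit (by norm_num) (by norm_num : Nat.Coprime 4 13)).unit
  let g5 : (𝓞 K)ˣ := (hprim.geom_sum_isUnit (by norm_num) (by norm_num : Nat.Coprime 5 13)).unit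
  let g6 : (𝓞 K)ˣ := (hprim.geom_sum_isUnit (by norm_num) (by norm_num : Nat.Coprime 6 13)).unit
  have hzu : (zu : 𝓞 K) = hζ.toInteger := rfl
  have hg2 : (g2 : 𝓞 K) = ∑ i ∈ Finset.range 2, hζ.toInteger ^ i := rfl
  have hg3 : (g3 : 𝓞 K) = ∑ i ∈ Finset.range 3, hζ.toInteger ^ i := rfl
  have hg4 : (g4 : 𝓞 K) = ∑ i ∈ Finset.range 4, hζ.toInteger ^ i := rfl
  have hg5 : (g5 : 𝓞 K) = ∑ i ∈ Finset.range 5, hζ.toInteger ^ i := rfl
  have hg6 : (g6 : 𝓞 K) = ∑ i ∈ Finset.range 6, hζ.toInteger ^ i := rfl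
  refine ⟨![zu ^ 1 * g2 ^ 0 * g3 ^ 0 * g4 ^ 0 * g5 ^ 0 * g6 ^ 0, zu ^ 6 * g2 ^ 1 * g3 ^ 0 * g4 ^ 0 * g5 ^ 0 * g6 ^ 0, zu ^ 9 * g2 ^ 6 * g3 ^ 1 * g4 ^ 0 * g5 ^ 0 * g6 ^ 0, zu ^ 6 * g2 ^ 7 * g3 ^ 2 * g4 ^ 1 * g5 ^ 0 * g6 ^ 0, zu ^ 1 * g2 ^ 12 * g3 ^ 11 * g4 ^ 4 * g5 ^ 1 * g6 ^ 0, zu ^ 2 * g2 ^ 3 * g3 ^ 10 * g4 ^ 12 * g5 ^ 9 * g6 ^ 1], ?_⟩
  intro e he
  refine hindep_of_triangular hζ _ ![1, 2, 10, 6, 2, 5] ![1, 10, 6, 6, 2, 10] ![1, 2, 4, 6, 8, 10] ?_ ?_ ?_ ?_ ?_ e he
  · intro i; fin_cases i <;> simp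
  · intro i; fin_cases i <;> simp
  · intro i j hij; fin_cases i <;> fin_cases j <;> simp at hij ⊢
  · intro i; fin_cases i <;> norm_num
  · intro i
    fin_cases i
    · simp [hzu]
    · have h := dvd_thirteen_2 hζ
      simpa [Units.val_mul, Units.val_pow_eq_pow_val, hzu, hg2, hg3, hg4, hg5, hg6] using h
    · have h := dvd_thirteen_4 hζ
      simpa [Units.val_mul, Units.val_pow_eq_pow_val, hzu, hg2, hg3, hg4, hg5, hg6] using h
    · have h := dvd_thirteen_6 hζ
      simpa [Units.val_mul, Units.val_pow_eq_pow_val, hzu, hg2, hg3, hg4, hg5, hg6] using h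
    · have h := dvd_thirteen_8 hζ
      simpa [Units.val_mul, Units.val_pow_eq_pow_val, hzu, hg2, hg3, hg4, hg5, hg6] using h
    · have h := dvd_thirteen_10 hζ
      simpa [Units.val_mul, Units.val_pow_eq_pow_val, hzu, hg2, hg3, hg4, hg5, hg6] using h

end Fermat.Agent.S11.helper73
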