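import Fermat.Agent.S11.helper94_KummerUnits

set_option autoImplicit false

namespace Fermat.Agent.S11.helper94

open NumberField

/-- A table of natural numbers as a function `ℕ → ℕ → ℕ`. -/
def tab (L : List (List ℕ)) : ℕ → ℕ → ℕ := fun i k => (L.getD i []).getD k 0

/-- Coefficients of the logarithmic derivatives of the standard cyclotomic units, `p = 5`. -/
def cTab5 : ℕ → ℕ → ℕ := tab [[3, 1, 2], [1, 3, 0]]

/-- A right inverse modulo `5` of `cTab5`. -/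
def dTab5 : ℕ → ℕ → ℕ := tab [[1, 3], [3, 1], [0, 0]]

theorem checkA_five : ∀ i < (5 - 1) / 2, CheckA 5 3 (i + 2) (cTab5 i) := by
  decide

theorem checkB_five : CheckB 5 3 ((5 - 1) / 2) cTab5 dTab5 := by
  decide

/-- **Kummer's lemma for `p = 5`**: a unit of `ℤ[ζ_5]` congruent to a rational integer
modulo `5` is a `5`-th power. -/
theorem kummerLemma_five (K : Type*) [Field K] [NumberField K] [IsCyclotomicExtension {5} ℚ K]
    (u : (𝓞 K)ˣ) (h : ∃ k : ℤ, ((5 : ℕ) : 𝓞 K) ∣ (u : 𝓞 K) - k) : ∃ v' : (𝓞 K)ˣ, u = v' ^ 5 :=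
  haveI : Fact (Nat.Prime 5) := ⟨by norm_num⟩
  kummerLemma_of_checks (p := 5) K (by norm_num) 3 (by norm_num) cTab5 dTab5
    checkA_five checkB_five u h

/-- Coefficients of the logarithmic derivatives of the standard cyclotomic units, `p = 7`. -/
def cTab7 : ℕ → ℕ → ℕ := tab [[4, 5, 1, 3, 2], [1, 2, 0, 4, 3], [5, 5, 4, 0, 0]]

/-- A right inverse modulo `7` of `cTab7`. -/
def dTab7 : ℕ → ℕ → ℕ := tab [[3, 3, 0], [4, 4, 3], [0, 0, 0], [6, 1, 2], [0, 0, 0]]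

theorem checkA_seven : ∀ i < (7 - 1) / 2, CheckA 7 5 (i + 2) (cTab7 i) := by
  decide

theorem checkB_seven : CheckB 7 5 ((7 - 1) / 2) cTab7 dTab7 := by
  decide

/-- **Kummer's lemma for `p = 7`**: a unit of `ℤ[ζ_7]` congruent to a rational integer
modulo `7` is a `7`-th power. -/
theorem kummerLemma_seven (K : Type*) [Field K] [NumberField K] [IsCyclotomicExtension {7} ℚ K]
    (u : (𝓞 K)ˣ) (h : ∃ k : ℤ, ((7 : ℕ) : 𝓞 K) ∣ (u : 𝓞 K) - k) : ∃ v' : (𝓞 K)ˣ, u = v' ^ 7 :=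
  haveI : Fact (Nat.Prime 7) := ⟨by norm_num⟩
  kummerLemma_of_checks (p := 7) K (by norm_num) 5 (by norm_num) cTab7 dTab7
    checkA_seven checkB_seven u h

/-- Coefficients of the logarithmic derivatives of the standard cyclotomic units, `p = 11`. -/
def cTab11 : ℕ → ℕ → ℕ := tab [[6, 8, 7, 2, 10, 6, 8, 7, 2], [1, 7, 0, 5, 6, 7, 2, 3, 0], [7, 8, 1, 8, 7, 6, 4, 0, 0], [2, 0, 10, 3, 0, 6, 5, 6, 5], [8, 5, 5, 8, 6, 0, 0, 0, 0]]

/-- A right inverse modulo `11` of `cTab11`. -/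
def dTab11 : ℕ → ℕ → ℕ := tab [[6, 7, 0, 6, 7], [8, 7, 4, 0, 2], [0, 0, 0, 0, 0], [0, 1, 3, 5, 7], [0, 0, 0, 0, 0], [8, 5, 0, 1, 0], [0, 0, 0, 0, 0], [1, 5, 4, 2, 7], [0, 0, 0, 0, 0]]

theorem checkA_eleven : ∀ i < (11 - 1) / 2, CheckA 11 9 (i + 2) (cTab11 i) := by
  decide

theorem checkB_eleven : CheckB 11 9 ((11 - 1) / 2) cTab11 dTab11 := by
  decide

/-- **Kummer's lemma for `p = 11`**: a unit of `ℤ[ζ_11]` congruent to a rational integer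
modulo `11` is a `11`-th power. -/
theorem kummerLemma_eleven (K : Type*) [Field K] [NumberField K] [IsCyclotomicExtension {11} ℚ K]
    (u : (𝓞 K)ˣ) (h : ∃ k : ℤ, ((11 : ℕ) : 𝓞 K) ∣ (u : 𝓞 K) - k) : ∃ v' : (𝓞 K)ˣ, u = v' ^ 11 :=
  haveI : Fact (Nat.Prime 11) := ⟨by norm_num⟩
  kummerLemma_of_checks (p := 11) K (by norm_num) 9 (by norm_num) cTab11 dTab11
    checkA_eleven checkB_eleven u h

/-- Coefficients of the logarithmic derivatives of the standard cyclotomic units, `p = 13`. -/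
def cTab13 : ℕ → ℕ → ℕ := tab [[7, 3, 5, 4, 11, 1, 6, 10, 8, 9, 2], [1, 4, 0, 3, 10, 2, 12, 9, 0, 10, 3], [8, 3, 11, 11, 1, 1, 11, 5, 4, 9, 4], [2, 0, 12, 6, 0, 2, 11, 4, 7, 3, 5], [9, 8, 3, 8, 9, 1, 6, 7, 6, 7, 6], [3, 1, 10, 1, 3, 7, 0, 0, 0, 0, 0]]

/-- A right inverse modulo `13` of `cTab13`. -/
def dTab13 : ℕ → ℕ → ℕ := tab [[10, 12, 7, 4, 2, 2], [2, 12, 11, 2, 8, 6], [0, 0, 0, 0, 0, 0], [10, 2, 9, 2, 9, 6], [0, 0, 0, 0, 0, 0], [7, 4, 9, 7, 6, 5], [0, 0, 0, 0, 0, 0], [11, 0, 6, 1, 0, 1], [0, 0, 0, 0, 0, 0], [6, 7, 11, 5, 7, 8], [0, 0, 0, 0, 0, 0]]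

theorem checkA_thirteen : ∀ i < (13 - 1) / 2, CheckA 13 11 (i + 2) (cTab13 i) := by
  decide

theorem checkB_thirteen : CheckB 13 11 ((13 - 1) / 2) cTab13 dTab13 := by
  decide

/-- **Kummer's lemma for `p = 13`**: a unit of `ℤ[ζ_13]` congruent to a rational integer
modulo `13` is a `13`-th power. -/
theorem kummerLemma_thirteen (K : Type*) [Field K] [NumberField K] [IsCyclotomicExtension {13} ℚ K]
    (u : (𝓞 K)ˣ) (h : ∃ k : ℤ, ((13 : ℕ) : 𝓞 K) ∣ (u : 𝓞 K) - k) : ∃ v' : (𝓞 K)ˣ, u = v' ^ 13 :=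
  haveI : Fact (Nat.Prime 13) := ⟨by norm_num⟩
  kummerLemma_of_checks (p := 13) K (by norm_num) 11 (by norm_num) cTab13 dTab13
    checkA_thirteen checkB_thirteen u h

end Fermat.Agent.S11.helper94
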