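import Fermat.Agent.S11.helper94_KummerGeneric

set_option autoImplicit false

namespace Fermat.Agent.S11.helper94

open NumberField NumberField.Units Polynomial TrivSqZeroExt

/-- The truncated polynomial ring `𝔽_p[T] / (T ^ n)`. -/
abbrev TP (p n : ℕ) : Type := (ZMod p)[X] ⧸ Ideal.span {(X : (ZMod p)[X]) ^ n}

/-- The class of a polynomial in `TP p n`. -/
noncomputable abbrev tmk (p n : ℕ) : (ZMod p)[X] →+* TP p n :=
  Ideal.Quotient.mk (Ideal.span {(X : (ZMod p)[X]) ^ n})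

theorem tmk_eq_zero_iff (p n : ℕ) (f : (ZMod p)[X]) :
    tmk p n f = 0 ↔ ∀ k < n, f.coeff k = 0 := by
  rw [Ideal.Quotient.eq_zero_iff_mem, Ideal.mem_span_singleton, Polynomial.X_pow_dvd_iff]

/-- The dual numbers over the truncated polynomial ring. -/
abbrev TB (p n : ℕ) : Type := DualNumber (TP p n)

/-- The element `1 + T + ε` of `TB p n`. -/
noncomputable def sElt (p n : ℕ) : TB p n := inl (tmk p n (1 + X)) + inr 1

theorem fst_sElt (p n : ℕ) : (sElt p n).fst = tmk p n (1 + X) := by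
  simp [sElt]

theorem snd_sElt (p n : ℕ) : (sElt p n).snd = 1 := by
  simp [sElt]

theorem fst_sElt_pow (p n j : ℕ) : ((sElt p n) ^ j).fst = tmk p n ((1 + X) ^ j) := by
  rw [fst_pow, fst_sElt, map_pow]

theorem snd_sElt_pow (p n j : ℕ) :
    ((sElt p n) ^ j).snd = tmk p n (derivative ((1 + X) ^ j)) := by
  rw [snd_pow, fst_sElt, snd_sElt, derivative_pow]
  simp only [smul_eq_mul, mul_one, derivative_add, derivative_one, derivative_X, zero_add,
    map_mul, map_pow, map_natCast]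
  rw [nsmul_eq_mul, Nat.pred_eq_sub_one]

variable {p : ℕ} [hp : Fact p.Prime]

theorem natCast_self_TB (n : ℕ) : ((p : ℕ) : TB p n) = 0 := by
  rw [← map_natCast (algebraMap (ZMod p) (TB p n)), ZMod.natCast_self, map_zero]

theorem sElt_sub_one_pow (n : ℕ) (hn : n + 2 ≤ p) : (sElt p n - 1) ^ (p - 1) = 0 := by
  have h1 : sElt p n - 1 = inl (tmk p n X) + inr 1 := by
    rw [sElt, map_add, map_one, inl_add, inl_one]
    abel
  rw [h1]
  have hX1 : (tmk p n X) ^ (p - 1) = 0 := by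
    rw [← map_pow, Ideal.Quotient.eq_zero_iff_mem, Ideal.mem_span_singleton]
    exact pow_dvd_pow X (by omega)
  have hX2 : (tmk p n X) ^ (p - 2) = 0 := by
    rw [← map_pow, Ideal.Quotient.eq_zero_iff_mem, Ideal.mem_span_singleton]
    exact pow_dvd_pow X (by omega)
  ext
  · simp [hX1]
  · simp only [snd_pow, fst_add, fst_inl, fst_inr, add_zero, snd_add, snd_inl, snd_inr, zero_add,
      snd_zero]
    rw [show (p - 1).pred = p - 2 by rw [Nat.pred_eq_sub_one]; omega, hX2]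
    simp

theorem aeval_sElt_cyclotomic (n : ℕ) (hn : n + 2 ≤ p) :
    aeval (sElt p n) (cyclotomic p ℤ) = 0 := by
  have : CharP (ZMod p)[X] p := inferInstance
  have h0 : cyclotomic p (ZMod p) = (X - 1) ^ (p - 1) := by
    have := cyclotomic_mul_prime_pow_eq (ZMod p) (p := p) (m := 1)
      (fun h => hp.out.one_lt.ne' (Nat.dvd_one.mp h)) (k := 1) one_pos
    simpa [cyclotomic_one] using this
  have h1 : aeval (sElt p n) (cyclotomic p ℤ) = aeval (sElt p n) (cyclotomic p (ZMod p)) := by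
    rw [← map_cyclotomic_int p (ZMod p), ← algebraMap_int_eq, aeval_map_algebraMap]
  rw [h1, h0]
  simp only [map_pow, map_sub, aeval_X, map_one]
  exact sElt_sub_one_pow n hn


variable (K : Type*) [Field K] [NumberField K] [IsCyclotomicExtension {p} ℚ K]

/-- The chosen primitive `p`-th root of unity, as an algebraic integer. -/
noncomputable def zetaInt : 𝓞 K :=
  haveI : NeZero p := ⟨hp.out.ne_zero⟩
  (IsCyclotomicExtension.zeta_spec p ℚ K).toInteger

theorem zetaInt_isPrimitiveRoot : IsPrimitiveRoot (zetaInt (p := p) K) p :=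
  haveI : NeZero p := ⟨hp.out.ne_zero⟩
  (IsCyclotomicExtension.zeta_spec p ℚ K).toInteger_isPrimitiveRoot

/-- The ring homomorphism `𝓞 K → (𝔽_p[T]/(T^n))[ε]` sending `ζ` to `1 + T + ε`. -/
noncomputable def rhoHom (n : ℕ) (hn : n + 2 ≤ p) : 𝓞 K →+* TB p n :=
  haveI : NeZero p := ⟨hp.out.ne_zero⟩
  (((IsCyclotomicExtension.zeta_spec p ℚ K).integralPowerBasis.lift (sElt p n) (by
    rw [IsPrimitiveRoot.integralPowerBasis_gen, ← RingOfIntegers.minpoly_coe]
    change aeval (sElt p n) (minpoly ℤ (IsCyclotomicExtension.zeta p ℚ K)) = 0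
    rw [← cyclotomic_eq_minpoly (IsCyclotomicExtension.zeta_spec p ℚ K) hp.out.pos]
    exact aeval_sElt_cyclotomic n hn)) : 𝓞 K →+* TB p n)

theorem rhoHom_zetaInt (n : ℕ) (hn : n + 2 ≤ p) :
    rhoHom K n hn (zetaInt (p := p) K) = sElt p n := by
  have : NeZero p := ⟨hp.out.ne_zero⟩
  unfold rhoHom zetaInt
  have := (IsCyclotomicExtension.zeta_spec p ℚ K).integralPowerBasis.lift_gen (sElt p n) (by
    rw [IsPrimitiveRoot.integralPowerBasis_gen, ← RingOfIntegers.minpoly_coe]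
    change aeval (sElt p n) (minpoly ℤ (IsCyclotomicExtension.zeta p ℚ K)) = 0
    rw [← cyclotomic_eq_minpoly (IsCyclotomicExtension.zeta_spec p ℚ K) hp.out.pos]
    exact aeval_sElt_cyclotomic n hn)
  have hgen := IsPrimitiveRoot.integralPowerBasis_gen (IsCyclotomicExtension.zeta_spec p ℚ K)
  calc _ = _ := congrArg _ hgen.symm
    _ = sElt p n := this

theorem rhoHom_natCast_self (n : ℕ) (hn : n + 2 ≤ p) : rhoHom K n hn (p : 𝓞 K) = 0 := by
  rw [map_natCast, natCast_self_TB]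

/-- The logarithmic derivative of a unit, as an element of `𝔽_p[T]/(T^n)`. -/
noncomputable def dlog (n : ℕ) (hn : n + 2 ≤ p) (u : (𝓞 K)ˣ) : TP p n :=
  (rhoHom K n hn (u : 𝓞 K)).snd * (rhoHom K n hn ((u⁻¹ : (𝓞 K)ˣ) : 𝓞 K)).fst

theorem fst_rhoHom_mul_inv (n : ℕ) (hn : n + 2 ≤ p) (u : (𝓞 K)ˣ) :
    (rhoHom K n hn (u : 𝓞 K)).fst * (rhoHom K n hn ((u⁻¹ : (𝓞 K)ˣ) : 𝓞 K)).fst = 1 := by
  rw [← fst_mul, ← map_mul, ← Units.val_mul, mul_inv_cancel, Units.val_one, map_one, fst_one]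

theorem dlog_mul (n : ℕ) (hn : n + 2 ≤ p) (u v : (𝓞 K)ˣ) :
    dlog K n hn (u * v) = dlog K n hn u + dlog K n hn v := by
  unfold dlog
  have h1 := fst_rhoHom_mul_inv K n hn u
  have h2 := fst_rhoHom_mul_inv K n hn v
  rw [mul_inv, Units.val_mul, Units.val_mul, map_mul, map_mul, DualNumber.snd_mul, fst_mul]
  linear_combination
    ((rhoHom K n hn (v : 𝓞 K)).snd * (rhoHom K n hn ((v⁻¹ : (𝓞 K)ˣ) : 𝓞 K)).fst) * h1 +
    ((rhoHom K n hn (u : 𝓞 K)).snd * (rhoHom K n hn ((u⁻¹ : (𝓞 K)ˣ) : 𝓞 K)).fst) * h2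

theorem dlog_one (n : ℕ) (hn : n + 2 ≤ p) : dlog K n hn (1 : (𝓞 K)ˣ) = 0 := by
  unfold dlog
  simp

/-- `dlog` as a monoid homomorphism into the additive group of `𝔽_p[T]/(T^n)`. -/
noncomputable def dlogHom (n : ℕ) (hn : n + 2 ≤ p) : (𝓞 K)ˣ →* Multiplicative (TP p n) where
  toFun u := Multiplicative.ofAdd (dlog K n hn u)
  map_one' := by rw [dlog_one]; rfl
  map_mul' u v := by rw [dlog_mul]; rfl

theorem dlog_prod_zpow (n : ℕ) (hn : n + 2 ≤ p) {m : ℕ} (v : Fin m → (𝓞 K)ˣ) (e : Fin m → ℤ) :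
    dlog K n hn (∏ i, v i ^ e i) = ∑ i, e i • dlog K n hn (v i) := by
  have h := map_prod (dlogHom K n hn) (fun i => v i ^ e i) Finset.univ
  have h2 := congrArg Multiplicative.toAdd h
  rw [toAdd_prod] at h2
  simp only [map_zpow, toAdd_zpow] at h2
  exact h2

theorem dlog_eq_zero_of_dvd (n : ℕ) (hn : n + 2 ≤ p) (u : (𝓞 K)ˣ) (k : ℤ)
    (h : (p : 𝓞 K) ∣ (u : 𝓞 K) - k) : dlog K n hn u = 0 := by
  obtain ⟨c, hc⟩ := h
  have h1 : (u : 𝓞 K) = k + p * c := by rw [← hc]; ring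
  unfold dlog
  rw [h1, map_add, map_mul, rhoHom_natCast_self, zero_mul, add_zero, map_intCast, snd_intCast,
    zero_mul]

theorem dlog_eq_of_snd_eq (n : ℕ) (hn : n + 2 ≤ p) (u : (𝓞 K)ˣ) (P : TP p n)
    (h : (rhoHom K n hn (u : 𝓞 K)).snd = P * (rhoHom K n hn (u : 𝓞 K)).fst) :
    dlog K n hn u = P := by
  unfold dlog
  rw [h, mul_assoc, fst_rhoHom_mul_inv, mul_one]

/-- Reduction of the independence hypothesis of `kummerLemma_of_indep` to linear independence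
of logarithmic derivatives. -/
theorem indep_of_dlog (n : ℕ) (hn : n + 2 ≤ p) {m : ℕ} (v : Fin m → (𝓞 K)ˣ)
    (hL : ∀ e : Fin m → ℤ, ∑ i, e i • dlog K n hn (v i) = 0 → ∀ i, (p : ℤ) ∣ e i) :
    ∀ e : Fin m → ℤ,
      (∃ k : ℤ, (p : 𝓞 K) ∣ ((∏ i, v i ^ e i : (𝓞 K)ˣ) : 𝓞 K) - k) → ∀ i, (p : ℤ) ∣ e i := by
  intro e ⟨k, hk⟩
  apply hL e
  rw [← dlog_prod_zpow]
  exact dlog_eq_zero_of_dvd K n hn _ k hk


/-! ### Explicit cyclotomic units -/

/-- Coefficients of `Y_a = ∑_{j<a} (1+X)^j`. -/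
def ycoef (a j : ℕ) : ℕ := ∑ i ∈ Finset.range a, i.choose j

/-- The polynomial `Y_a = ∑_{j<a} (1+X)^j` over `𝔽_p`. -/
noncomputable def Ypoly (p a : ℕ) : (ZMod p)[X] := ∑ j ∈ Finset.range a, (1 + X) ^ j

theorem coeff_Ypoly (p a j : ℕ) : (Ypoly p a).coeff j = ((ycoef a j : ℕ) : ZMod p) := by
  unfold Ypoly ycoef
  rw [finsetSum_coeff]
  push_cast
  exact Finset.sum_congr rfl (fun i _ => coeff_one_add_X_pow (ZMod p) i j)

/-- The polynomial with prescribed coefficients (below degree `n`). -/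
noncomputable def Ppoly (p n : ℕ) (c : ℕ → ℕ) : (ZMod p)[X] :=
  ∑ l ∈ Finset.range n, C ((c l : ℕ) : ZMod p) * X ^ l

theorem coeff_Ppoly (p n : ℕ) (c : ℕ → ℕ) (k : ℕ) (hk : k < n) :
    (Ppoly p n c).coeff k = ((c k : ℕ) : ZMod p) := by
  unfold Ppoly
  rw [finsetSum_coeff]
  simp only [coeff_C_mul_X_pow]
  rw [Finset.sum_eq_single k]
  · simp
  · intro b _ hb
    simp [Ne.symm hb]
  · intro h
    exact absurd (Finset.mem_range.mpr hk) h

/-- The decidable check that `P = Y_a' / Y_a` modulo `(p, X^n)`. -/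
def CheckA (p n a : ℕ) (c : ℕ → ℕ) : Prop :=
  ∀ k < n, (ycoef a (k + 1) * (k + 1)) % p =
    (∑ x ∈ Finset.range (k + 1), c x * ycoef a (k - x)) % p

instance (p n a : ℕ) (c : ℕ → ℕ) : Decidable (CheckA p n a c) := by
  unfold CheckA; infer_instance

theorem tmk_derivative_Ypoly (p n a : ℕ) (c : ℕ → ℕ) (h : CheckA p n a c) :
    tmk p n (derivative (Ypoly p a)) = tmk p n (Ppoly p n c) * tmk p n (Ypoly p a) := by
  rw [← map_mul, ← sub_eq_zero, ← map_sub, tmk_eq_zero_iff]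
  intro k hk
  rw [coeff_sub, coeff_derivative, coeff_mul, Finset.Nat.sum_antidiagonal_eq_sum_range_succ
    (fun i j => (Ppoly p n c).coeff i * (Ypoly p a).coeff j), coeff_Ypoly, sub_eq_zero]
  have h1 : ∑ x ∈ Finset.range (k + 1), (Ppoly p n c).coeff x * (Ypoly p a).coeff (k - x) =
      ∑ x ∈ Finset.range (k + 1), (((c x * ycoef a (k - x) : ℕ)) : ZMod p) := by
    refine Finset.sum_congr rfl (fun x hx => ?_)
    rw [coeff_Ppoly p n c x (by have := Finset.mem_range.mp hx; omega), coeff_Ypoly]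
    push_cast; rfl
  rw [h1, ← Nat.cast_sum]
  have h2 := (ZMod.natCast_eq_natCast_iff' _ _ p).mpr (h k hk)
  rw [← h2]
  push_cast; rfl

variable {K}

theorem rhoHom_geom (n : ℕ) (hn : n + 2 ≤ p) (a : ℕ) :
    rhoHom K n hn (∑ j ∈ Finset.range a, (zetaInt (p := p) K) ^ j) =
      ∑ j ∈ Finset.range a, (sElt p n) ^ j := by
  rw [map_sum]
  exact Finset.sum_congr rfl (fun j _ => by rw [map_pow, rhoHom_zetaInt])

theorem fst_rhoHom_geom (n : ℕ) (hn : n + 2 ≤ p) (a : ℕ) :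
    (rhoHom K n hn (∑ j ∈ Finset.range a, (zetaInt (p := p) K) ^ j)).fst =
      tmk p n (Ypoly p a) := by
  rw [rhoHom_geom, fst_sum, Ypoly, map_sum]
  exact Finset.sum_congr rfl (fun j _ => fst_sElt_pow p n j)

theorem snd_rhoHom_geom (n : ℕ) (hn : n + 2 ≤ p) (a : ℕ) :
    (rhoHom K n hn (∑ j ∈ Finset.range a, (zetaInt (p := p) K) ^ j)).snd =
      tmk p n (derivative (Ypoly p a)) := by
  rw [rhoHom_geom, snd_sum, Ypoly, map_sum, map_sum]
  exact Finset.sum_congr rfl (fun j _ => snd_sElt_pow p n j)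

variable (K)

theorem coprime_add_two (i : Fin ((p - 1) / 2)) : ((i : ℕ) + 2).Coprime p := by
  have hi := i.2
  refine Nat.Coprime.symm ((Nat.Prime.coprime_iff_not_dvd hp.out).2 ?_)
  exact Nat.not_dvd_of_pos_of_lt (by omega) (by omega)

/-- The standard family of cyclotomic units `1 + ζ + ⋯ + ζ^(i+1)`, `0 ≤ i < (p-1)/2`. -/
noncomputable def stdUnit (i : Fin ((p - 1) / 2)) : (𝓞 K)ˣ :=
  ((zetaInt_isPrimitiveRoot (p := p) K).geom_sum_isUnit hp.out.two_le (coprime_add_two i)).unit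

theorem coe_stdUnit (i : Fin ((p - 1) / 2)) :
    ((stdUnit (p := p) K i : (𝓞 K)ˣ) : 𝓞 K) =
      ∑ j ∈ Finset.range ((i : ℕ) + 2), (zetaInt (p := p) K) ^ j := rfl

theorem dlog_stdUnit (n : ℕ) (hn : n + 2 ≤ p) (i : Fin ((p - 1) / 2)) (c : ℕ → ℕ)
    (h : CheckA p n ((i : ℕ) + 2) c) :
    dlog K n hn (stdUnit (p := p) K i) = tmk p n (Ppoly p n c) := by
  apply dlog_eq_of_snd_eq
  rw [coe_stdUnit, fst_rhoHom_geom, snd_rhoHom_geom]
  exact tmk_derivative_Ypoly p n _ c h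

/-- The decidable check that the coefficient matrix `c` has right inverse `d` modulo `p`. -/
def CheckB (p n m : ℕ) (c d : ℕ → ℕ → ℕ) : Prop :=
  ∀ i < m, ∀ j < m, (∑ k ∈ Finset.range n, c i k * d k j) % p = if i = j then 1 else 0

instance (p n m : ℕ) (c d : ℕ → ℕ → ℕ) : Decidable (CheckB p n m c d) := by
  unfold CheckB; infer_instance

/-- **Kummer's lemma from two finite checks.** -/
theorem kummerLemma_of_checks (hodd : p ≠ 2) (n : ℕ) (hn : n + 2 ≤ p) (c d : ℕ → ℕ → ℕ)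
    (hA : ∀ i < (p - 1) / 2, CheckA p n (i + 2) (c i))
    (hB : CheckB p n ((p - 1) / 2) c d) :
    ∀ u : (𝓞 K)ˣ, (∃ k : ℤ, (p : 𝓞 K) ∣ (u : 𝓞 K) - k) → ∃ v' : (𝓞 K)ˣ, u = v' ^ p := by
  apply kummerLemma_of_indep K hodd (stdUnit K)
  apply indep_of_dlog K n hn
  intro e he
  have hdl : ∀ i : Fin ((p - 1) / 2),
      dlog K n hn (stdUnit (p := p) K i) = tmk p n (Ppoly p n (c i)) :=
    fun i => dlog_stdUnit K n hn i (c i) (hA i i.2)
  simp only [hdl] at he
  -- coefficients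
  have hcoef : ∀ k < n, ∑ i : Fin ((p - 1) / 2), ((e i : ℤ) : ZMod p) * ((c i k : ℕ) : ZMod p) = 0 := by
    intro k hk
    have h1 : ∑ i, e i • tmk p n (Ppoly p n (c i)) =
        tmk p n (∑ i : Fin ((p - 1) / 2), C ((e i : ℤ) : ZMod p) * Ppoly p n (c i)) := by
      rw [map_sum]
      refine Finset.sum_congr rfl (fun i _ => ?_)
      rw [map_mul, zsmul_eq_mul]
      congr 1
    rw [h1, tmk_eq_zero_iff] at he
    have h2 := he k hk
    rw [finsetSum_coeff] at h2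
    simp only [coeff_C_mul] at h2
    rw [← h2]
    exact Finset.sum_congr rfl (fun i _ => by rw [coeff_Ppoly p n (c i) k hk])
  intro j
  rw [← ZMod.intCast_zmod_eq_zero_iff_dvd]
  have hδ : ∀ i : Fin ((p - 1) / 2),
      ((∑ k ∈ Finset.range n, c i k * d k j : ℕ) : ZMod p) = if i = j then 1 else 0 := by
    intro i
    have h3 := hB i i.2 j j.2
    have h4 : ((∑ k ∈ Finset.range n, c i k * d k j : ℕ) : ZMod p) =
        (((∑ k ∈ Finset.range n, c i k * d k j) % p : ℕ) : ZMod p) := by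
      rw [ZMod.natCast_mod]
    rw [h4, h3]
    by_cases hij : i = j
    · simp [hij]
    · have : (i : ℕ) ≠ j := fun h => hij (Fin.ext h)
      simp [hij, this]
  calc ((e j : ℤ) : ZMod p) = ∑ i, ((e i : ℤ) : ZMod p) * (if i = j then 1 else 0) := by
        simp
    _ = ∑ i, ((e i : ℤ) : ZMod p) * ((∑ k ∈ Finset.range n, c i k * d k j : ℕ) : ZMod p) := by
        refine Finset.sum_congr rfl (fun i _ => by rw [hδ i])
    _ = ∑ k ∈ Finset.range n,
          (∑ i, ((e i : ℤ) : ZMod p) * ((c i k : ℕ) : ZMod p)) * ((d k j : ℕ) : ZMod p) := by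
        simp only [Nat.cast_sum, Nat.cast_mul, Finset.mul_sum, Finset.sum_mul]
        rw [Finset.sum_comm]
        refine Finset.sum_congr rfl (fun k _ => Finset.sum_congr rfl (fun i _ => by ring))
    _ = 0 := by
        refine Finset.sum_eq_zero (fun k hk => ?_)
        rw [hcoef k (Finset.mem_range.mp hk), zero_mul]

end Fermat.Agent.S11.helper94
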